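import Mathlib
import Fermat.Agent.G1.Gen
import Fermat.Agent.G1.Jac.Defs
import Fermat.Agent.ESJ.Dict.Defs

/-!
# G1 / DICT: shared definitions for the analytic dictionary of `Γ₁(M) ∩ Γ₀(M a)`

Name-for-name mirror of `ESJ/Jac/Defs.lean` (Part 1) and `ESJ/Dict/Defs.lean` for the group
`Gam1a M a = Γ₁(M) ∩ Γ₀(M a)` and its function field `F1a M a = F1 M ⊔ F0(M a)` (`G1/Gen.lean`),
over an arbitrary coefficient field `K` with an embedding `ι : K →+* ℂ`
(`K = ℚ̄`, `ι = iotaK` and `K = ℂ`, `ι = id` are the two cases that are used).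

* `Gam1a M a`, `F1aK K M a`, generators indexed by `Ix M a = Dv (M * a) ⊕ (ZMod M)ˣ`
  (`inl d ↦ j(q^d)` / `J(d z)`, `inr u ↦ x_u`), `fm1K`, `ev1K`, `IsRep1K`;
* `valPt1K`, `valCusp1K` (in the parameter `q_{M a}`), `mer1K`;
* the inclusion `K·F0(M a) ⊆ K·F1a M a` as an `Algebra` instance (`incl0K`);
* `structure IsDict1 ι M a` (the dictionary; to be proved for `5 ≤ M`).

No proofs beyond the membership facts needed to state the definitions.
-/

set_option autoImplicit false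

open UpperHalfPlane ModularForm AlgebraicCurve CongruenceSubgroup ModularCurve
open scoped MatrixGroups Manifold IntermediateField

noncomputable section

namespace Fermat.Agent.G1.Dict

open Fermat.Agent.S24 Fermat.Agent.ESJ.Jac

/-- The group `Γ₁(M) ∩ Γ₀(M a)`. -/
def Gam1a (M a : ℕ) : Subgroup SL(2, ℤ) := Gamma1 M ⊓ Gamma0 (M * a)

theorem mem_Gam1a {M a : ℕ} {γ : SL(2, ℤ)} :
    γ ∈ Gam1a M a ↔ γ ∈ Gamma1 M ∧ γ ∈ Gamma0 (M * a) := Iff.rfl

/-- Index type of the generators of `F1a M a`: the divisors `d ∣ M a` (for `j(q^d)`) and the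
units `u` mod `M` (for `x_u`). -/
abbrev Ix (M a : ℕ) : Type := Dv (M * a) ⊕ (ZMod M)ˣ

section Formal

variable (K : Type) [Field K] [Algebra ℚ K] (M a : ℕ) [NeZero M] [NeZero a]

/-- `K·F1a(M, a) ⊆ K((q))`, the function field of `Γ₁(M) ∩ Γ₀(M a)` over `K`. -/
abbrev F1aK : Type := ↥(laurentBaseChange K (F1a M a))

/-- The formal generators over `ℚ`. -/
def gen1Q : Ix M a → LaurentSeries ℚ
  | Sum.inl d => haveI : NeZero d.1 := d.neZero; qExpand ℚ d.1 jq
  | Sum.inr u => xgen M u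

theorem gen1Q_mem (i : Ix M a) : gen1Q M a i ∈ F1a M a := by
  rcases i with d | u
  · have : NeZero d.1 := d.neZero
    exact full_le_F1a M a (jqd_mem_full (M * a) d.2)
  · exact F1_le_F1a M a (xgen_mem_F1 M u)

/-- The formal generators in `K·F1a(M, a)`. -/
def gen1K (i : Ix M a) : F1aK K M a :=
  ⟨coeffEmb K (gen1Q M a i), coeffEmb_mem_laurentBaseChange K (gen1Q_mem M a i)⟩

/-- Formal evaluation of a polynomial in the generators. -/
def fm1K : MvPolynomial (Ix M a) K →ₐ[K] F1aK K M a := MvPolynomial.aeval (gen1K K M a)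

variable {K} in
/-- `f = fm1K P / fm1K Q`. -/
def IsRep1K (f : F1aK K M a) (P Q : MvPolynomial (Ix M a) K) : Prop :=
  fm1K K M a Q ≠ 0 ∧ f = fm1K K M a P / fm1K K M a Q

/-! ### The inclusion `K·F0(M a) ⊆ K·F1a(M, a)` -/

theorem laurentBaseChange_mono {F₀ F₁ : IntermediateField ℚ (LaurentSeries ℚ)} (h : F₀ ≤ F₁) :
    laurentBaseChange K F₀ ≤ laurentBaseChange K F₁ := by
  rw [laurentBaseChange, IntermediateField.adjoin_le_iff]
  rintro _ ⟨y, hy, rfl⟩
  exact coeffEmb_mem_laurentBaseChange K (h hy)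

theorem FNK_le_F1aK :
    laurentBaseChange K (modularFunctionFieldFull (M * a)) ≤ laurentBaseChange K (F1a M a) :=
  laurentBaseChange_mono K (full_le_F1a M a)

/-- The inclusion `K·F0(M a) → K·F1a(M, a)`. -/
def incl0K : FNK K (M * a) →ₐ[K] F1aK K M a := IntermediateField.inclusion (FNK_le_F1aK K M a)

@[simp]
theorem coe_incl0K (x : FNK K (M * a)) :
    ((incl0K K M a x : F1aK K M a) : LaurentSeries K) = (x : LaurentSeries K) :=
  IntermediateField.coe_inclusion _ x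

theorem incl0K_injective : Function.Injective (incl0K K M a) := (incl0K K M a).injective

/-- `K·F1a(M, a)` as an algebra over `K·F0(M a)`. -/
instance algF0 : Algebra (FNK K (M * a)) (F1aK K M a) := (incl0K K M a).toRingHom.toAlgebra

theorem algebraMap_F0_apply (x : FNK K (M * a)) :
    algebraMap (FNK K (M * a)) (F1aK K M a) x = incl0K K M a x := rfl

@[simp]
theorem coe_algebraMap_F0 (x : FNK K (M * a)) :
    ((algebraMap (FNK K (M * a)) (F1aK K M a) x : F1aK K M a) : LaurentSeries K)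
      = (x : LaurentSeries K) := coe_incl0K K M a x

instance isScalarTower_F0 : IsScalarTower K (FNK K (M * a)) (F1aK K M a) :=
  IsScalarTower.of_algebraMap_eq fun c => ((incl0K K M a).commutes c).symm

end Formal

section Analytic

variable {K : Type} [Field K] [Algebra ℚ K] (ι : K →+* ℂ) (M a : ℕ) [NeZero M] [NeZero a]

/-- The analytic generators: `J(d z)` and `x_u`. -/
def gen1Fun (M a : ℕ) [NeZero M] : Ix M a → ℍ → ℂ
  | Sum.inl d => Jabd d.1 0 1
  | Sum.inr u => xfun M (u : ZMod M)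

/-- Analytic evaluation of a polynomial in the generators: `X_d ↦ (z ↦ J(d z))`, `X_u ↦ x_u`,
coefficients through `ι`. -/
def ev1K (ι : K →+* ℂ) (M a : ℕ) [NeZero M] : MvPolynomial (Ix M a) K →+* (ℍ → ℂ) :=
  MvPolynomial.eval₂Hom ((Pi.constRingHom ℍ ℂ).comp ι) (gen1Fun M a)

/-- The valuation of `K·F1a` at the point `τ ∈ ℍ` (order of the meromorphic function at `τ`). -/
def valPt1K (τ : ℍ) (f : F1aK K M a) : ℤ :=
  open scoped Classical in
  if h : ∃ P Q, IsRep1K M a f P Q then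
    ordAt (ev1K ι M a h.choose) τ - ordAt (ev1K ι M a h.choose_spec.choose) τ
  else 0

/-- The valuation of `K·F1a` at the cusp `g⁻¹ ∞`: order at `i∞` of `f ∘ g⁻¹` in the parameter
`q_{M a} = exp (2 π i z / (M a))` (every cusp width of `Γ₁(M) ∩ Γ₀(M a)` divides `M a`). -/
def valCusp1K (g : SL(2, ℤ)) (f : F1aK K M a) : ℤ :=
  open scoped Classical in
  if h : ∃ P Q, IsRep1K M a f P Q then
    ordInf (M * a) (trans g (ev1K ι M a h.choose))
      - ordInf (M * a) (trans g (ev1K ι M a h.choose_spec.choose))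
  else 0

/-- The meromorphic function on `ℂ` (only its restriction to `U` matters) attached to
`f ∈ K·F1a`: `ev P / ev Q` for the SAME chosen representative as in `valPt1K`. -/
def mer1K (f : F1aK K M a) : ℂ → ℂ :=
  open scoped Classical in
  if h : ∃ P Q, IsRep1K M a f P Q then
    fun z => ev1K ι M a h.choose (ofComplex z) / ev1K ι M a h.choose_spec.choose (ofComplex z)
  else 0

/-- The analytic dictionary of `K·F1a(M, a)` for the group `Γ₁(M) ∩ Γ₀(M a)` (regular when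
`5 ≤ M`: no elliptic points, no irregular cusps), mirror of `ESJ.Dict.IsDict`. -/
structure IsDict1 : Prop where
  /-- every element is a quotient of polynomial expressions in the generators -/
  exists_isRep1K : ∀ f : F1aK K M a, ∃ P Q, IsRep1K M a f P Q
  /-- formal identities are analytic identities -/
  fm1K_eq_zero_iff : ∀ P : MvPolynomial (Ix M a) K, fm1K K M a P = 0 ↔ ev1K ι M a P = 0
  mdiff_ev1K : ∀ P : MvPolynomial (Ix M a) K, MDiff (ev1K ι M a P)
  ev1K_smul : ∀ (P : MvPolynomial (Ix M a) K) (γ : SL(2, ℤ)), γ ∈ Gam1a M a → ∀ z : ℍ,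
    ev1K ι M a P (γ • z) = ev1K ι M a P z
  /-- the point valuation on any representative -/
  valPt1K_eq_of_isRep1K : ∀ (τ : ℍ) (f : F1aK K M a) (P Q : MvPolynomial (Ix M a) K),
    IsRep1K M a f P Q → f ≠ 0 →
      valPt1K ι M a τ f = ordAt (ev1K ι M a P) τ - ordAt (ev1K ι M a Q) τ
  /-- the cusp valuation on any representative -/
  valCusp1K_eq_of_isRep1K : ∀ (g : SL(2, ℤ)) (f : F1aK K M a) (P Q : MvPolynomial (Ix M a) K),
    IsRep1K M a f P Q → f ≠ 0 →
      valCusp1K ι M a g f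
        = ordInf (M * a) (trans g (ev1K ι M a P)) - ordInf (M * a) (trans g (ev1K ι M a Q))
  /-- off a discrete subset of `U`, `mer1K` is `ev P / ev Q` for ANY representative -/
  mer1K_eq_div_ae : ∀ (f : F1aK K M a) (P Q : MvPolynomial (Ix M a) K), IsRep1K M a f P Q →
    mer1K ι M a f =ᶠ[Filter.codiscreteWithin U]
      fun z => ev1K ι M a P (ofComplex z) / ev1K ι M a Q (ofComplex z)
  /-- the point valuations are raw valuations -/
  isRawVal_valPt1K : ∀ τ : ℍ, Counting.IsRawVal K (valPt1K ι M a τ)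
  /-- the cusp valuations are raw valuations -/
  isRawVal_valCusp1K : ∀ g : SL(2, ℤ), Counting.IsRawVal K (valCusp1K ι M a g)
  meromorphicOn_mer1K : ∀ f : F1aK K M a, MeromorphicOn (mer1K ι M a f) U
  meromorphicOrderAt_mer1K : ∀ f : F1aK K M a, f ≠ 0 → ∀ τ : ℍ,
    meromorphicOrderAt (mer1K ι M a f) (τ : ℂ) = ((valPt1K ι M a τ f : ℤ) : WithTop ℤ)
  mer1K_mob : ∀ (f : F1aK K M a) (γ : SL(2, ℤ)), γ ∈ Gam1a M a → ∀ z ∈ U,
    mer1K ι M a f (mob γ z) = mer1K ι M a f z
  mer1K_mul : ∀ f g : F1aK K M a, mer1K ι M a (f * g) =ᶠ[Filter.codiscreteWithin U]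
    fun z => mer1K ι M a f z * mer1K ι M a g z
  mer1K_add : ∀ f g : F1aK K M a, mer1K ι M a (f + g) =ᶠ[Filter.codiscreteWithin U]
    fun z => mer1K ι M a f z + mer1K ι M a g z
  mer1K_algebraMap : ∀ c : K, mer1K ι M a (algebraMap K (F1aK K M a) c)
    =ᶠ[Filter.codiscreteWithin U] fun _ => ι c
  mer1K_eq_zero_iff : ∀ f : F1aK K M a,
    mer1K ι M a f =ᶠ[Filter.codiscreteWithin U] (fun _ => (0 : ℂ)) ↔ f = 0
  /-- local shape at the cusp `g⁻¹ ∞`: `valCusp1K ι M a g` is the order of `f ∘ g⁻¹` at `i∞` in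
  `q_{M a} = exp (2 π i z / (M a))` -/
  mer1K_cusp_shape : ∀ f : F1aK K M a, f ≠ 0 → ∀ g : SL(2, ℤ),
    ∃ ψ : ℂ → ℂ, AnalyticAt ℂ ψ 0 ∧ ψ 0 ≠ 0 ∧ ∀ z : ℂ, z ∈ U →
      mer1K ι M a f (mob g⁻¹ z)
        = Function.Periodic.qParam ((M * a : ℕ) : ℝ) z ^ (valCusp1K ι M a g f) *
          ψ (Function.Periodic.qParam ((M * a : ℕ) : ℝ) z)
  merAtCusps_mer1K : ∀ f : F1aK K M a, MerAtCusps (mer1K ι M a f)
  hasPrincipalDivisors : HasPrincipalDivisors K (F1aK K M a)
  /-- cusps: width divisibility -/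
  dvd_valCusp1K_mul : ∀ (g : SL(2, ℤ)) (w : ℕ), 0 < w →
    g⁻¹ * ModularGroup.T ^ w * g ∈ Gam1a M a → ∀ f : F1aK K M a, f ≠ 0 →
    ((M * a : ℕ) : ℤ) ∣ valCusp1K ι M a g f * w
  /-- every place is a point place (index `1`: no elliptic points) or a cusp place, with EXACT
  index `M a / w`, `w` the width -/
  place_cases : ∀ v : Place K (F1aK K M a),
    (∃ τ : ℍ, ∀ f : F1aK K M a, f ≠ 0 → valPt1K ι M a τ f = v.ord f) ∨
    (∃ (g : SL(2, ℤ)) (e w : ℕ), 0 < w ∧ e * w = M * a ∧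
      g⁻¹ * ModularGroup.T ^ w * g ∈ Gam1a M a ∧
      ∀ f : F1aK K M a, f ≠ 0 → valCusp1K ι M a g f = e * v.ord f)
  /-- Kummer form: `n` divides all orders of `f` iff the point orders are divisible by `n` and
  the cusp orders (in `q_{M a}`) by `n * (M a / w)` -/
  forall_dvd_ord_iff : ∀ (n : ℕ) (f : F1aK K M a), f ≠ 0 →
    ((∀ v : Place K (F1aK K M a), (n : ℤ) ∣ v.ord f) ↔
      (∀ τ : ℍ, (n : ℤ) ∣ valPt1K ι M a τ f) ∧
      (∀ (g : SL(2, ℤ)) (w : ℕ), 0 < w → w ∣ M * a →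
        g⁻¹ * ModularGroup.T ^ w * g ∈ Gam1a M a →
        ((n * (M * a / w) : ℕ) : ℤ) ∣ valCusp1K ι M a g f))

end Analytic

end Fermat.Agent.G1.Dict
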