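/-
helper86 — G1 / DICT: function-field glue for `K·F1a(M, a)` over the trunk field `K·F0(M a)`
(ruling #5.E of the G1 plan).

For every field `K ⊇ ℚ` (generic; used for `K = ℚ̄, ℂ`) and all `M, a`:

* `isIntegral_xgen`        : `x_u` is integral over `F0(M)` (root of `∏_c (X − x_c)`, whose
  coefficients are diamond-invariant, hence in `F0(M)` by (H2));
* `finiteDimensional_F0`   : `K·F1a(M, a)` is finite over `K·F0(M a)` (the algebra `Dict.algF0`);
* `isIntegral_F0`          : … and integral;
* `j1K`, `finiteDimensional_j1K`, `transcendental_j1K` : finite over `K(j)`, `j` transcendental;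
* for algebraically closed `K`: `isFF1_F1aK`, `hasPrincipalDivisors_F1aK`, `deg_eq_one_F1aK`
  (and the trunk twin `deg_eq_one_F0`), `inertiaDeg_eq_one_F1aK`;
* generic: `finiteDimensional_adjoin_algebraMap`, `isFF1_algebraMap` — the setting `IsFF1`
  passes to a finite extension (same base function); `isFF1_base` for the image of a base
  function `B.x` of the trunk.
-/
import Mathlib
import Fermat.Agent.G1.Dict.Defs
import Fermat.Agent.G1.GenHyp
import Fermat.Agent.ESJ.Jac.FinDimK
import Fermat.Agent.Lib.FF.SettingP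
import Fermat.Agent.Lib.FF.RRFF1
import Fermat.Agent.Lib.FF.ExtDict

set_option autoImplicit false
set_option linter.style.haveILetI false
set_option linter.unusedSectionVars false

namespace Fermat.Agent.G1.Dict.FFGlue

open Polynomial AlgebraicCurve ModularCurve HahnSeries IntermediateField Fermat.Agent.Lib.FF
  Fermat.Agent.ESJ.Jac

noncomputable section

/-! ### Generic: finiteness over a simple subfield and `IsFF1` pass to finite extensions -/

section Generic

variable {K F F' : Type*} [Field K] [Field F] [Field F'] [Algebra K F] [Algebra K F']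
  [Algebra F F'] [IsScalarTower K F F']

/-- The image of `K(x) ⊆ F` in an extension `F'` is `K(x)` computed in `F'`. -/
theorem mem_adjoin_algebraMap_iff (x : F) (c : F') :
    c ∈ K⟮algebraMap F F' x⟯ ↔ ∃ c₀ : ↥(K⟮x⟯), algebraMap F F' (c₀ : F) = c := by
  constructor
  · intro hc
    obtain ⟨r, s, rfl⟩ := (IntermediateField.mem_adjoin_simple_iff K c).mp hc
    refine ⟨⟨aeval x r / aeval x s,
      (IntermediateField.mem_adjoin_simple_iff K _).mpr ⟨r, s, rfl⟩⟩, ?_⟩
    rw [map_div₀, ← aeval_algebraMap_apply, ← aeval_algebraMap_apply]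
  · rintro ⟨c₀, rfl⟩
    obtain ⟨r, s, hrs⟩ := (IntermediateField.mem_adjoin_simple_iff K (c₀ : F)).mp c₀.2
    rw [hrs, map_div₀, ← aeval_algebraMap_apply, ← aeval_algebraMap_apply]
    exact (IntermediateField.mem_adjoin_simple_iff K _).mpr ⟨r, s, rfl⟩

/-- If `F` is finite over `K(x)` and `F'` is finite over `F`, then `F'` is finite over `K(x)`
(computed in `F'`). -/
theorem finiteDimensional_adjoin_algebraMap (x : F) [FiniteDimensional ↥(K⟮x⟯) F]
    [Module.Finite F F'] : FiniteDimensional ↥(K⟮algebraMap F F' x⟯) F' := by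
  haveI : Module.Finite ↥(K⟮x⟯) F' := Module.Finite.trans F F'
  letI : Algebra ↥(K⟮x⟯) ↥(K⟮algebraMap F F' x⟯) :=
    ((algebraMap ↥(K⟮x⟯) F').codRestrict (K⟮algebraMap F F' x⟯).toSubfield
      (fun c => (mem_adjoin_algebraMap_iff x _).mpr ⟨c, rfl⟩)).toAlgebra
  haveI : IsScalarTower ↥(K⟮x⟯) ↥(K⟮algebraMap F F' x⟯) F' :=
    IsScalarTower.of_algebraMap_eq fun _ => rfl
  exact Module.Finite.of_restrictScalars_finite ↥(K⟮x⟯) ↥(K⟮algebraMap F F' x⟯) F'

omit [Algebra K F'] [IsScalarTower K F F'] in
theorem transcendental_algebraMap {x : F} (hx : Transcendental K x)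
    [Algebra K F'] [IsScalarTower K F F'] : Transcendental K (algebraMap F F' x) := by
  rw [transcendental_iff]
  intro p hp
  refine transcendental_iff.mp hx p ?_
  rw [aeval_algebraMap_apply] at hp
  exact (map_eq_zero (algebraMap F F')).mp hp

/-- **`IsFF1` passes to a finite extension**, with the same base function. -/
theorem isFF1_algebraMap [IsAlgClosed K] {x : F} (h : IsFF1 K F x) [Module.Finite F F'] :
    IsFF1 K F' (algebraMap F F' x) := by
  haveI := h.finiteDimensional
  haveI := finiteDimensional_adjoin_algebraMap (K := K) (F' := F') x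
  exact isFF1_of_isAlgClosed _ (transcendental_algebraMap h.transcendental)

/-- An intermediate field `E₁ ⊇ E₀` contained in a finite extension `T` of `E₀` is finite over
`E₀` (module structure along the inclusion). -/
theorem finite_of_forall_mem {K Ω : Type*} [Field K] [Field Ω] [Algebra K Ω]
    (E₀ E₁ : IntermediateField K Ω) (h01 : E₀ ≤ E₁) (T : IntermediateField ↥E₀ Ω)
    [FiniteDimensional ↥E₀ ↥T] (hT : ∀ y ∈ E₁, y ∈ T) :
    letI : Algebra ↥E₀ ↥E₁ := (IntermediateField.inclusion h01).toRingHom.toAlgebra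
    Module.Finite ↥E₀ ↥E₁ := by
  letI : Algebra ↥E₀ ↥E₁ := (IntermediateField.inclusion h01).toRingHom.toAlgebra
  let f : ↥E₁ →ₗ[↥E₀] ↥T :=
    { toFun := fun y => ⟨y.1, hT y.1 y.2⟩
      map_add' := fun _ _ => rfl
      map_smul' := fun _ _ => rfl }
  refine Module.Finite.of_injective f (fun y z h => ?_)
  have h' : ((f y : ↥T) : Ω) = ((f z : ↥T) : Ω) := congrArg (fun w : ↥T => (w : Ω)) h
  exact Subtype.ext h'

end Generic

/-! ### Integrality of the generators `x_u` -/

section Integral

variable (M : ℕ) [NeZero M]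

/-- The polynomial `∏_c (X − x_c)` has coefficients in `F0(M)` (by (H2)). -/
theorem prod_X_sub_C_mem_lifts :
    (∏ c : (ZMod M)ˣ, (X - Polynomial.C (xgen M c)) : (LaurentSeries ℚ)[X]) ∈
      Polynomial.lifts (algebraMap ↥(modularFunctionFieldFull M) (LaurentSeries ℚ)) := by
  classical
  rw [Polynomial.lifts_iff_coeff_lifts]
  intro n
  have hprod : (∏ c : (ZMod M)ˣ, (X - Polynomial.C (xgen M c)) : (LaurentSeries ℚ)[X]) =
      ((Finset.univ.val.map (xgen M)).map fun t => X - Polynomial.C t).prod := by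
    rw [Multiset.map_map]
    rfl
  have hcard : Multiset.card (Finset.univ.val.map (xgen M)) = Fintype.card (ZMod M)ˣ := by
    rw [Multiset.card_map]
    rfl
  have hes : ∀ j, (Finset.univ.val.map (xgen M)).esymm j ∈ modularFunctionFieldFull M := by
    intro j
    rw [← MvPolynomial.aeval_esymm_eq_multiset_esymm (ZMod M)ˣ ℚ]
    refine h2 M _ fun c => ?_
    exact MvPolynomial.rename_esymm (ZMod M)ˣ ℚ j (Equiv.mulLeft c)
  by_cases hn : n ≤ Multiset.card (Finset.univ.val.map (xgen M))
  · rw [hprod, Multiset.prod_X_sub_C_coeff _ hn]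
    have hmem : (-1 : LaurentSeries ℚ) ^ (Multiset.card (Finset.univ.val.map (xgen M)) - n) *
        (Finset.univ.val.map (xgen M)).esymm (Multiset.card (Finset.univ.val.map (xgen M)) - n) ∈
        modularFunctionFieldFull M :=
      mul_mem (pow_mem (neg_mem (one_mem _)) _) (hes _)
    exact ⟨⟨_, hmem⟩, rfl⟩
  · have hdeg : (∏ c : (ZMod M)ˣ, (X - Polynomial.C (xgen M c)) : (LaurentSeries ℚ)[X]).natDegree =
        Fintype.card (ZMod M)ˣ := by
      rw [Polynomial.natDegree_prod_of_monic _ _ (fun c _ => Polynomial.monic_X_sub_C _)]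
      simp
    rw [Polynomial.coeff_eq_zero_of_natDegree_lt (by rw [hdeg, ← hcard]; omega)]
    exact ⟨0, map_zero _⟩

/-- **`x_u` is integral over `F0(M)`.** -/
theorem isIntegral_xgen (u : (ZMod M)ˣ) :
    IsIntegral ↥(modularFunctionFieldFull M) (xgen M u) := by
  classical
  obtain ⟨q, hq, -, hmonic⟩ := Polynomial.lifts_and_degree_eq_and_monic
    (prod_X_sub_C_mem_lifts M)
    (Polynomial.monic_prod_of_monic _ _ (fun c _ => Polynomial.monic_X_sub_C _))
  refine ⟨q, hmonic, ?_⟩
  rw [← Polynomial.eval_map, hq, Polynomial.eval_prod]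
  exact Finset.prod_eq_zero (Finset.mem_univ u) (by simp)

variable (K : Type*) [Field K] [Algebra ℚ K]

/-- Integrality is preserved by the extension of coefficients. -/
theorem isIntegral_coeffEmb {F₀ : IntermediateField ℚ (LaurentSeries ℚ)}
    {E : IntermediateField K (LaurentSeries K)} (hle : ∀ y ∈ F₀, coeffEmb K y ∈ E)
    {y : LaurentSeries ℚ} (h : IsIntegral ↥F₀ y) : IsIntegral ↥E (coeffEmb K y) := by
  obtain ⟨q, hmonic, hq⟩ := h
  let ψ : ↥F₀ →+* ↥E :=
    ((coeffEmb K).comp (algebraMap ↥F₀ (LaurentSeries ℚ))).codRestrict E.toSubfield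
      (fun c => hle _ c.2)
  refine ⟨q.map ψ, hmonic.map ψ, ?_⟩
  rw [Polynomial.eval₂_map]
  have h1 := Polynomial.hom_eval₂ q (algebraMap ↥F₀ (LaurentSeries ℚ)) (coeffEmb K) y
  rw [hq, map_zero] at h1
  rw [h1]
  rfl

end Integral

/-! ### `K·F1a(M, a)` is finite over `K·F0(M a)` -/

section Finite

variable (K : Type) [Field K] [Algebra ℚ K] (M a : ℕ) [NeZero M] [NeZero a]

/-- The generators `x_u` of `K·F1a(M, a)` over `K·F0(M a)`, in `K((q))`. -/
def xSet : Set (LaurentSeries K) := Set.range fun u : (ZMod M)ˣ => coeffEmb K (xgen M u)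

/-- The field `K·F0(M a)(x_u : u)`, as an intermediate field of `K((q)) / K·F0(M a)`. -/
def adjX : IntermediateField (FNK K (M * a)) (LaurentSeries K) :=
  IntermediateField.adjoin (FNK K (M * a)) (xSet K M)

theorem coeffEmb_full_mem {y : LaurentSeries ℚ} (hy : y ∈ modularFunctionFieldFull M) :
    coeffEmb K y ∈ laurentBaseChange K (modularFunctionFieldFull (M * a)) :=
  coeffEmb_mem_laurentBaseChange K (full_degeneracy_le (dvd_mul_right M a) hy)

instance finite_xSet : Finite (xSet K M) := Set.finite_range _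

instance finiteDimensional_adjX : FiniteDimensional (FNK K (M * a)) (adjX K M a) := by
  refine IntermediateField.finiteDimensional_adjoin ?_
  rintro _ ⟨u, rfl⟩
  exact isIntegral_coeffEmb K (fun y hy => coeffEmb_full_mem K M a hy) (isIntegral_xgen M u)

/-- `K·F1a(M, a) ⊆ K·F0(M a)(x_u : u)`. -/
theorem mem_adjX_of_mem {y : LaurentSeries K} (hy : y ∈ laurentBaseChange K (F1a M a)) :
    y ∈ adjX K M a := by
  -- the subfield of `ℚ((q))` of series whose coefficient extension lies in `adjX`
  have hbase : ∀ z : LaurentSeries K, z ∈ laurentBaseChange K (modularFunctionFieldFull (M * a)) →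
      z ∈ adjX K M a := fun z hz =>
    IntermediateField.algebraMap_mem (adjX K M a) (⟨z, hz⟩ : FNK K (M * a))
  have hF1 : (F1 M).toSubfield ≤ Subfield.comap (coeffEmb K) (adjX K M a).toSubfield := by
    refine IntermediateField.adjoin_le_subfield _ _ ?_ ?_
    · rintro _ ⟨c, rfl⟩
      rw [eq_ratCast]
      exact SubfieldClass.ratCast_mem _ c
    · rintro z (hz | ⟨u, rfl⟩)
      · exact hbase _ (coeffEmb_full_mem K M a hz)
      · exact IntermediateField.subset_adjoin _ _ ⟨u, rfl⟩
  have hF1a : ∀ z ∈ F1a M a, coeffEmb K z ∈ adjX K M a := by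
    have h1 : (F1a M a).toSubfield ≤ Subfield.comap (coeffEmb K) (adjX K M a).toSubfield := by
      rw [F1a, IntermediateField.sup_toSubfield]
      refine sup_le hF1 ?_
      intro z hz
      exact hbase _ (coeffEmb_mem_laurentBaseChange K hz)
    exact fun z hz => h1 hz
  have h2 : (laurentBaseChange K (F1a M a)).toSubfield ≤ (adjX K M a).toSubfield := by
    refine IntermediateField.adjoin_le_subfield _ _ ?_ ?_
    · rintro _ ⟨c, rfl⟩
      exact hbase _ (IntermediateField.algebraMap_mem _ c)
    · rintro _ ⟨z, hz, rfl⟩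
      exact hF1a z hz
  exact h2 hy

/-- **`K·F1a(M, a)` is finite over `K·F0(M a)`** (every field `K ⊇ ℚ`, all `M`, `a`). -/
instance finiteDimensional_F0 : FiniteDimensional (FNK K (M * a)) (F1aK K M a) :=
  finite_of_forall_mem _ _ (FNK_le_F1aK K M a) (adjX K M a)
    (fun _ hy => mem_adjX_of_mem K M a hy)

/-- `K·F1a(M, a)` is integral over `K·F0(M a)`. -/
instance isIntegral_F0 : Algebra.IsIntegral (FNK K (M * a)) (F1aK K M a) :=
  Algebra.IsIntegral.of_finite _ _

/-- `j`, as an element of `K·F1a(M, a)`. -/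
def j1K : F1aK K M a := algebraMap (FNK K (M * a)) (F1aK K M a) (jBarK K (M * a))

/-- **`K·F1a(M, a)` is finite over `K(j)`.** -/
instance finiteDimensional_j1K : FiniteDimensional ↥(K⟮j1K K M a⟯) (F1aK K M a) := by
  haveI := FinDimK.finiteDimensional_jBarK K (M * a)
  exact finiteDimensional_adjoin_algebraMap (K := K) (jBarK K (M * a))

/-- `j` is transcendental over `K`. -/
theorem transcendental_j1K : Transcendental K (j1K K M a) :=
  transcendental_algebraMap (FinDimK.transcendental_jBarK K (M * a))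

variable [IsAlgClosed K]

/-- **`IsFF1` for `K·F1a(M, a)`** with the base function `j` (`K` algebraically closed). -/
theorem isFF1_F1aK : IsFF1 K (F1aK K M a) (j1K K M a) :=
  isFF1_of_isAlgClosed _ (transcendental_j1K K M a)

/-- **`K·F1a(M, a)` has principal divisors** (`K` algebraically closed). -/
theorem hasPrincipalDivisors_F1aK : HasPrincipalDivisors K (F1aK K M a) :=
  hasPrincipalDivisors_of_isAlgClosed (j1K K M a)

/-- Every place of `K·F1a(M, a)` has degree one (`K` algebraically closed). -/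
theorem deg_eq_one_F1aK (v : Place K (F1aK K M a)) : v.deg = 1 :=
  (isFF1_F1aK K M a).deg_eq_one v

/-- Every place of the trunk field `K·F0(M a)` has degree one (`= FinDimK.deg_eq_one_FNK`). -/
theorem deg_eq_one_F0 (v : Place K (FNK K (M * a))) : v.deg = 1 :=
  FinDimK.deg_eq_one_FNK K (M * a) v

/-- The inertia degrees of `K·F1a(M, a)` over `K·F0(M a)` are `1`. -/
theorem inertiaDeg_eq_one_F1aK (w : Place K (F1aK K M a)) :
    w.inertiaDeg (FNK K (M * a)) = 1 :=
  Fermat.Agent.Lib.FF.ExtDict.inertiaDeg_eq_one (deg_eq_one_F1aK K M a) w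

/-- **`IsFF1` for `K·F1a(M, a)` with the image of any base function of the trunk.** -/
theorem isFF1_base {x : FNK K (M * a)} (h : IsFF1 K (FNK K (M * a)) x) :
    IsFF1 K (F1aK K M a) (algebraMap (FNK K (M * a)) (F1aK K M a) x) :=
  isFF1_algebraMap h

end Finite

end

end Fermat.Agent.G1.Dict.FFGlue
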