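/-
helper86 — G1 / DICT: the finiteness facts of `G1/Dict/FFGlue.lean` in the literal shapes of the
consumers (ruling #6.5 of the G1 plan).

* (a) CONG (helper43, (L3)/(C2a)): `exists_transcendental_finiteDimensional` —
  `∃ x', Transcendental K x' ∧ FiniteDimensional K⟮x'⟯ (K·F1a M a)`;
* (b) JAC (helper92, (R4)): `j0 M a : F1a M a` (the `q`-expansion of `j`),
  `order_j0_ne_zero`, and the instance
  `FiniteDimensional (adjoin K {Jac.baseElt (F1a M a) K (j0 M a)}) (K·F1a M a)`
  for EVERY field `K ⊇ ℚ` (`K = ℂ`, `K = ℚ̄` are the cases used).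
-/
import Mathlib
import Fermat.Agent.G1.Dict.FFGlue
import Fermat.Agent.ESJ.Jac.DescentField

set_option autoImplicit false
set_option linter.unusedSectionVars false

namespace Fermat.Agent.G1.Dict.FFGlue

open Polynomial AlgebraicCurve ModularCurve HahnSeries IntermediateField Fermat.Agent.Lib.FF
  Fermat.Agent.ESJ.Jac

noncomputable section

variable (M a : ℕ) [NeZero M] [NeZero a]

/-- The `q`-expansion of `j`, as an element of `F1a M a`. -/
def j0 : ↥(F1a M a) :=
  ⟨qExpand ℚ 1 jq, full_le_F1a M a (jqd_mem_full (M * a) (one_dvd _))⟩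

theorem coe_j0 : ((j0 M a : ↥(F1a M a)) : LaurentSeries ℚ) = qExpand ℚ 1 jq := rfl

variable (K : Type) [Field K] [Algebra ℚ K]

/-- The base change of `j0` is `j1K`. -/
theorem baseElt_j0 : baseElt (F1a M a) K (j0 M a) = j1K K M a := Subtype.ext rfl

/-- The `q`-order of `j` is not zero. -/
theorem order_j0_ne_zero : ((j0 M a : ↥(F1a M a)) : LaurentSeries ℚ).order ≠ 0 := by
  have h := order_jBarK_ne_zero ℚ (M * a)
  have e : ((jBarK ℚ (M * a) : FNK ℚ (M * a)) : LaurentSeries ℚ) = coeffEmb ℚ (qExpand ℚ 1 jq) :=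
    rfl
  rw [e] at h
  have h1 : (coeffEmb ℚ (qExpand ℚ 1 jq)).order = (qExpand ℚ 1 jq).order :=
    DescentCore.order_coeffMap (algebraMap ℚ ℚ) (qExpand ℚ 1 jq)
  rw [h1] at h
  exact h

/-- **(R4)**: `K·F1a(M, a)` is finite over `K(j)`, in the shape of `Jac.descent_field` /
`G1.Jac.MainG`. -/
instance finiteDimensional_baseElt :
    FiniteDimensional ↥(IntermediateField.adjoin K {baseElt (F1a M a) K (j0 M a)})
      ↥(laurentBaseChange K (F1a M a)) := by
  rw [baseElt_j0]
  exact finiteDimensional_j1K K M a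

/-- **(C2a)/(L3)**: `K·F1a(M, a)` is a function field of one variable over `K`. -/
theorem exists_transcendental_finiteDimensional :
    ∃ x' : ↥(laurentBaseChange K (F1a M a)), Transcendental K x' ∧
      FiniteDimensional ↥(K⟮x'⟯) ↥(laurentBaseChange K (F1a M a)) :=
  ⟨j1K K M a, transcendental_j1K K M a, finiteDimensional_j1K K M a⟩

end

end Fermat.Agent.G1.Dict.FFGlue
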