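import Mathlib
import Fermat.Agent.G1.Dict.Defs
import Fermat.Agent.S24.MerCusp
import Fermat.Agent.S24.CuspVal
import Fermat.Agent.S24.PtInv

/-!
# G1 / DICT: the cusp half of the dictionary `IsDict1 ι M a`

For an arbitrary coefficient field `K` with an embedding `ι : K →+* ℂ` and the group
`Gam1a M a = Γ₁(M) ∩ Γ₀(M a)` (objects of `G1/Dict/Defs.lean`), this file proves, in the literal
shapes of the fields of `IsDict1`:

* `valCusp1K_eq_of_isRep1K` : the cusp valuation on any representative;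
* `isRawVal_valCusp1K` : the cusp valuations are raw valuations trivial on `K`;
* `mer1K_cusp_shape` : local shape of `mer1K f` at the cusp `g⁻¹ ∞` in the parameter `q_{M a}`;
* `merAtCusps_mer1K` : `mer1K f` is meromorphic at all cusps;
* `dvd_valCusp1K_mul` : width divisibility.

All auxiliary statements live in the namespace `Fermat.Agent.G1.Dict.Cusp` (the `q`-expansion
bridge at `i∞`, existence of representatives, the cusp expansions `cuspPoly1K` and the cusp
embedding); the five field statements are restated at the end in `Fermat.Agent.G1.Dict`.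
-/

set_option autoImplicit false
set_option linter.unusedSectionVars false

open UpperHalfPlane ModularForm CongruenceSubgroup Filter ModularCurve
open scoped MatrixGroups Manifold Topology

noncomputable section

namespace Fermat.Agent.G1.Dict

open Fermat.Agent.S24 Fermat.Agent.ESJ.Jac

namespace Cusp

/-! ## Part 1: the `q`-expansion bridge at `i∞` and representatives -/

section Bridge

variable {K : Type} [Field K] [Algebra ℚ K] (ι : K →+* ℂ) (M a : ℕ) [NeZero M] [NeZero a]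

/-- The formal generators as Laurent series over `K`. -/
def gen1L (K : Type) [Field K] [Algebra ℚ K] (M a : ℕ) [NeZero M] [NeZero a] (i : Ix M a) :
    LaurentSeries K :=
  (gen1K K M a i : LaurentSeries K)

omit ι in
theorem gen1L_eq (i : Ix M a) : gen1L K M a i = coeffEmb K (gen1Q M a i) := rfl

omit ι in
theorem coe_fm1K (P : MvPolynomial (Ix M a) K) :
    ((fm1K K M a P : F1aK K M a) : LaurentSeries K) = MvPolynomial.aeval (gen1L K M a) P := by
  have h := AlgHom.congr_fun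
    (MvPolynomial.comp_aeval (gen1K K M a) (laurentBaseChange K (F1a M a)).val) P
  exact h

/-- The analytic generators have the formal generators as `q`-expansions. -/
theorem hasQExp_gen1Fun (i : Ix M a) :
    QExp.HasQExp 1 (gen1Fun M a i) (coeffMap ι (gen1L K M a i)) := by
  rcases i with d | u
  · have : NeZero d.1 := d.neZero
    have e : coeffMap ι (gen1L K M a (Sum.inl d))
        = qExpand ℂ d.1 (coeffMap (algebraMap ℚ ℂ) jq) := by
      show coeffMap ι (coeffEmb K (qExpand ℚ d.1 jq)) = _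
      rw [coeffEmb, coeffMap_coeffMap, coeffMap_qExpand]
      congr 1
      exact coeffMap_congr (RingHom.ext_rat _ _) _
    rw [e]
    exact QExp.hasQExp_Jabd_scale d.1
  · have e : coeffMap ι (gen1L K M a (Sum.inr u))
        = coeffMap (algebraMap ℚ ℂ) (xgen M u) := by
      show coeffMap ι (coeffEmb K (xgen M u)) = _
      rw [coeffEmb, coeffMap_coeffMap]
      exact coeffMap_congr (RingHom.ext_rat _ _) _
    rw [e]
    exact hasQExp_xfun' u

/-- The analytic evaluation `ev1K ι M a P` has the formal evaluation `fm1K K M a P` as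
`q`-expansion. -/
theorem hasQExp_ev1K (P : MvPolynomial (Ix M a) K) :
    QExp.HasQExp 1 (ev1K ι M a P)
      (coeffMap ι ((fm1K K M a P : F1aK K M a) : LaurentSeries K)) := by
  rw [coe_fm1K]
  exact QExp.HasQExp.mvPolynomial ι (gen1Fun M a) _ (hasQExp_gen1Fun ι M a) P

/-- **Bridge (q-expansion principle)** for `Γ₁(M) ∩ Γ₀(M a)` over `(K, ι)`. -/
theorem ev1K_eq_zero_iff (P : MvPolynomial (Ix M a) K) :
    ev1K ι M a P = 0 ↔ fm1K K M a P = 0 := by
  have key := (hasQExp_ev1K ι M a P).eq_zero_iff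
  constructor
  · intro h0
    have := key.mp (fun τ => by rw [h0]; rfl)
    have h2 : ((fm1K K M a P : F1aK K M a) : LaurentSeries K) = 0 :=
      QExp.coeffMap_injective' ι (by rw [this, map_zero])
    exact Subtype.ext h2
  · intro h0
    funext τ
    exact key.mpr (by rw [h0]; simp) τ

theorem ev1K_ne_zero_iff (P : MvPolynomial (Ix M a) K) :
    ev1K ι M a P ≠ 0 ↔ fm1K K M a P ≠ 0 :=
  (ev1K_eq_zero_iff ι M a P).not

/-- `ev1K ι M a P` is holomorphic on `ℍ`. -/
theorem mdiff_ev1K (P : MvPolynomial (Ix M a) K) : MDiff (ev1K ι M a P) :=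
  (QLaurent.mem_MerInf_of_hasSum (h := 1) (hasQExp_ev1K ι M a P)).1

omit [NeZero a] [Algebra ℚ K] in
theorem ev1K_C (c : K) : ev1K ι M a (MvPolynomial.C c) = fun _ => ι c := by
  funext z
  simp [ev1K]

omit [NeZero a] [Algebra ℚ K] in
theorem ev1K_X (i : Ix M a) : ev1K ι M a (MvPolynomial.X i) = gen1Fun M a i := by
  simp [ev1K]

omit ι in
theorem laurentBaseChange_le_adjoin_gen1L :
    (laurentBaseChange K (F1a M a) : IntermediateField K (LaurentSeries K)) ≤
      IntermediateField.adjoin K (Set.range (gen1L K M a)) := by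
  rw [laurentBaseChange, IntermediateField.adjoin_le_iff]
  rintro _ ⟨x, hx, rfl⟩
  set F' := IntermediateField.adjoin K (Set.range (gen1L K M a)) with hF'
  let T : IntermediateField ℚ (LaurentSeries ℚ) :=
    (Subfield.comap (coeffEmb K) F'.toSubfield).toIntermediateField (fun c => by
      rw [eq_ratCast]
      exact SubfieldClass.ratCast_mem _ c)
  have hmemT : ∀ y : LaurentSeries ℚ, y ∈ T ↔ coeffEmb K y ∈ F' := fun y => Iff.rfl
  have hfull : ∀ (d : ℕ) [NeZero d], d ∣ M * a → qExpand ℚ d jq ∈ T := by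
    intro d hd hdN
    rw [hmemT]
    exact IntermediateField.subset_adjoin K _ ⟨Sum.inl ⟨d, hdN⟩, rfl⟩
  have hx1 : ∀ u : (ZMod M)ˣ, xgen M u ∈ T := by
    intro u
    rw [hmemT]
    exact IntermediateField.subset_adjoin K _ ⟨Sum.inr u, rfl⟩
  have hle : F1a M a ≤ T := by
    refine sup_le ?_ ?_
    · rw [F1, IntermediateField.adjoin_le_iff]
      rintro y (hy | ⟨u, rfl⟩)
      · have h1 : modularFunctionFieldFull M ≤ T := by
          rw [modularFunctionFieldFull, IntermediateField.adjoin_le_iff]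
          rintro z ⟨d, hd, hdM, rfl⟩
          exact hfull d (Dvd.dvd.mul_right hdM a)
        exact h1 hy
      · exact hx1 u
    · rw [modularFunctionFieldFull, IntermediateField.adjoin_le_iff]
      rintro z ⟨d, hd, hdM, rfl⟩
      exact hfull d hdM
  exact (hmemT x).mp (hle hx)

omit ι in
/-- **Representatives**: every element of `K·F1a(M, a)` is `fm1K P / fm1K Q`. -/
theorem exists_isRep1K (f : F1aK K M a) : ∃ P Q, IsRep1K M a f P Q := by
  have hf := laurentBaseChange_le_adjoin_gen1L M a f.2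
  rw [IntermediateField.mem_adjoin_range_iff] at hf
  obtain ⟨r, s, hrs⟩ := hf
  by_cases hs : MvPolynomial.aeval (gen1L K M a) s = 0
  · refine ⟨0, 1, by simp, ?_⟩
    apply Subtype.ext
    rw [hrs, hs, div_zero]
    simp
  · refine ⟨r, s, ?_, ?_⟩
    · intro h
      apply hs
      rw [← coe_fm1K, h]
      rfl
    · apply Subtype.ext
      rw [hrs, IntermediateField.coe_div, coe_fm1K, coe_fm1K]

omit ι in
theorem fm1K_ne_zero_of_isRep1K {f : F1aK K M a} {P Q : MvPolynomial (Ix M a) K}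
    (h : IsRep1K M a f P Q) (hf : f ≠ 0) : fm1K K M a P ≠ 0 := by
  intro h0
  apply hf
  rw [h.2, h0, zero_div]

omit ι in
theorem fm1K_cross_eq_zero {f : F1aK K M a} {P Q P' Q' : MvPolynomial (Ix M a) K}
    (h : IsRep1K M a f P Q) (h' : IsRep1K M a f P' Q') :
    fm1K K M a (P * Q' - P' * Q) = 0 := by
  obtain ⟨hQ, hfPQ⟩ := h
  obtain ⟨hQ', hfPQ'⟩ := h'
  have hcross : fm1K K M a P * fm1K K M a Q' = fm1K K M a P' * fm1K K M a Q := by
    have := hfPQ.symm.trans hfPQ'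
    rw [div_eq_div_iff hQ hQ'] at this
    exact this
  rw [map_sub, map_mul, map_mul, hcross, sub_self]

end Bridge

/-! ## Part 2: the cusp expansions -/

section CuspExp

variable {K : Type} [Field K] [Algebra ℚ K] (ι : K →+* ℂ) (M a : ℕ) [NeZero M] [NeZero a]

omit ι in
/-- Every `SL(2, ℤ)`-translate of `x_u` is holomorphic, `M a`-periodic and meromorphic at
`i∞`. -/
theorem trans_xfun_mem (u : ZMod M) (g : SL(2, ℤ)) :
    trans g (xfun M u) ∈ QLaurent.MerInf (M * a) :=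
  QLaurent.MerInf_le_mul M a (xfun_comp_mem_MerInf u g⁻¹)

/-- The `q_{M a}`-expansions of the translates by `g⁻¹` of the analytic generators. -/
def cuspGen1 (M a : ℕ) [NeZero M] [NeZero a] (g : SL(2, ℤ)) : Ix M a → LaurentSeries ℂ
  | Sum.inl d => coeffMap iotaK (QExp.cuspSeries (M * a) g d)
  | Sum.inr u =>
      QLaurent.Lq (M * a) ⟨trans g (xfun M (u : ZMod M)), trans_xfun_mem M a (u : ZMod M) g⟩

omit ι in
theorem hasQExp_trans_gen1Fun (g : SL(2, ℤ)) (i : Ix M a) :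
    QExp.HasQExp (M * a) (trans g (gen1Fun M a i)) (cuspGen1 M a g i) := by
  rcases i with d | u
  · exact QExp.hasQExp_cuspSeries (M * a) g d
  · exact fun τ =>
      QLaurent.hasSum_Lq ⟨trans g (xfun M (u : ZMod M)), trans_xfun_mem M a (u : ZMod M) g⟩ τ

/-- Evaluation of a polynomial in the generators at the `q_{M a}`-expansions of the generators
at the cusp `g⁻¹∞` (coefficients through `ι`). -/
def cuspPoly1K (g : SL(2, ℤ)) : MvPolynomial (Ix M a) K →+* LaurentSeries ℂ :=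
  MvPolynomial.eval₂Hom ((algebraMap ℂ (LaurentSeries ℂ)).comp ι) (cuspGen1 M a g)

omit [Algebra ℚ K] in
theorem cuspPoly1K_C (g : SL(2, ℤ)) (c : K) :
    cuspPoly1K ι M a g (MvPolynomial.C c) = HahnSeries.C (ι c) := by
  simp [cuspPoly1K, algebraMap_laurentSeries_eq_single]

omit [Algebra ℚ K] in
theorem cuspPoly1K_X (g : SL(2, ℤ)) (i : Ix M a) :
    cuspPoly1K ι M a g (MvPolynomial.X i) = cuspGen1 M a g i := by
  simp [cuspPoly1K]

/-- **Cusp expansion of `(ev1K ι M a P) ∘ g⁻¹`** in `q_{M a}`. -/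
theorem hasQExp_trans_ev1K (g : SL(2, ℤ)) (P : MvPolynomial (Ix M a) K) :
    QExp.HasQExp (M * a) (trans g (ev1K ι M a P)) (cuspPoly1K ι M a g P) := by
  induction P using MvPolynomial.induction_on with
  | C c =>
    have h1 : trans g (ev1K ι M a (MvPolynomial.C c)) = fun _ => ι c := by
      rw [ev1K_C]
      rfl
    rw [h1, cuspPoly1K_C]
    exact QExp.HasQExp.const (M * a) (ι c)
  | add p q hp hq =>
    rw [map_add, map_add]
    exact hp.add hq
  | mul_X p i hp =>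
    rw [map_mul, map_mul, ev1K_X, cuspPoly1K_X]
    exact hp.mul (hasQExp_trans_gen1Fun M a g i)

theorem cuspPoly1K_eq_zero_iff (g : SL(2, ℤ)) (P : MvPolynomial (Ix M a) K) :
    cuspPoly1K ι M a g P = 0 ↔ fm1K K M a P = 0 := by
  rw [← ev1K_eq_zero_iff ι, ← QExp.trans_eq_zero_iff g]
  have key := (hasQExp_trans_ev1K ι M a g P).eq_zero_iff
  constructor
  · intro h0
    funext z
    exact key.mpr h0 z
  · intro h0
    exact key.mp (fun z => by rw [h0]; rfl)

theorem cuspPoly1K_ne_zero (g : SL(2, ℤ)) {P : MvPolynomial (Ix M a) K}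
    (hP : fm1K K M a P ≠ 0) : cuspPoly1K ι M a g P ≠ 0 :=
  fun h => hP ((cuspPoly1K_eq_zero_iff ι M a g P).mp h)

/-- `ordInf` of a translate of `ev1K ι M a P` is the order of its cusp expansion. -/
theorem ordInf_trans_ev1K (g : SL(2, ℤ)) (P : MvPolynomial (Ix M a) K)
    (hP : fm1K K M a P ≠ 0) :
    ordInf (M * a) (trans g (ev1K ι M a P)) = (cuspPoly1K ι M a g P).order :=
  (hasQExp_trans_ev1K ι M a g P).ordInf_eq (cuspPoly1K_ne_zero ι M a g hP)

/-- Independence of the representative (cusps). -/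
theorem ordInf_sub_eq_of_isRep1K (g : SL(2, ℤ)) {f : F1aK K M a} (hf : f ≠ 0)
    {P Q P' Q' : MvPolynomial (Ix M a) K} (h : IsRep1K M a f P Q) (h' : IsRep1K M a f P' Q') :
    ordInf (M * a) (trans g (ev1K ι M a P)) - ordInf (M * a) (trans g (ev1K ι M a Q))
      = ordInf (M * a) (trans g (ev1K ι M a P'))
        - ordInf (M * a) (trans g (ev1K ι M a Q')) := by
  have hP := fm1K_ne_zero_of_isRep1K M a h hf
  have hP' := fm1K_ne_zero_of_isRep1K M a h' hf
  rw [ordInf_trans_ev1K ι M a g P hP, ordInf_trans_ev1K ι M a g Q h.1,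
    ordInf_trans_ev1K ι M a g P' hP', ordInf_trans_ev1K ι M a g Q' h'.1]
  have hcross : cuspPoly1K ι M a g P * cuspPoly1K ι M a g Q'
      = cuspPoly1K ι M a g P' * cuspPoly1K ι M a g Q := by
    have h1 := (cuspPoly1K_eq_zero_iff ι M a g _).2 (fm1K_cross_eq_zero M a h h')
    rwa [map_sub, map_mul, map_mul, sub_eq_zero] at h1
  have n1 := cuspPoly1K_ne_zero ι M a g hP
  have n2 := cuspPoly1K_ne_zero ι M a g h'.1
  have n3 := cuspPoly1K_ne_zero ι M a g hP'
  have n4 := cuspPoly1K_ne_zero ι M a g h.1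
  have e1 := HahnSeries.order_mul n1 n2
  have e2 := HahnSeries.order_mul n3 n4
  rw [hcross] at e1
  omega

/-- **The cusp valuation can be computed on any representative** (for `f ≠ 0`). -/
theorem valCusp1K_eq_of_isRep1K (g : SL(2, ℤ)) {f : F1aK K M a} (hf : f ≠ 0)
    {P Q : MvPolynomial (Ix M a) K} (h : IsRep1K M a f P Q) :
    valCusp1K ι M a g f
      = ordInf (M * a) (trans g (ev1K ι M a P)) - ordInf (M * a) (trans g (ev1K ι M a Q)) := by
  have hex : ∃ P Q, IsRep1K M a f P Q := ⟨P, Q, h⟩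
  unfold valCusp1K
  rw [dif_pos hex]
  exact ordInf_sub_eq_of_isRep1K ι M a g hf hex.choose_spec.choose_spec h

/-- The cusp valuation as a difference of orders of cusp expansions. -/
theorem valCusp1K_eq_order (g : SL(2, ℤ)) {f : F1aK K M a} (hf : f ≠ 0)
    {P Q : MvPolynomial (Ix M a) K} (h : IsRep1K M a f P Q) :
    valCusp1K ι M a g f
      = (cuspPoly1K ι M a g P).order - (cuspPoly1K ι M a g Q).order := by
  rw [valCusp1K_eq_of_isRep1K ι M a g hf h,
    ordInf_trans_ev1K ι M a g P (fm1K_ne_zero_of_isRep1K M a h hf),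
    ordInf_trans_ev1K ι M a g Q h.1]

/-! ### The cusp valuations are raw valuations -/

omit ι in
theorem isRep1K_mul {f₁ f₂ : F1aK K M a} {P₁ Q₁ P₂ Q₂ : MvPolynomial (Ix M a) K}
    (h₁ : IsRep1K M a f₁ P₁ Q₁) (h₂ : IsRep1K M a f₂ P₂ Q₂) :
    IsRep1K M a (f₁ * f₂) (P₁ * P₂) (Q₁ * Q₂) := by
  refine ⟨?_, ?_⟩
  · rw [map_mul]
    exact mul_ne_zero h₁.1 h₂.1
  · rw [map_mul, map_mul, h₁.2, h₂.2, div_mul_div_comm]

omit ι in
set_option synthInstance.maxHeartbeats 200000 in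
theorem isRep1K_add {f₁ f₂ : F1aK K M a} {P₁ Q₁ P₂ Q₂ : MvPolynomial (Ix M a) K}
    (h₁ : IsRep1K M a f₁ P₁ Q₁) (h₂ : IsRep1K M a f₂ P₂ Q₂) :
    IsRep1K M a (f₁ + f₂) (P₁ * Q₂ + Q₁ * P₂) (Q₁ * Q₂) := by
  refine ⟨?_, ?_⟩
  · rw [map_mul]
    exact mul_ne_zero h₁.1 h₂.1
  · rw [map_add (fm1K K M a), map_mul (fm1K K M a), map_mul (fm1K K M a), map_mul (fm1K K M a),
      h₁.2, h₂.2, div_add_div _ _ h₁.1 h₂.1]

omit ι in
theorem isRep1K_algebraMap (c : K) :
    IsRep1K M a (algebraMap K (F1aK K M a) c) (MvPolynomial.C c) 1 := by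
  refine ⟨?_, ?_⟩
  · rw [map_one]
    exact one_ne_zero
  · rw [map_one, div_one, fm1K, MvPolynomial.aeval_C]

/-- **[VAL], cusp half**: `valCusp1K ι M a g` is a raw valuation of `K·F1a(M, a)` trivial on
`K`. -/
theorem isRawVal_valCusp1K (g : SL(2, ℤ)) : Counting.IsRawVal K (valCusp1K ι M a g) where
  map_mul f₁ f₂ h₁ h₂ := by
    obtain ⟨P₁, Q₁, r₁⟩ := exists_isRep1K M a f₁
    obtain ⟨P₂, Q₂, r₂⟩ := exists_isRep1K M a f₂
    rw [valCusp1K_eq_order ι M a g (mul_ne_zero h₁ h₂) (isRep1K_mul M a r₁ r₂),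
      valCusp1K_eq_order ι M a g h₁ r₁, valCusp1K_eq_order ι M a g h₂ r₂, map_mul, map_mul,
      HahnSeries.order_mul (cuspPoly1K_ne_zero ι M a g (fm1K_ne_zero_of_isRep1K M a r₁ h₁))
        (cuspPoly1K_ne_zero ι M a g (fm1K_ne_zero_of_isRep1K M a r₂ h₂)),
      HahnSeries.order_mul (cuspPoly1K_ne_zero ι M a g r₁.1) (cuspPoly1K_ne_zero ι M a g r₂.1)]
    ring
  map_add f₁ f₂ h₁ h₂ h₁₂ := by
    obtain ⟨P₁, Q₁, r₁⟩ := exists_isRep1K M a f₁
    obtain ⟨P₂, Q₂, r₂⟩ := exists_isRep1K M a f₂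
    have r₁₂ := isRep1K_add M a r₁ r₂
    have nP₁ := cuspPoly1K_ne_zero ι M a g (fm1K_ne_zero_of_isRep1K M a r₁ h₁)
    have nP₂ := cuspPoly1K_ne_zero ι M a g (fm1K_ne_zero_of_isRep1K M a r₂ h₂)
    have nQ₁ := cuspPoly1K_ne_zero ι M a g r₁.1
    have nQ₂ := cuspPoly1K_ne_zero ι M a g r₂.1
    have nS := cuspPoly1K_ne_zero ι M a g (fm1K_ne_zero_of_isRep1K M a r₁₂ h₁₂)
    rw [valCusp1K_eq_order ι M a g h₁₂ r₁₂, valCusp1K_eq_order ι M a g h₁ r₁,
      valCusp1K_eq_order ι M a g h₂ r₂]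
    rw [map_add] at nS ⊢
    have e0 := HahnSeries.min_order_le_order_add nS
    rw [map_mul, map_mul] at e0 ⊢
    rw [map_mul]
    rw [HahnSeries.order_mul nP₁ nQ₂, HahnSeries.order_mul nQ₁ nP₂] at e0
    rw [HahnSeries.order_mul nQ₁ nQ₂]
    rcases min_le_iff.mp e0 with e | e
    · exact min_le_iff.mpr (Or.inl (by omega))
    · exact min_le_iff.mpr (Or.inr (by omega))
  map_algebraMap c hc := by
    rw [valCusp1K_eq_order ι M a g ((map_ne_zero _).mpr hc) (isRep1K_algebraMap M a c),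
      cuspPoly1K_C, map_one, HahnSeries.order_C, HahnSeries.order_one, sub_zero]

/-! ### Width divisibility -/

omit ι in
theorem gen1Fun_smul (i : Ix M a) (γ : SL(2, ℤ)) (hγ : γ ∈ Gam1a M a) (z : ℍ) :
    gen1Fun M a i (γ • z) = gen1Fun M a i z := by
  rcases i with d | u
  · exact PtInv.Jabd_smul_Gamma0 (M * a) d γ hγ.2 z
  · exact xfun_smul_Gamma1 _ γ hγ.1 z

omit [Algebra ℚ K] in
/-- `ev1K ι M a P` is invariant under `Γ₁(M) ∩ Γ₀(M a)`. -/
theorem ev1K_smul (P : MvPolynomial (Ix M a) K) (γ : SL(2, ℤ)) (hγ : γ ∈ Gam1a M a) (z : ℍ) :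
    ev1K ι M a P (γ • z) = ev1K ι M a P z := by
  induction P using MvPolynomial.induction_on with
  | C c => rw [ev1K_C]
  | add p q hp hq =>
    rw [map_add]
    simp only [Pi.add_apply]
    rw [hp, hq]
  | mul_X p i hp =>
    rw [map_mul, ev1K_X]
    simp only [Pi.mul_apply]
    rw [hp, gen1Fun_smul M a i γ hγ z]

/-- **[CUSP]**: width divisibility. -/
theorem dvd_valCusp1K_mul (g : SL(2, ℤ)) (w : ℕ)
    (hmem : g⁻¹ * ModularGroup.T ^ w * g ∈ Gam1a M a) (f : F1aK K M a) :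
    ((M * a : ℕ) : ℤ) ∣ valCusp1K ι M a g f * w := by
  have hN : 0 < M * a := Nat.pos_of_ne_zero (NeZero.ne _)
  unfold valCusp1K
  split_ifs with hrep
  · rw [sub_mul]
    exact dvd_sub
      (CuspVal.dvd_ordInf_mul_of_periodic hN _
        (CuspVal.trans_periodic_of_mem (ev1K_smul ι M a _) g w hmem))
      (CuspVal.dvd_ordInf_mul_of_periodic hN _
        (CuspVal.trans_periodic_of_mem (ev1K_smul ι M a _) g w hmem))
  · simp

end CuspExp

/-! ## Part 3: the meromorphic function at the cusps -/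

section Mer

variable {K : Type} [Field K] [Algebra ℚ K] (ι : K →+* ℂ) (M a : ℕ) [NeZero M] [NeZero a]

/-- `mer1K f` is the quotient `ev1K P / ev1K Q` for the chosen representative of `f`. -/
theorem exists_mer1K_eq (f : F1aK K M a) :
    ∃ P Q : MvPolynomial (Ix M a) K, IsRep1K M a f P Q ∧
      mer1K ι M a f
        = fun z : ℂ => ev1K ι M a P (ofComplex z) / ev1K ι M a Q (ofComplex z) := by
  have hex : ∃ P Q, IsRep1K M a f P Q := exists_isRep1K M a f
  refine ⟨hex.choose, hex.choose_spec.choose, hex.choose_spec.choose_spec, ?_⟩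
  unfold mer1K
  exact dif_pos hex

/-- `mer1K f ∘ g⁻¹` on `U` as a quotient of translates. -/
theorem mer1K_mob_inv (f : F1aK K M a) {P Q : MvPolynomial (Ix M a) K}
    (hmer : mer1K ι M a f
      = fun z : ℂ => ev1K ι M a P (ofComplex z) / ev1K ι M a Q (ofComplex z))
    (g : SL(2, ℤ)) {z : ℂ} (hz : z ∈ U) :
    mer1K ι M a f (mob g⁻¹ z)
      = trans g (ev1K ι M a P) ⟨z, hz⟩ / trans g (ev1K ι M a Q) ⟨z, hz⟩ := by
  have h1 : mob g⁻¹ z = ((g⁻¹ • (⟨z, hz⟩ : ℍ) : ℍ) : ℂ) := MerCusp.mob_coe_aux g⁻¹ ⟨z, hz⟩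
  rw [hmer]
  show ev1K ι M a P (ofComplex (mob g⁻¹ z)) / ev1K ι M a Q (ofComplex (mob g⁻¹ z))
    = ev1K ι M a P (g⁻¹ • (⟨z, hz⟩ : ℍ)) / ev1K ι M a Q (g⁻¹ • (⟨z, hz⟩ : ℍ))
  rw [h1, UpperHalfPlane.ofComplex_apply]

/-- **Local shape of `mer1K f` at the cusp `g⁻¹ ∞`.** -/
theorem mer1K_cusp_shape (f : F1aK K M a) (hf : f ≠ 0) (g : SL(2, ℤ)) :
    ∃ ψ : ℂ → ℂ, AnalyticAt ℂ ψ 0 ∧ ψ 0 ≠ 0 ∧ ∀ z : ℂ, z ∈ U →
      mer1K ι M a f (mob g⁻¹ z)
        = Function.Periodic.qParam ((M * a : ℕ) : ℝ) z ^ (valCusp1K ι M a g f) *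
          ψ (Function.Periodic.qParam ((M * a : ℕ) : ℝ) z) := by
  obtain ⟨P, Q, hrep, hmer⟩ := exists_mer1K_eq ι M a f
  have hQ : fm1K K M a Q ≠ 0 := hrep.1
  have hP : fm1K K M a P ≠ 0 := fm1K_ne_zero_of_isRep1K M a hrep hf
  have hLP := hasQExp_trans_ev1K ι M a g P
  have hLQ := hasQExp_trans_ev1K ι M a g Q
  have hLP0 := cuspPoly1K_ne_zero ι M a g hP
  have hLQ0 := cuspPoly1K_ne_zero ι M a g hQ
  obtain ⟨ψP, hPa, hP0, hPe⟩ := MerCusp.hasQExp_shape hLP hLP0
  obtain ⟨ψQ, hQa, hQ0, hQe⟩ := MerCusp.hasQExp_shape hLQ hLQ0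
  have hval := valCusp1K_eq_order ι M a g hf hrep
  refine ⟨fun q => ψP q / ψQ q, hPa.div hQa hQ0, div_ne_zero hP0 hQ0, fun z hz => ?_⟩
  have hq0 : Function.Periodic.qParam ((M * a : ℕ) : ℝ) z ≠ 0 := Complex.exp_ne_zero _
  rw [mer1K_mob_inv ι M a f hmer g hz, hPe ⟨z, hz⟩, hQe ⟨z, hz⟩, hval]
  show Function.Periodic.qParam ((M * a : ℕ) : ℝ) z ^ _ *
        ψP (Function.Periodic.qParam ((M * a : ℕ) : ℝ) z)
      / (Function.Periodic.qParam ((M * a : ℕ) : ℝ) z ^ _ *
        ψQ (Function.Periodic.qParam ((M * a : ℕ) : ℝ) z))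
    = Function.Periodic.qParam ((M * a : ℕ) : ℝ) z ^ _ *
      (ψP (Function.Periodic.qParam ((M * a : ℕ) : ℝ) z)
        / ψQ (Function.Periodic.qParam ((M * a : ℕ) : ℝ) z))
  rw [zpow_sub₀ hq0, mul_div_mul_comm]

/-- `mer1K 0 = 0`. -/
theorem mer1K_zero : mer1K ι M a (0 : F1aK K M a) = 0 := by
  obtain ⟨P, Q, hrep, hmer⟩ := exists_mer1K_eq ι M a (0 : F1aK K M a)
  have hP : fm1K K M a P = 0 := by
    have h := hrep.2
    rcases div_eq_zero_iff.mp h.symm with h0 | h0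
    · exact h0
    · exact absurd h0 hrep.1
  have hev : ev1K ι M a P = 0 := (ev1K_eq_zero_iff ι M a P).mpr hP
  rw [hmer, hev]
  funext z
  simp

/-- **`mer1K f` is meromorphic at all cusps.** -/
theorem merAtCusps_mer1K (f : F1aK K M a) : MerAtCusps (mer1K ι M a f) := by
  intro g
  by_cases hf : f = 0
  · subst hf
    rw [mer1K_zero]
    exact ⟨0, 0, fun z _ => ⟨analyticAt_const, by simp⟩⟩
  · obtain ⟨ψ, hψ, -, hsh⟩ := mer1K_cusp_shape ι M a f hf g⁻¹
    simp only [inv_inv] at hsh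
    exact MerCusp.exists_bound_of_shape (M * a) (mer1K ι M a f) g (valCusp1K ι M a g⁻¹ f) ψ hψ hsh

end Mer

end Cusp

/-! ## The five cusp fields of `IsDict1`, in their literal shapes -/

section Fields

variable {K : Type} [Field K] [Algebra ℚ K] (ι : K →+* ℂ) (M a : ℕ) [NeZero M] [NeZero a]

/-- Field `IsDict1.valCusp1K_eq_of_isRep1K`. -/
theorem cusp_valCusp1K_eq_of_isRep1K :
    ∀ (g : SL(2, ℤ)) (f : F1aK K M a) (P Q : MvPolynomial (Ix M a) K),
      IsRep1K M a f P Q → f ≠ 0 →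
        valCusp1K ι M a g f
          = ordInf (M * a) (trans g (ev1K ι M a P)) - ordInf (M * a) (trans g (ev1K ι M a Q)) :=
  fun g _ _ _ h hf => Cusp.valCusp1K_eq_of_isRep1K ι M a g hf h

/-- Field `IsDict1.isRawVal_valCusp1K`. -/
theorem cusp_isRawVal_valCusp1K :
    ∀ g : SL(2, ℤ), Counting.IsRawVal K (valCusp1K ι M a g) :=
  fun g => Cusp.isRawVal_valCusp1K ι M a g

/-- Field `IsDict1.mer1K_cusp_shape`. -/
theorem cusp_mer1K_cusp_shape :
    ∀ f : F1aK K M a, f ≠ 0 → ∀ g : SL(2, ℤ),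
      ∃ ψ : ℂ → ℂ, AnalyticAt ℂ ψ 0 ∧ ψ 0 ≠ 0 ∧ ∀ z : ℂ, z ∈ U →
        mer1K ι M a f (mob g⁻¹ z)
          = Function.Periodic.qParam ((M * a : ℕ) : ℝ) z ^ (valCusp1K ι M a g f) *
            ψ (Function.Periodic.qParam ((M * a : ℕ) : ℝ) z) :=
  fun f hf g => Cusp.mer1K_cusp_shape ι M a f hf g

/-- Field `IsDict1.merAtCusps_mer1K`. -/
theorem cusp_merAtCusps_mer1K : ∀ f : F1aK K M a, MerAtCusps (mer1K ι M a f) :=
  fun f => Cusp.merAtCusps_mer1K ι M a f

/-- Field `IsDict1.dvd_valCusp1K_mul`. -/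
theorem cusp_dvd_valCusp1K_mul :
    ∀ (g : SL(2, ℤ)) (w : ℕ), 0 < w →
      g⁻¹ * ModularGroup.T ^ w * g ∈ Gam1a M a → ∀ f : F1aK K M a, f ≠ 0 →
      ((M * a : ℕ) : ℤ) ∣ valCusp1K ι M a g f * w :=
  fun g w _ hmem f _ => Cusp.dvd_valCusp1K_mul ι M a g w hmem f

end Fields

end Fermat.Agent.G1.Dict
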