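import Mathlib
import Fermat.Agent.G1.Dict.Cusp
import Fermat.Agent.G1.GalBridge

/-!
# G1 / DICT: the valuations `valCusp1K`, `valPt1K` relative to the trunk `K·F0(M a)`

The cusp-side (and the two restriction) inputs of the relative place dictionary
(`RelData` of `G1/Dict/RelAbs.lean`), for `F' = K·F1a(M, a)` over `F0 = K·F0(M a)`:

* `valCusp1K_T_zpow_mul` (`cusp_T`): `valCusp1K (T ^ k * g) f = valCusp1K g f`;
* `valCusp1K_mul_of_mem`: `valCusp1K (g * γ) f = valCusp1K g f` for `γ ∈ Γ₁(M) ∩ Γ₀(M a)`;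
* `valCusp1K_algebraMap_F0` (`res_cusp`): `valCusp1K g (algebraMap x) = valCuspK ι (M a) g x`;
* `valPt1K_algebraMap_F0` (`res_pt`): `valPt1K τ (algebraMap x) = valPtK ι (M a) τ x`;
* `valCusp1K_diaK` (`ρ_cusp`): `valCusp1K g (δ_c f) = valCusp1K (g γ⁻¹) f` for `γ ∈ Γ₀(M a)` with
  lower right entry `≡ c` modulo `M`.
-/

set_option autoImplicit false
set_option linter.unusedSectionVars false

open UpperHalfPlane ModularForm CongruenceSubgroup Filter ModularCurve
open scoped MatrixGroups Manifold Topology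

noncomputable section

namespace Fermat.Agent.G1.Dict.CuspRel

open Fermat.Agent.S24 Fermat.Agent.ESJ.Jac Fermat.Agent.ESJ.Dict Fermat.Agent.G1.Gal

variable {K : Type} [Field K] [Algebra ℚ K] (ι : K →+* ℂ) (M a : ℕ) [NeZero M] [NeZero a]

/-- **`T`-invariance** of the cusp valuation. -/
theorem valCusp1K_T_zpow_mul (k : ℤ) (g : SL(2, ℤ)) (f : F1aK K M a) :
    valCusp1K ι M a (ModularGroup.T ^ k * g) f = valCusp1K ι M a g f := by
  have hN : 0 < M * a := Nat.pos_of_ne_zero (NeZero.ne _)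
  unfold valCusp1K
  split_ifs with h
  · rw [CuspVal.ordInf_trans_T_zpow_mul hN, CuspVal.ordInf_trans_T_zpow_mul hN]
  · rfl

/-- Independence of the representative of the coset `g (Γ₁(M) ∩ Γ₀(M a))`. -/
theorem valCusp1K_mul_of_mem (g : SL(2, ℤ)) {γ : SL(2, ℤ)} (hγ : γ ∈ Gam1a M a)
    (f : F1aK K M a) : valCusp1K ι M a (g * γ) f = valCusp1K ι M a g f := by
  unfold valCusp1K
  split_ifs with h
  · rw [CuspVal.trans_mul_of_invariant (Cusp.ev1K_smul ι M a _) g hγ,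
      CuspVal.trans_mul_of_invariant (Cusp.ev1K_smul ι M a _) g hγ]
  · rfl

omit ι in
/-- Representatives over the trunk give representatives over `K·F1a(M, a)`. -/
theorem isRep1K_algebraMap_F0 {x : FNK K (M * a)} {P Q : MvPolynomial (Dv (M * a)) K}
    (h : IsRepK (M * a) x P Q) :
    IsRep1K M a (algebraMap (FNK K (M * a)) (F1aK K M a) x)
      (MvPolynomial.rename Sum.inl P) (MvPolynomial.rename Sum.inl Q) := by
  refine ⟨?_, ?_⟩
  · rw [fm1K_rename_inl]
    exact (map_ne_zero _).mpr h.1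
  · rw [fm1K_rename_inl, fm1K_rename_inl, ← map_div₀, ← h.2]

/-- **Restriction to the trunk (cusps)**: on `K·F0(M a)` the cusp valuation of `K·F1a(M, a)` is
the cusp valuation `valCuspK ι (M a)` of the trunk. -/
theorem valCusp1K_algebraMap_F0 (g : SL(2, ℤ)) (x : FNK K (M * a)) (hx : x ≠ 0) :
    valCusp1K ι M a g (algebraMap (FNK K (M * a)) (F1aK K M a) x) = valCuspK ι (M * a) g x := by
  obtain ⟨P, Q, h⟩ := Bc.exists_isRepK (M * a) x
  rw [Cusp.valCusp1K_eq_of_isRep1K ι M a g ((map_ne_zero _).mpr hx) (isRep1K_algebraMap_F0 M a h),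
    Bc.valCuspK_eq_of_isRepK ι (M * a) g hx h, ev1K_rename_inl, ev1K_rename_inl]

/-- **Restriction to the trunk (points)**: on `K·F0(M a)` the point valuation of `K·F1a(M, a)`
is the point valuation `valPtK ι (M a)` of the trunk. -/
theorem valPt1K_algebraMap_F0 (τ : ℍ) (x : FNK K (M * a)) (hx : x ≠ 0) :
    valPt1K ι M a τ (algebraMap (FNK K (M * a)) (F1aK K M a) x) = valPtK ι (M * a) τ x := by
  obtain ⟨P, Q, h⟩ := Bc.exists_isRepK (M * a) x
  rw [Gal.valPt1K_eq_of_isRep1K ι M a τ ((map_ne_zero _).mpr hx) (isRep1K_algebraMap_F0 M a h),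
    Bc.valPtK_eq_of_isRepK ι (M * a) τ hx h, ev1K_rename_inl, ev1K_rename_inl]

/-- **Cusp valuations under the diamonds**: `ord_{g⁻¹∞} (δ_c f) = ord_{(g γ⁻¹)⁻¹∞} f` for
`γ ∈ Γ₀(M a)` with lower right entry `≡ c` modulo `M`. -/
theorem valCusp1K_diaK (c : (ZMod M)ˣ) (γ : SL(2, ℤ)) (hγ : γ ∈ Gamma0 (M * a))
    (hc : (c : ZMod M) = ((γ 1 1 : ℤ) : ZMod M)) (g : SL(2, ℤ)) {f : F1aK K M a} (hf : f ≠ 0) :
    valCusp1K ι M a g (diaK ι M a c f) = valCusp1K ι M a (g * γ⁻¹) f := by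
  obtain ⟨P, Q, h⟩ := Gal.exists_isRep1K M a f
  have hf' : diaK ι M a c f ≠ 0 := fun h0 =>
    hf ((diaK ι M a c).injective (h0.trans (map_zero _).symm))
  rw [Cusp.valCusp1K_eq_of_isRep1K ι M a g hf' (isRep1K_diaK ι M a c h),
    Cusp.valCusp1K_eq_of_isRep1K ι M a (g * γ⁻¹) hf h, trans_ev1K_tw ι M a c γ hγ hc,
    trans_ev1K_tw ι M a c γ hγ hc]

end Fermat.Agent.G1.Dict.CuspRel
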