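/-
helper86 — G1 / DICT: the field `findim` of `G1.Wire1.RawBricks` (helper73), from
`G1/Dict/FFShapes.lean`: for the model field `F1a M 1`, the element `j₀ = j` has nonzero
`q`-order and `K·F1a M 1` is finite over `K(j)` for `K = ℂ` and `K = ℚ̄`.
-/
import Mathlib
import Fermat.Agent.G1.Dict.FFShapes
import Fermat.Agent.S24.ModDefs

set_option autoImplicit false

namespace Fermat.Agent.G1.Dict.FFGlue

open AlgebraicCurve ModularCurve Fermat.Agent.ESJ.Jac Fermat.Agent.S24

noncomputable section

/-- The field `findim` of `G1.Wire1.RawBricks M l` (for every level `M`, and every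
denominator `a`). -/
theorem findim_F1a (M a : ℕ) [NeZero M] [NeZero a] :
    ∃ j₀ : F1a M a, (j₀ : LaurentSeries ℚ).order ≠ 0 ∧
      FiniteDimensional (IntermediateField.adjoin ℂ {baseElt (F1a M a) ℂ j₀})
        (laurentBaseChange ℂ (F1a M a)) ∧
      FiniteDimensional (IntermediateField.adjoin KQ {baseElt (F1a M a) KQ j₀})
        (laurentBaseChange KQ (F1a M a)) :=
  ⟨j0 M a, order_j0_ne_zero M a, finiteDimensional_baseElt M a ℂ,
    finiteDimensional_baseElt M a KQ⟩

/-- The literal field `findim` of `G1.Wire1.RawBricks M l`. -/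
theorem findim_F1a_one (M : ℕ) [NeZero M] :
    ∃ j₀ : F1a M 1, (j₀ : LaurentSeries ℚ).order ≠ 0 ∧
      FiniteDimensional (IntermediateField.adjoin ℂ {baseElt (F1a M 1) ℂ j₀})
        (laurentBaseChange ℂ (F1a M 1)) ∧
      FiniteDimensional (IntermediateField.adjoin KQ {baseElt (F1a M 1) KQ j₀})
        (laurentBaseChange KQ (F1a M 1)) :=
  findim_F1a M 1

end

end Fermat.Agent.G1.Dict.FFGlue
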