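import Mathlib
import Fermat.Agent.G1.Dict.Defs
import Fermat.Agent.G1.GroupFacts
import Fermat.Agent.ESJ.Jac.Kummer

/-!
# G1 / DICT: the adapter from `IsDict1 ι M a` to the consumption shape of JAC1

`G1/Dict/Defs.lean` states the analytic dictionary `IsDict1 ι M a` of `K·F1a(M, a)` for the group
`Gam1a M a = Γ₁(M) ∩ Γ₀(M a)` in the `Γ₀`-trunk shape (cusp orders in the fixed parameter
`q_{M a}`, widths `w ∣ M a`).  The abstract Kummer theory (`G1/Jac/*G.lean`) consumes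
`Jac.MerDict ι Γ mer` (cusp shapes in `q_w` for EVERY `w` with `g⁻¹ T ^ w g ∈ Γ`).  This file is
the bridge.

* generic analysis: `qParam_zpow_eq`, `cuspShape_of_periodic` (re-expansion of a cusp shape in
  the parameter of another period), `cuspShape_unique` (the order at a cusp is well defined),
  `conj_T_pow_gcd_mem` (widths are closed under gcd);
* `merDict_of_isDict1 : IsDict1 ι M a → Jac.MerDict ι (Gam1a M a) (mer1K ι M a)`;
* `gam1a_one : Gam1a M 1 = Gamma1 M`, `merDict_Gamma1`, `merFull_Gamma1`.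
-/

set_option autoImplicit false

open UpperHalfPlane Complex Filter Topology CongruenceSubgroup AlgebraicCurve
open scoped MatrixGroups Real

noncomputable section

namespace Fermat.Agent.G1.Dict.Inst1

open Fermat.Agent.ESJ.Jac Fermat.Agent.G1.Jac Fermat.Agent.S24 Fermat.Agent.G1.Dict

/-! ### Generic analysis at the cusp `i∞` -/

/-- `q_N ^ V = q_w ^ m` when `V * w = N * m`. -/
theorem qParam_zpow_eq {N w : ℕ} (hN : 0 < N) (hw : 0 < w) {V m : ℤ}
    (h : V * (w : ℤ) = (N : ℤ) * m) (z : ℂ) :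
    Function.Periodic.qParam (N : ℝ) z ^ V = Function.Periodic.qParam (w : ℝ) z ^ m := by
  have hN' : (N : ℂ) ≠ 0 := Nat.cast_ne_zero.mpr hN.ne'
  have hw' : (w : ℂ) ≠ 0 := Nat.cast_ne_zero.mpr hw.ne'
  have h' : (V : ℂ) * (w : ℂ) = (N : ℂ) * (m : ℂ) := by exact_mod_cast h
  unfold Function.Periodic.qParam
  rw [← Complex.exp_int_mul, ← Complex.exp_int_mul, Complex.ofReal_natCast,
    Complex.ofReal_natCast]
  congr 1
  field_simp
  linear_combination z * h'

/-- The filter `I∞` on `ℂ` is nontrivial. -/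
theorem neBot_comap_im : (comap Complex.im atTop).NeBot :=
  Filter.NeBot.comap_of_surj inferInstance (fun y => ⟨⟨0, y⟩, rfl⟩)

/-- Eventually along `I∞`, the imaginary part is positive. -/
theorem eventually_im_pos : ∀ᶠ z : ℂ in comap Complex.im atTop, 0 < z.im :=
  tendsto_comap.eventually (eventually_gt_atTop 0)

/-- **Re-expansion of a cusp shape.**  If `φ` has the shape `q_N ^ V · ψ(q_N)` on the upper half
plane, is `w`-periodic there, and `V * w = N * m`, then `φ` has the shape `q_w ^ m · ψ'(q_w)`. -/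
theorem cuspShape_of_periodic {φ : ℂ → ℂ} {N w : ℕ} (hN : 0 < N) (hw : 0 < w) {V m : ℤ}
    (hVm : V * (w : ℤ) = (N : ℤ) * m) (hshape : CuspShape φ N V)
    (hper : ∀ z ∈ U, φ (z + (w : ℂ)) = φ z) : CuspShape φ w m := by
  obtain ⟨ψ, hψ, hψ0, hφ⟩ := hshape
  have hNR : (0 : ℝ) < (N : ℝ) := by exact_mod_cast hN
  have hwR : (0 : ℝ) < (w : ℝ) := by exact_mod_cast hw
  have := neBot_comap_im
  -- the periodic function `H = ψ ∘ q_N` on `U`
  set H : ℂ → ℂ := fun z => if 0 < z.im then ψ (Function.Periodic.qParam (N : ℝ) z) else ψ 0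
    with hH
  have hHU : ∀ z : ℂ, 0 < z.im → H z = ψ (Function.Periodic.qParam (N : ℝ) z) := fun z hz => by
    rw [hH]
    exact if_pos hz
  have hφH : ∀ z ∈ U, φ z = Function.Periodic.qParam (w : ℝ) z ^ m * H z := by
    intro z hz
    rw [hHU z hz, hφ z hz, qParam_zpow_eq hN hw hVm]
  have hHper : Function.Periodic H ((w : ℝ) : ℂ) := by
    intro z
    by_cases hz : 0 < z.im
    · have hz' : 0 < (z + ((w : ℝ) : ℂ)).im := by
        rw [Complex.add_im, Complex.ofReal_im, add_zero]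
        exact hz
      have e1 := hφH z hz
      have e2 := hφH (z + ((w : ℝ) : ℂ)) hz'
      rw [MultCusp.qParam_add_period hwR.ne' z] at e2
      have e3 : φ (z + ((w : ℝ) : ℂ)) = φ z := by
        rw [Complex.ofReal_natCast]
        exact hper z hz
      have hq0 : Function.Periodic.qParam (w : ℝ) z ^ m ≠ 0 :=
        zpow_ne_zero m (Function.Periodic.qParam_ne_zero z)
      exact mul_left_cancel₀ hq0 (by rw [← e2, e3, e1])
    · have hz' : ¬ 0 < (z + ((w : ℝ) : ℂ)).im := by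
        rw [Complex.add_im, Complex.ofReal_im, add_zero]
        exact hz
      rw [hH]
      simp only [if_neg hz, if_neg hz']
  -- `H` is holomorphic near `i∞` and tends to `ψ 0`
  have hqtend : Tendsto (Function.Periodic.qParam (N : ℝ)) (comap Complex.im atTop) (𝓝 0) :=
    (Function.Periodic.qParam_tendsto hNR).mono_right nhdsWithin_le_nhds
  have hHhol : ∀ᶠ z in comap Complex.im atTop, DifferentiableAt ℂ H z := by
    have h1 : ∀ᶠ z in comap Complex.im atTop,
        AnalyticAt ℂ ψ (Function.Periodic.qParam (N : ℝ) z) :=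
      hqtend.eventually hψ.eventually_analyticAt
    filter_upwards [h1, eventually_im_pos] with z hz1 hz2
    have hev : H =ᶠ[𝓝 z] fun y => ψ (Function.Periodic.qParam (N : ℝ) y) := by
      filter_upwards [Kummer.isOpen_U.mem_nhds (show z ∈ U from hz2)] with y hy using hHU y hy
    have hd : DifferentiableAt ℂ (fun y => ψ (Function.Periodic.qParam (N : ℝ) y)) z :=
      hz1.differentiableAt.comp z (MultCusp.analyticAt_qParam (N : ℝ) z).differentiableAt
    exact hd.congr_of_eventuallyEq hev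
  have hHlim : Tendsto H (comap Complex.im atTop) (𝓝 (ψ 0)) := by
    have h1 : Tendsto (fun z => ψ (Function.Periodic.qParam (N : ℝ) z))
        (comap Complex.im atTop) (𝓝 (ψ 0)) := hψ.continuousAt.tendsto.comp hqtend
    refine h1.congr' ?_
    filter_upwards [eventually_im_pos] with z hz using (hHU z hz).symm
  have hHbd : BoundedAtFilter (comap Complex.im atTop) H := by
    show H =O[comap Complex.im atTop] (1 : ℂ → ℝ)
    exact hHlim.isBigO_one ℝ
  -- the cusp function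
  set ψ' : ℂ → ℂ := Function.Periodic.cuspFunction (w : ℝ) H with hψ'
  have hd0 : DifferentiableAt ℂ ψ' 0 :=
    Function.Periodic.differentiableAt_cuspFunction_zero hwR hHper hHhol hHbd
  have hdne : ∀ᶠ q in 𝓝[≠] (0 : ℂ), DifferentiableAt ℂ ψ' q :=
    Function.Periodic.eventually_differentiableAt_cuspFunction_nhds_ne_zero hwR hHper hHhol
  have hdall : ∀ᶠ q in 𝓝 (0 : ℂ), DifferentiableAt ℂ ψ' q := by
    rw [eventually_nhdsWithin_iff] at hdne
    filter_upwards [hdne] with q hq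
    by_cases hq0 : q = 0
    · rw [hq0]
      exact hd0
    · exact hq hq0
  have hval : ψ' 0 = ψ 0 :=
    tendsto_nhds_unique (Function.Periodic.tendsto_at_I_inf hwR hHper hHhol hHbd) hHlim
  refine ⟨ψ', Complex.analyticAt_iff_eventually_differentiableAt.mpr hdall, ?_, ?_⟩
  · rw [hval]
    exact hψ0
  · intro z hz
    rw [hφH z hz, hψ', Function.Periodic.eq_cuspFunction hwR.ne' hHper z]

/-- **The order at a cusp is well defined**: a function has at most one cusp shape in `q_w`. -/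
theorem cuspShape_unique {φ : ℂ → ℂ} {w : ℕ} (hw : 0 < w) {m m' : ℤ}
    (h : CuspShape φ w m) (h' : CuspShape φ w m') : m = m' := by
  have hwR : (0 : ℝ) < (w : ℝ) := by exact_mod_cast hw
  have := neBot_comap_im
  have hqtend : Tendsto (Function.Periodic.qParam (w : ℝ)) (comap Complex.im atTop) (𝓝 0) :=
    (Function.Periodic.qParam_tendsto hwR).mono_right nhdsWithin_le_nhds
  -- the asymmetric statement
  have key : ∀ {m₁ m₂ : ℤ}, CuspShape φ w m₁ → CuspShape φ w m₂ → ¬ m₁ < m₂ := by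
    intro m₁ m₂ h₁ h₂ hlt
    obtain ⟨ψ₁, hψ₁, hψ₁0, hφ₁⟩ := h₁
    obtain ⟨ψ₂, hψ₂, -, hφ₂⟩ := h₂
    obtain ⟨k, hk⟩ := Int.eq_ofNat_of_zero_le (by omega : 0 ≤ m₂ - m₁)
    have hkpos : k ≠ 0 := by
      rintro rfl
      simp at hk
      omega
    -- `ψ₁(q) = q ^ k * ψ₂(q)` on `U`
    have hEq : ∀ z ∈ U, ψ₁ (Function.Periodic.qParam (w : ℝ) z) =
        Function.Periodic.qParam (w : ℝ) z ^ k * ψ₂ (Function.Periodic.qParam (w : ℝ) z) := by
      intro z hz
      have hq0 : Function.Periodic.qParam (w : ℝ) z ≠ 0 := Function.Periodic.qParam_ne_zero z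
      have e := (hφ₁ z hz).symm.trans (hφ₂ z hz)
      have hm₂ : m₂ = m₁ + (k : ℤ) := by omega
      rw [hm₂, zpow_add₀ hq0, zpow_natCast, mul_assoc] at e
      exact mul_left_cancel₀ (zpow_ne_zero m₁ hq0) e
    have hlim1 : Tendsto (fun z => ψ₁ (Function.Periodic.qParam (w : ℝ) z))
        (comap Complex.im atTop) (𝓝 (ψ₁ 0)) := hψ₁.continuousAt.tendsto.comp hqtend
    have hlim2 : Tendsto (fun z => Function.Periodic.qParam (w : ℝ) z ^ k *
        ψ₂ (Function.Periodic.qParam (w : ℝ) z)) (comap Complex.im atTop) (𝓝 (0 ^ k * ψ₂ 0)) :=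
      (hqtend.pow k).mul (hψ₂.continuousAt.tendsto.comp hqtend)
    have hlim2' : Tendsto (fun z => ψ₁ (Function.Periodic.qParam (w : ℝ) z))
        (comap Complex.im atTop) (𝓝 (0 ^ k * ψ₂ 0)) := by
      refine hlim2.congr' ?_
      filter_upwards [eventually_im_pos] with z hz using (hEq z hz).symm
    have := tendsto_nhds_unique hlim1 hlim2'
    rw [zero_pow hkpos, zero_mul] at this
    exact hψ₁0 this
  exact le_antisymm (not_lt.mp (key h' h)) (not_lt.mp (key h h'))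

/-- The widths of a cusp are closed under gcd. -/
theorem conj_T_pow_gcd_mem (Γ : Subgroup SL(2, ℤ)) (g : SL(2, ℤ)) (w N : ℕ)
    (hw : g⁻¹ * ModularGroup.T ^ w * g ∈ Γ) (hN : g⁻¹ * ModularGroup.T ^ N * g ∈ Γ) :
    g⁻¹ * ModularGroup.T ^ (Nat.gcd w N) * g ∈ Γ := by
  have hc : ∀ (x : SL(2, ℤ)) (i : ℤ), (g⁻¹ * x * g) ^ i = g⁻¹ * x ^ i * g := by
    intro x i
    have := conj_zpow (i := i) (a := g⁻¹) (b := x)
    rwa [inv_inv] at this
  have h1 := Γ.zpow_mem hw (Nat.gcdA w N)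
  have h2 := Γ.zpow_mem hN (Nat.gcdB w N)
  have h3 := Γ.mul_mem h1 h2
  rw [hc, hc] at h3
  have e : g⁻¹ * (ModularGroup.T ^ w) ^ Nat.gcdA w N * g *
      (g⁻¹ * (ModularGroup.T ^ N) ^ Nat.gcdB w N * g) =
      g⁻¹ * ModularGroup.T ^ (Nat.gcd w N) * g := by
    have e1 : (ModularGroup.T ^ w) ^ Nat.gcdA w N * (ModularGroup.T ^ N) ^ Nat.gcdB w N =
        ModularGroup.T ^ (Nat.gcd w N) := by
      rw [← zpow_natCast ModularGroup.T w, ← zpow_natCast ModularGroup.T N, ← zpow_mul,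
        ← zpow_mul, ← zpow_add, ← Nat.gcd_eq_gcd_ab, zpow_natCast]
    rw [← e1]
    group
  rwa [e] at h3

/-! ### The adapter `IsDict1 → MerDict` -/

section Adapter

variable {K : Type} [Field K] [Algebra ℚ K] {ι : K →+* ℂ} {M a : ℕ} [NeZero M] [NeZero a]

/-- `M a` is a width of every cusp of `Γ₁(M) ∩ Γ₀(M a)`. -/
theorem conj_T_pow_mem_Gam1a (M a : ℕ) (g : SL(2, ℤ)) :
    g⁻¹ * ModularGroup.T ^ (M * a) * g ∈ Gam1a M a := by
  have h := conj_T_pow_mem_Gamma1_inf_Gamma0 (dvd_mul_right M a) g⁻¹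
  rwa [inv_inv, zpow_natCast] at h

/-- The order of the avatar at a point is the point valuation. -/
theorem untop_order_mer1K (hD : IsDict1 ι M a) {f : F1aK K M a} (hf : f ≠ 0) (τ : ℍ) :
    (meromorphicOrderAt (mer1K ι M a f) (τ : ℂ)).untop₀ = valPt1K ι M a τ f := by
  rw [hD.meromorphicOrderAt_mer1K f hf τ]
  rfl

/-- The cusp shape of the dictionary, in the parameter `q_{M a}`. -/
theorem cuspShape_mer1K (hD : IsDict1 ι M a) {f : F1aK K M a} (hf : f ≠ 0) (g : SL(2, ℤ)) :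
    CuspShape (fun z => mer1K ι M a f (mob g⁻¹ z)) (M * a) (valCusp1K ι M a g f) := by
  obtain ⟨ψ, hψ, hψ0, h⟩ := hD.mer1K_cusp_shape f hf g
  exact ⟨ψ, hψ, hψ0, fun z hz => h z hz⟩

/-- `f ∘ g⁻¹` is `w`-periodic on the upper half plane when `g⁻¹ T ^ w g` lies in the group. -/
theorem mer1K_comp_periodic (hD : IsDict1 ι M a) (f : F1aK K M a) (g : SL(2, ℤ)) (w : ℕ)
    (hmem : g⁻¹ * ModularGroup.T ^ w * g ∈ Gam1a M a) :
    ∀ z ∈ U, mer1K ι M a f (mob g⁻¹ (z + (w : ℂ))) = mer1K ι M a f (mob g⁻¹ z) := by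
  intro z hz
  have e1 : mob g⁻¹ (z + (w : ℂ)) = mob (g⁻¹ * ModularGroup.T ^ w * g) (mob g⁻¹ z) := by
    rw [← Kummer.mob_mul' _ _ hz]
    have e2 : g⁻¹ * ModularGroup.T ^ w * g * g⁻¹ = g⁻¹ * ModularGroup.T ^ w := by group
    rw [e2, Kummer.mob_mul' _ _ hz, Kummer.mob_T_pow]
  rw [e1]
  exact hD.mer1K_mob f _ hmem _ (Kummer.mob_mem_U' g⁻¹ hz)

/-- **The cusp shape in the parameter of any width**: if `g⁻¹ T ^ w g` lies in the group, then
`f ∘ g⁻¹` has the shape `q_w ^ m · ψ(q_w)` with `valCusp1K g f · w = M a · m`. -/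
theorem exists_cuspShape_mer1K (hD : IsDict1 ι M a) {f : F1aK K M a} (hf : f ≠ 0)
    (g : SL(2, ℤ)) (w : ℕ) (hw : 0 < w) (hmem : g⁻¹ * ModularGroup.T ^ w * g ∈ Gam1a M a) :
    ∃ m : ℤ, valCusp1K ι M a g f * (w : ℤ) = ((M * a : ℕ) : ℤ) * m ∧
      CuspShape (fun z => mer1K ι M a f (mob g⁻¹ z)) w m := by
  have hNpos : 0 < M * a := Nat.mul_pos (Nat.pos_of_ne_zero (NeZero.ne M))
    (Nat.pos_of_ne_zero (NeZero.ne a))
  obtain ⟨m, hm⟩ := hD.dvd_valCusp1K_mul g w hw hmem f hf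
  exact ⟨m, hm, cuspShape_of_periodic hNpos hw hm (cuspShape_mer1K hD hf g)
    (mer1K_comp_periodic hD f g w hmem)⟩

/-- **The adapter**: the dictionary `IsDict1 ι M a` gives the analytic dictionary `MerDict`
consumed by the abstract Kummer theory, for the group `Γ₁(M) ∩ Γ₀(M a)` and the avatar
`mer1K ι M a`. -/
theorem merDict_of_isDict1 (hD : IsDict1 ι M a) : MerDict ι (Gam1a M a) (mer1K ι M a) where
  meromorphicOn_mer := hD.meromorphicOn_mer1K
  order_ne_top f hf z hz := by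
    have h : meromorphicOrderAt (mer1K ι M a f) z = ((valPt1K ι M a ⟨z, hz⟩ f : ℤ) : WithTop ℤ) :=
      hD.meromorphicOrderAt_mer1K f hf ⟨z, hz⟩
    rw [h]
    exact WithTop.coe_ne_top
  mer_mob := hD.mer1K_mob
  mer_mul := hD.mer1K_mul
  mer_add := hD.mer1K_add
  mer_algebraMap := hD.mer1K_algebraMap
  mer_eq_zero_iff := hD.mer1K_eq_zero_iff
  merAtCusps_mer := hD.merAtCusps_mer1K
  mer_cusp_shape f hf g w hw hmem := by
    obtain ⟨m, -, hm⟩ := exists_cuspShape_mer1K hD hf g w hw hmem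
    exact ⟨m, hm⟩
  forall_dvd_ord_iff n f hf := by
    have hNpos : 0 < M * a := Nat.mul_pos (Nat.pos_of_ne_zero (NeZero.ne M))
      (Nat.pos_of_ne_zero (NeZero.ne a))
    have hN0 : ((M * a : ℕ) : ℤ) ≠ 0 := by exact_mod_cast hNpos.ne'
    rw [hD.forall_dvd_ord_iff n f hf]
    constructor
    · rintro ⟨hpt, hcusp⟩
      refine ⟨fun τ => by rw [untop_order_mer1K hD hf τ]; exact hpt τ, ?_⟩
      intro g w hw hmem m hm
      have hw₀mem := conj_T_pow_gcd_mem (Gam1a M a) g w (M * a) hmem (conj_T_pow_mem_Gam1a M a g)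
      have hw₀pos : 0 < Nat.gcd w (M * a) := Nat.gcd_pos_of_pos_left _ hw
      have hw₀N : Nat.gcd w (M * a) ∣ M * a := Nat.gcd_dvd_right w (M * a)
      obtain ⟨c, hc⟩ := hcusp g (Nat.gcd w (M * a)) hw₀pos hw₀N hw₀mem
      obtain ⟨m', hm'1, hm'2⟩ := exists_cuspShape_mer1K hD hf g w hw hmem
      rw [cuspShape_unique hw hm hm'2]
      obtain ⟨k, hk⟩ := Nat.gcd_dvd_left w (M * a)
      have hNe : ((M * a : ℕ) : ℤ) = ((M * a / Nat.gcd w (M * a) : ℕ) : ℤ) *
          ((Nat.gcd w (M * a) : ℕ) : ℤ) := by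
        rw [← Nat.cast_mul, Nat.div_mul_cancel hw₀N]
      have hwk : (w : ℤ) = ((Nat.gcd w (M * a) : ℕ) : ℤ) * (k : ℤ) := by
        rw [← Nat.cast_mul, ← hk]
      have hc' : valCusp1K ι M a g f =
          (n : ℤ) * ((M * a / Nat.gcd w (M * a) : ℕ) : ℤ) * c := by
        rw [hc]
        push_cast
        ring
      refine ⟨c * (k : ℤ), mul_left_cancel₀ hN0 ?_⟩
      linear_combination (-1 : ℤ) * hm'1 + valCusp1K ι M a g f * hwk +
        (((Nat.gcd w (M * a) : ℕ) : ℤ) * (k : ℤ)) * hc' - ((n : ℤ) * c * (k : ℤ)) * hNe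
    · rintro ⟨hpt, hcusp⟩
      refine ⟨fun τ => by rw [← untop_order_mer1K hD hf τ]; exact hpt τ, ?_⟩
      intro g w hw hwN hmem
      obtain ⟨m, hm1, hm2⟩ := exists_cuspShape_mer1K hD hf g w hw hmem
      obtain ⟨c, hc⟩ := hcusp g w hw hmem m hm2
      obtain ⟨e', he'⟩ := hwN
      have hNw : M * a / w = e' := by
        rw [he']
        exact Nat.mul_div_cancel_left e' hw
      have hNe : ((M * a : ℕ) : ℤ) = (w : ℤ) * (e' : ℤ) := by
        rw [← Nat.cast_mul, ← he']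
      have hw0 : (w : ℤ) ≠ 0 := by exact_mod_cast hw.ne'
      refine ⟨c, mul_right_cancel₀ hw0 ?_⟩
      rw [hNw]
      push_cast
      linear_combination hm1 + ((M * a : ℕ) : ℤ) * hc + ((n : ℤ) * c) * hNe

end Adapter

/-! ### Level `a = 1`: the group is `Γ₁(M)` -/

/-- `Γ₁(M) ∩ Γ₀(M · 1) = Γ₁(M)`. -/
theorem gam1a_one (M : ℕ) : Gam1a M 1 = Gamma1 M := by
  unfold Gam1a
  rw [mul_one]
  exact inf_eq_left.mpr (Gamma1_in_Gamma0 M)

/-- The dictionary at level `a = 1`, for the group `Γ₁(M)` literally. -/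
theorem merDict_Gamma1 {K : Type} [Field K] [Algebra ℚ K] {ι : K →+* ℂ} {M : ℕ} [NeZero M]
    (hD : IsDict1 ι M 1) : MerDict ι (Gamma1 M) (mer1K ι M 1) := by
  have h := merDict_of_isDict1 hD
  rwa [gam1a_one] at h

/-- `MerFull` at level `a = 1`, for the group `Γ₁(M)` literally. -/
theorem merFull_Gamma1 {M : ℕ} [NeZero M]
    (h : MerFull (Gam1a M 1) (mer1K (RingHom.id ℂ) M 1)) :
    MerFull (Gamma1 M) (mer1K (RingHom.id ℂ) M 1) := by
  rwa [gam1a_one] at h

end Fermat.Agent.G1.Dict.Inst1
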