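import Mathlib
import Fermat.Agent.G1.GalBridge
import Fermat.Agent.G1.GalMer
import Fermat.Agent.S24.Mer

/-!
# G1 / DICT: the calculus of the meromorphic avatar `mer1K` (analytic half at points)

For `f ∈ K·F1a(M, a)` the function `mer1K ι M a f` (`G1/Dict/Defs.lean`) is `ev1K P / ev1K Q` for
a chosen representative.  On top of the bridge `G1/GalBridge.lean` and the generic engine
`MerRep` of `G1/GalMer.lean` this file proves, unconditionally and for every `(K, ι)`, the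
calculus fields of `IsDict1 ι M a` / `Jac.MerDict`:

* `mer1K_mul`, `mer1K_add`, `mer1K_algebraMap`, `mer1K_eq_zero_iff` (+ `_one`, `_neg`, `_sub`,
  `_pow`, `_injective`, `mer1K_fm1K`), `meromorphicOn_mer1K`;
* `meromorphicOrderAt_mer1K` (the order at `τ` is `valPt1K ι M a τ f`), `order_ne_top`;
* `isRawVal_valPt1K`;
* base change: `mer1K_bcK`, `valPt1K_bcK`, and `merBc_mer1K : MerBc (F1a M a) …`.
-/

set_option autoImplicit false
set_option linter.unusedSectionVars false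

open UpperHalfPlane ModularForm CongruenceSubgroup ModularCurve Filter
open scoped MatrixGroups Manifold Topology

noncomputable section

namespace Fermat.Agent.G1.Dict.Mer

open Fermat.Agent.S24 Fermat.Agent.ESJ.Jac Fermat.Agent.ESJ.Dict Fermat.Agent.G1.Dict
open Fermat.Agent.G1

variable {K : Type} [Field K] [Algebra ℚ K] (ι : K →+* ℂ) (M a : ℕ) [NeZero M] [NeZero a]

/-- `mer1K` is the generic construction `MerRep.mer` for `(fm1K, ev1K)`. -/
theorem mer1K_eq_mer (f : F1aK K M a) :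
    mer1K ι M a f = MerRep.mer (fm1K K M a) (ev1K ι M a) f := rfl

/-- `(fm1K, ev1K)` is a representation system. -/
theorem isRepSys1K : MerRep.IsRepSys (fm1K K M a) (ev1K ι M a) ι where
  exists_rep := Gal.exists_isRep1K M a
  zero_iff := Gal.fm1K_eq_zero_iff ι M a
  mdiff := Gal.mdiff_ev1K ι M a
  ev_C := Gal.ev1K_C ι M a

theorem meromorphicOn_mer1K (f : F1aK K M a) : MeromorphicOn (mer1K ι M a f) U :=
  MerRep.meromorphicOn_mer (isRepSys1K ι M a) f

theorem mer1K_mul (f g : F1aK K M a) : mer1K ι M a (f * g) =ᶠ[codiscreteWithin U]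
    fun z => mer1K ι M a f z * mer1K ι M a g z :=
  MerRep.mer_mul (isRepSys1K ι M a) f g

theorem mer1K_add (f g : F1aK K M a) : mer1K ι M a (f + g) =ᶠ[codiscreteWithin U]
    fun z => mer1K ι M a f z + mer1K ι M a g z :=
  MerRep.mer_add (isRepSys1K ι M a) f g

theorem mer1K_algebraMap (c : K) : mer1K ι M a (algebraMap K (F1aK K M a) c)
    =ᶠ[codiscreteWithin U] fun _ => ι c :=
  MerRep.mer_algebraMap (isRepSys1K ι M a) c

theorem mer1K_eq_zero_iff (f : F1aK K M a) :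
    mer1K ι M a f =ᶠ[codiscreteWithin U] (fun _ => (0 : ℂ)) ↔ f = 0 :=
  MerRep.mer_eq_zero_iff (isRepSys1K ι M a) f

theorem mer1K_one : mer1K ι M a (1 : F1aK K M a) =ᶠ[codiscreteWithin U] fun _ => (1 : ℂ) :=
  MerRep.mer_one (isRepSys1K ι M a)

theorem mer1K_neg (f : F1aK K M a) :
    mer1K ι M a (-f) =ᶠ[codiscreteWithin U] fun z => -mer1K ι M a f z :=
  MerRep.mer_neg (isRepSys1K ι M a) f

theorem mer1K_sub (f g : F1aK K M a) : mer1K ι M a (f - g) =ᶠ[codiscreteWithin U]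
    fun z => mer1K ι M a f z - mer1K ι M a g z :=
  MerRep.mer_sub (isRepSys1K ι M a) f g

theorem mer1K_pow (f : F1aK K M a) (n : ℕ) : mer1K ι M a (f ^ n) =ᶠ[codiscreteWithin U]
    fun z => mer1K ι M a f z ^ n :=
  MerRep.mer_pow (isRepSys1K ι M a) f n

theorem mer1K_injective {f g : F1aK K M a}
    (h : mer1K ι M a f =ᶠ[codiscreteWithin U] mer1K ι M a g) : f = g :=
  MerRep.mer_injective (isRepSys1K ι M a) h

/-- The function of a polynomial expression in the generators. -/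
theorem mer1K_fm1K (P : MvPolynomial (Ix M a) K) :
    mer1K ι M a (fm1K K M a P) =ᶠ[codiscreteWithin U] fun z => ev1K ι M a P (ofComplex z) := by
  filter_upwards [Gal.mer1K_eventuallyEq_of_isRep1K ι M a (Gal.isRep1K_fm1K M a P)] with z hz
  rw [hz, map_one]
  simp

/-- On `K·F0(M·a)` the avatar `mer1K` agrees with the trunk's `merK` (off a discrete set). -/
theorem mer1K_algebraMap_F0 (x : FNK K (M * a)) :
    mer1K ι M a (algebraMap (FNK K (M * a)) (F1aK K M a) x)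
      =ᶠ[codiscreteWithin U] merK ι (M * a) x := by
  obtain ⟨P, Q, hrep⟩ := Bc.exists_isRepK (M * a) x
  have h1 : IsRep1K M a (algebraMap (FNK K (M * a)) (F1aK K M a) x)
      (MvPolynomial.rename Sum.inl P) (MvPolynomial.rename Sum.inl Q) := by
    refine ⟨?_, ?_⟩
    · rw [Gal.fm1K_rename_inl]
      exact fun h0 => hrep.1 ((map_eq_zero _).mp h0)
    · rw [Gal.fm1K_rename_inl, Gal.fm1K_rename_inl, ← map_div₀, ← hrep.2]
  filter_upwards [Gal.mer1K_eventuallyEq_of_isRep1K ι M a h1,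
    Bc.merK_eventuallyEq_of_isRepK ι (M * a) hrep] with z hz1 hz2
  rw [hz1, hz2, Gal.ev1K_rename_inl, Gal.ev1K_rename_inl]

/-- **The order of `mer1K ι M a f` at `τ` is the point valuation** (field
`IsDict1.meromorphicOrderAt_mer1K`). -/
theorem meromorphicOrderAt_mer1K (f : F1aK K M a) (hf : f ≠ 0) (τ : ℍ) :
    meromorphicOrderAt (mer1K ι M a f) (τ : ℂ) = ((valPt1K ι M a τ f : ℤ) : WithTop ℤ) := by
  obtain ⟨P, Q, h, e⟩ := Gal.mer1K_eq_chosen ι M a f
  have hP : fm1K K M a P ≠ 0 := Gal.fm1K_ne_zero_of_isRep1K M a h hf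
  have hQ : fm1K K M a Q ≠ 0 := h.1
  have haP := S24.Mer.analyticAt_comp_ofComplex (Gal.mdiff_ev1K ι M a P) (S24.Mer.coe_mem_U τ)
  have haQ := S24.Mer.analyticAt_comp_ofComplex (Gal.mdiff_ev1K ι M a Q) (S24.Mer.coe_mem_U τ)
  have hnP := ValPt.analyticOrderAt_ne_top_of_mdiff (Gal.mdiff_ev1K ι M a P)
    ((Gal.ev1K_ne_zero_iff ι M a P).2 hP) τ
  have hnQ := ValPt.analyticOrderAt_ne_top_of_mdiff (Gal.mdiff_ev1K ι M a Q)
    ((Gal.ev1K_ne_zero_iff ι M a Q).2 hQ) τ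
  have e' : mer1K ι M a f = (ev1K ι M a P ∘ ofComplex) / (ev1K ι M a Q ∘ ofComplex) := by
    rw [e]
    rfl
  rw [e', meromorphicOrderAt_div haP.meromorphicAt haQ.meromorphicAt, haP.meromorphicOrderAt_eq,
    haQ.meromorphicOrderAt_eq, Gal.valPt1K_eq_of_isRep1K ι M a τ hf h]
  unfold ordAt
  obtain ⟨m, hm⟩ := ENat.ne_top_iff_exists.mp hnP
  obtain ⟨n, hn⟩ := ENat.ne_top_iff_exists.mp hnQ
  rw [← hm, ← hn]
  simp

/-- The orders of `mer1K ι M a f`, `f ≠ 0`, on `U` are finite (field `MerDict.order_ne_top`). -/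
theorem order_ne_top (f : F1aK K M a) (hf : f ≠ 0) {z : ℂ} (hz : z ∈ U) :
    meromorphicOrderAt (mer1K ι M a f) z ≠ ⊤ := by
  have h := meromorphicOrderAt_mer1K ι M a f hf (⟨z, hz⟩ : ℍ)
  have e : (((⟨z, hz⟩ : ℍ) : ℍ) : ℂ) = z := rfl
  rw [e] at h
  rw [h]
  exact WithTop.coe_ne_top

/-- **`valPt1K ι M a τ` is a raw valuation** (field `IsDict1.isRawVal_valPt1K`). -/
theorem isRawVal_valPt1K (τ : ℍ) : Counting.IsRawVal K (valPt1K ι M a τ) where
  map_mul := by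
    intro f g hf hg
    obtain ⟨P, Q, hPQ⟩ := Gal.exists_isRep1K M a f
    obtain ⟨P', Q', hPQ'⟩ := Gal.exists_isRep1K M a g
    have hP := Gal.fm1K_ne_zero_of_isRep1K M a hPQ hf
    have hP' := Gal.fm1K_ne_zero_of_isRep1K M a hPQ' hg
    rw [Gal.valPt1K_eq_of_isRep1K ι M a τ (mul_ne_zero hf hg) (Gal.isRep1K_mul M a hPQ hPQ'),
      Gal.valPt1K_eq_of_isRep1K ι M a τ hf hPQ, Gal.valPt1K_eq_of_isRep1K ι M a τ hg hPQ',
      map_mul, map_mul,
      ValPt.ordAt_mul (Gal.mdiff_ev1K ι M a P) (Gal.mdiff_ev1K ι M a P')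
        ((Gal.ev1K_ne_zero_iff ι M a P).2 hP) ((Gal.ev1K_ne_zero_iff ι M a P').2 hP') τ,
      ValPt.ordAt_mul (Gal.mdiff_ev1K ι M a Q) (Gal.mdiff_ev1K ι M a Q')
        ((Gal.ev1K_ne_zero_iff ι M a Q).2 hPQ.1) ((Gal.ev1K_ne_zero_iff ι M a Q').2 hPQ'.1) τ]
    ring
  map_add := by
    intro f g hf hg hfg
    obtain ⟨P, Q, hPQ⟩ := Gal.exists_isRep1K M a f
    obtain ⟨P', Q', hPQ'⟩ := Gal.exists_isRep1K M a g
    have hP := Gal.fm1K_ne_zero_of_isRep1K M a hPQ hf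
    have hP' := Gal.fm1K_ne_zero_of_isRep1K M a hPQ' hg
    have hrep := Gal.isRep1K_add M a hPQ hPQ'
    have hnum : fm1K K M a (P * Q' + Q * P') ≠ 0 := Gal.fm1K_ne_zero_of_isRep1K M a hrep hfg
    rw [Gal.valPt1K_eq_of_isRep1K ι M a τ hfg hrep, Gal.valPt1K_eq_of_isRep1K ι M a τ hf hPQ,
      Gal.valPt1K_eq_of_isRep1K ι M a τ hg hPQ']
    have hevnum : ev1K ι M a (P * Q') + ev1K ι M a (Q * P') ≠ 0 := by
      rw [← map_add]
      exact (Gal.ev1K_ne_zero_iff ι M a _).2 hnum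
    have hPQ'ne : fm1K K M a (P * Q') ≠ 0 := by
      rw [map_mul]
      exact mul_ne_zero hP hPQ'.1
    have hQP'ne : fm1K K M a (Q * P') ≠ 0 := by
      rw [map_mul]
      exact mul_ne_zero hPQ.1 hP'
    have hadd := ValPt.ordAt_add (Gal.mdiff_ev1K ι M a (P * Q')) (Gal.mdiff_ev1K ι M a (Q * P'))
      ((Gal.ev1K_ne_zero_iff ι M a _).2 hPQ'ne) ((Gal.ev1K_ne_zero_iff ι M a _).2 hQP'ne)
      hevnum τ
    have e1 := ValPt.ordAt_mul (Gal.mdiff_ev1K ι M a P) (Gal.mdiff_ev1K ι M a Q')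
      ((Gal.ev1K_ne_zero_iff ι M a P).2 hP) ((Gal.ev1K_ne_zero_iff ι M a Q').2 hPQ'.1) τ
    have e2 := ValPt.ordAt_mul (Gal.mdiff_ev1K ι M a Q) (Gal.mdiff_ev1K ι M a P')
      ((Gal.ev1K_ne_zero_iff ι M a Q).2 hPQ.1) ((Gal.ev1K_ne_zero_iff ι M a P').2 hP') τ
    have e3 := ValPt.ordAt_mul (Gal.mdiff_ev1K ι M a Q) (Gal.mdiff_ev1K ι M a Q')
      ((Gal.ev1K_ne_zero_iff ι M a Q).2 hPQ.1) ((Gal.ev1K_ne_zero_iff ι M a Q').2 hPQ'.1) τ
    rw [map_add, map_mul (ev1K ι M a) Q Q', e3]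
    rw [map_mul (ev1K ι M a) P Q', map_mul (ev1K ι M a) Q P'] at hadd hevnum ⊢
    rw [e1, e2] at hadd
    rcases min_le_iff.mp hadd with h | h
    · exact min_le_iff.mpr (Or.inl (by linarith))
    · exact min_le_iff.mpr (Or.inr (by linarith))
  map_algebraMap := by
    intro c hc
    have hne : algebraMap K (F1aK K M a) c ≠ 0 := by
      rw [Ne, map_eq_zero]
      exact hc
    have hι : ι c ≠ 0 := by
      rw [Ne, map_eq_zero]
      exact hc
    rw [Gal.valPt1K_eq_of_isRep1K ι M a τ hne (Gal.isRep1K_algebraMap M a c), Gal.ev1K_C,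
      ValPt.ordAt_const hι, map_one]
    have e : (1 : ℍ → ℂ) = fun _ => (1 : ℂ) := rfl
    rw [e, ValPt.ordAt_const one_ne_zero]
    rfl

/-! ### Base change of the coefficients -/

/-- Base change `K·F1a → ℂ·F1a` preserves the avatar (off a discrete set). -/
theorem mer1K_bcK (f : F1aK K M a) :
    mer1K (RingHom.id ℂ) M a (Bc.bcK ι (F1a M a) f) =ᶠ[codiscreteWithin U] mer1K ι M a f := by
  obtain ⟨P, Q, h⟩ := Gal.exists_isRep1K M a f
  have h' : IsRep1K M a (Bc.bcK ι (F1a M a) f) (MvPolynomial.map ι P) (MvPolynomial.map ι Q) :=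
    Gal.isRep1K_of_coeffMap M a ι rfl h
  have h1 := Gal.mer1K_eventuallyEq_of_isRep1K (RingHom.id ℂ) M a h'
  have h2 := Gal.mer1K_eventuallyEq_of_isRep1K ι M a h
  simp only [Gal.ev1K_map] at h1
  exact h1.trans h2.symm

/-- Base change `K·F1a → ℂ·F1a` preserves the point valuations. -/
theorem valPt1K_bcK (τ : ℍ) {f : F1aK K M a} (hf : f ≠ 0) :
    valPt1K (RingHom.id ℂ) M a τ (Bc.bcK ι (F1a M a) f) = valPt1K ι M a τ f := by
  obtain ⟨P, Q, h⟩ := Gal.exists_isRep1K M a f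
  have h' : IsRep1K M a (Bc.bcK ι (F1a M a) f) (MvPolynomial.map ι P) (MvPolynomial.map ι Q) :=
    Gal.isRep1K_of_coeffMap M a ι rfl h
  rw [Gal.valPt1K_eq_of_isRep1K (RingHom.id ℂ) M a τ
      ((map_ne_zero (Bc.bcK ι (F1a M a))).mpr hf) h',
    Gal.valPt1K_eq_of_isRep1K ι M a τ hf h, Gal.ev1K_map, Gal.ev1K_map]

/-- **`MerBc`** for `F1a M a`: the avatars over `ℚ̄` and `ℂ` are compatible with base change. -/
theorem merBc_mer1K :
    Fermat.Agent.G1.Jac.MerBc (F1a M a) (mer1K iotaK M a) (mer1K (RingHom.id ℂ) M a) :=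
  fun f => ⟨Bc.bcK iotaK (F1a M a) f, rfl, mer1K_bcK iotaK M a f⟩

end Fermat.Agent.G1.Dict.Mer
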