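/-
G1-DICT, the relative dictionary (ruling #4.1): `place_cases` and `forall_dvd_ord_iff` for a
function field `F'` above the trunk field `F0` of `Γ₀(N)`, for a REGULAR group `Γ' ≤ Γ₀(N)`
(`Γ' = Γ₁(M) ∩ Γ₀(M a)`, `N = M a`, `5 ≤ M`), in raw-valuation form.

Inputs (`RelData`): the trunk dictionary `place_cases₀` (literally `ESJ.Dict.IsDict.place_cases`),
raw valuations `Vpt τ`, `Vcusp g` of `F'` restricting to those of `F0`, and a homomorphism
`ρ : Γ₀(N) →* Aut_K(F')` with finite image, fixed field `F0`, realising the action of `Γ₀(N)` on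
the valuations (`Vpt τ ∘ ρ γ = Vpt (γ τ)`, `Vcusp g ∘ ρ γ = Vcusp (g γ⁻¹)`), whose kernel is
contained in `± Γ'`.

Outputs: `place_cases` (every place of `F'` is a point place with EXACT index `1`, or a cusp place
with exact index `N / w`, `w` a width for `Γ'`) and `forall_dvd_ord_iff` (Kummer form), in the
literal shapes of `G1.Dict.IsDict1`.
-/
import Mathlib
import Fermat.Agent.G1.DictRel
import Fermat.Agent.G1.Jac.Defs
import Fermat.Agent.S24.Ramif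

set_option autoImplicit false

noncomputable section

namespace Fermat.Agent.G1.Dict.RelAbs

open AlgebraicCurve UpperHalfPlane CongruenceSubgroup Fermat.Agent.S24.Counting
open Fermat.Agent.G1.DictRel
open scoped MatrixGroups

/-! ### Traces in `SL(2, ℤ)` -/

section Trace

theorem det_entries (γ : SL(2, ℤ)) :
    (γ : Matrix (Fin 2) (Fin 2) ℤ) 0 0 * (γ : Matrix (Fin 2) (Fin 2) ℤ) 1 1 -
      (γ : Matrix (Fin 2) (Fin 2) ℤ) 0 1 * (γ : Matrix (Fin 2) (Fin 2) ℤ) 1 0 = 1 := by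
  have h := γ.det_coe
  rw [Matrix.det_fin_two] at h
  exact h

/-- An element of order `4` has trace `0`. -/
theorem trace_of_sq (γ : SL(2, ℤ)) (h : γ ^ 2 = -1) :
    (γ : Matrix (Fin 2) (Fin 2) ℤ).trace = 0 := by
  have hdet := det_entries γ
  have h1 : ((γ ^ 2 : SL(2, ℤ)) : Matrix (Fin 2) (Fin 2) ℤ) =
      ((-1 : SL(2, ℤ)) : Matrix (Fin 2) (Fin 2) ℤ) := by rw [h]
  rw [Matrix.SpecialLinearGroup.coe_pow, Matrix.SpecialLinearGroup.coe_neg,
    Matrix.SpecialLinearGroup.coe_one, pow_two] at h1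
  have e00 := congrFun (congrFun h1 0) 0
  have e11 := congrFun (congrFun h1 1) 1
  simp only [Matrix.mul_apply, Fin.sum_univ_two, Matrix.neg_apply, Matrix.one_apply_eq]
    at e00 e11
  rw [Matrix.trace_fin_two]
  nlinarith [sq_nonneg ((γ : Matrix (Fin 2) (Fin 2) ℤ) 0 0 +
    (γ : Matrix (Fin 2) (Fin 2) ℤ) 1 1)]

/-- An element of order `6` has trace `1`. -/
theorem trace_of_cube (γ : SL(2, ℤ)) (h : γ ^ 3 = -1) (hne : γ ≠ -1) :
    (γ : Matrix (Fin 2) (Fin 2) ℤ).trace = 1 := by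
  have hdet := det_entries γ
  have h1 : ((γ ^ 3 : SL(2, ℤ)) : Matrix (Fin 2) (Fin 2) ℤ) =
      ((-1 : SL(2, ℤ)) : Matrix (Fin 2) (Fin 2) ℤ) := by rw [h]
  rw [Matrix.SpecialLinearGroup.coe_pow, Matrix.SpecialLinearGroup.coe_neg,
    Matrix.SpecialLinearGroup.coe_one, pow_succ, pow_two] at h1
  have e00 := congrFun (congrFun h1 0) 0
  have e01 := congrFun (congrFun h1 0) 1
  have e10 := congrFun (congrFun h1 1) 0
  have e11 := congrFun (congrFun h1 1) 1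
  simp only [Matrix.mul_apply, Fin.sum_univ_two, Matrix.neg_apply, Matrix.one_apply_eq,
    Matrix.one_apply_ne, ne_eq, zero_ne_one, one_ne_zero, not_false_eq_true, neg_zero]
    at e00 e01 e10 e11
  rw [Matrix.trace_fin_two]
  set a := (γ : Matrix (Fin 2) (Fin 2) ℤ) 0 0
  set b := (γ : Matrix (Fin 2) (Fin 2) ℤ) 0 1
  set c := (γ : Matrix (Fin 2) (Fin 2) ℤ) 1 0
  set d := (γ : Matrix (Fin 2) (Fin 2) ℤ) 1 1
  have ha : a * ((a + d) ^ 2 - 1) = (a + d) - 1 := by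
    linear_combination e00 + (2 * a + d) * hdet
  have hd : d * ((a + d) ^ 2 - 1) = (a + d) - 1 := by
    linear_combination e11 + (a + 2 * d) * hdet
  have hb : b * ((a + d) ^ 2 - 1) = 0 := by linear_combination e01 + b * hdet
  have hc : c * ((a + d) ^ 2 - 1) = 0 := by linear_combination e10 + c * hdet
  have ht : ((a + d) - 1) ^ 2 * ((a + d) + 2) = 0 := by linear_combination ha + hd
  rcases mul_eq_zero.mp ht with h2 | h2
  · have := pow_eq_zero_iff (n := 2) (by norm_num) |>.mp h2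
    linarith
  · exfalso
    have ht2 : a + d = -2 := by linarith
    rw [ht2] at ha hd hb hc
    have ha' : a = -1 := by omega
    have hd' : d = -1 := by omega
    have hb' : b = 0 := by omega
    have hc' : c = 0 := by omega
    apply hne
    apply Subtype.ext
    ext i j
    fin_cases i <;> fin_cases j
    · simpa using ha'
    · simpa using hb'
    · simpa using hc'
    · simpa using hd'

/-- `tr (γ²) = (tr γ)² - 2`. -/
theorem trace_sq (γ : SL(2, ℤ)) :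
    ((γ ^ 2 : SL(2, ℤ)) : Matrix (Fin 2) (Fin 2) ℤ).trace =
      (γ : Matrix (Fin 2) (Fin 2) ℤ).trace ^ 2 - 2 := by
  have hdet := det_entries γ
  rw [Matrix.SpecialLinearGroup.coe_pow, pow_two, Matrix.trace_fin_two, Matrix.trace_fin_two]
  simp only [Matrix.mul_apply, Fin.sum_univ_two]
  linear_combination (-2 : ℤ) * hdet

theorem trace_neg (γ : SL(2, ℤ)) :
    ((-γ : SL(2, ℤ)) : Matrix (Fin 2) (Fin 2) ℤ).trace =
      -(γ : Matrix (Fin 2) (Fin 2) ℤ).trace := by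
  rw [Matrix.SpecialLinearGroup.coe_neg, Matrix.trace_neg]

/-- A conjugate of a power of `T` has trace `2`. -/
theorem trace_conj_T_zpow (g : SL(2, ℤ)) (k : ℤ) :
    ((g⁻¹ * ModularGroup.T ^ k * g : SL(2, ℤ)) : Matrix (Fin 2) (Fin 2) ℤ).trace = 2 := by
  rw [Matrix.SpecialLinearGroup.coe_mul, Matrix.SpecialLinearGroup.coe_mul,
    Matrix.trace_mul_cycle, ← Matrix.SpecialLinearGroup.coe_mul, mul_inv_cancel,
    Matrix.SpecialLinearGroup.coe_one, one_mul, ModularGroup.coe_T_zpow,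
    Matrix.trace_fin_two]
  simp

variable {Γ' : Subgroup SL(2, ℤ)}

/-- In a regular group there is no element of trace `0`, `±1`, `-2`. -/
theorem notMem_of_trace (hreg : Fermat.Agent.G1.Jac.IsReg Γ') {γ : SL(2, ℤ)}
    (h4 : (γ : Matrix (Fin 2) (Fin 2) ℤ).trace ^ 2 ≤ 4)
    (h2 : (γ : Matrix (Fin 2) (Fin 2) ℤ).trace ≠ 2) : γ ∉ Γ' :=
  fun hmem => h2 (hreg γ hmem h4)

end Trace

/-! ### The relative dictionary -/

/-- The hypotheses of the relative dictionary: `F'` above the trunk field `F0` of `Γ₀(N)`, a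
regular group `Γ'`, raw valuations at the points and the cusps, and the realisation `ρ` of
`Γ₀(N)` by automorphisms of `F'`. -/
structure RelData {K F0 F' : Type*} [Field K] [Field F0] [Field F']
    [Algebra K F0] [Algebra K F'] [Algebra F0 F'] (N : ℕ) (Γ' : Subgroup SL(2, ℤ))
    (V₀pt : ℍ → F0 → ℤ) (V₀cusp : SL(2, ℤ) → F0 → ℤ)
    (Vpt : ℍ → F' → ℤ) (Vcusp : SL(2, ℤ) → F' → ℤ)
    (ρ : ↥(Gamma0 N) →* (F' ≃ₐ[K] F')) : Prop where
  /-- the trunk dictionary (`ESJ.Dict.IsDict.place_cases`, literally) -/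
  place_cases₀ : ∀ v : Place K F0,
    (∃ (τ : ℍ) (e : ℕ), Fermat.Agent.S24.Ramif.EllType N τ e ∧
      ∀ f : F0, f ≠ 0 → V₀pt τ f = e * v.ord f) ∨
    (∃ (g : SL(2, ℤ)) (e w : ℕ), 0 < w ∧ e * w = N ∧
      g⁻¹ * ModularGroup.T ^ w * g ∈ Gamma0 N ∧
      ∀ f : F0, f ≠ 0 → V₀cusp g f = e * v.ord f)
  isRawVal_pt : ∀ τ : ℍ, IsRawVal K (Vpt τ)
  isRawVal_cusp : ∀ g : SL(2, ℤ), IsRawVal K (Vcusp g)
  res_pt : ∀ (τ : ℍ) (x : F0), x ≠ 0 → Vpt τ (algebraMap F0 F' x) = V₀pt τ x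
  res_cusp : ∀ (g : SL(2, ℤ)) (x : F0), x ≠ 0 → Vcusp g (algebraMap F0 F' x) = V₀cusp g x
  finite_range : Finite ρ.range
  fix : ∀ (γ : ↥(Gamma0 N)) (x : F0), ρ γ (algebraMap F0 F' x) = algebraMap F0 F' x
  inv : ∀ f : F', (∀ γ : ↥(Gamma0 N), ρ γ f = f) → f ∈ (algebraMap F0 F').range
  ρ_pt : ∀ (γ : ↥(Gamma0 N)) (τ : ℍ) (f : F'), f ≠ 0 →
    Vpt τ (ρ γ f) = Vpt ((γ : SL(2, ℤ)) • τ) f
  ρ_cusp : ∀ (γ : ↥(Gamma0 N)) (g : SL(2, ℤ)) (f : F'), f ≠ 0 →
    Vcusp g (ρ γ f) = Vcusp (g * (γ : SL(2, ℤ))⁻¹) f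
  ker : ∀ γ : ↥(Gamma0 N), ρ γ = 1 → (γ : SL(2, ℤ)) ∈ Γ' ∨ -(γ : SL(2, ℤ)) ∈ Γ'
  reg : Fermat.Agent.G1.Jac.IsReg Γ'
  normal : ∀ γ : SL(2, ℤ), γ ∈ Gamma0 N → ∀ x : SL(2, ℤ), x ∈ Γ' → γ * x * γ⁻¹ ∈ Γ'
  conj_T_pow_mem : ∀ g : SL(2, ℤ), g⁻¹ * ModularGroup.T ^ N * g ∈ Γ'
  cusp_T : ∀ (k : ℤ) (g : SL(2, ℤ)) (f : F'), Vcusp (ModularGroup.T ^ k * g) f = Vcusp g f
  dvd_cusp : ∀ (g : SL(2, ℤ)) (w : ℕ), 0 < w → g⁻¹ * ModularGroup.T ^ w * g ∈ Γ' →
    ∀ f : F', f ≠ 0 → (N : ℤ) ∣ Vcusp g f * w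

section Main

variable {K F0 F' : Type*} [Field K] [Field F0] [Field F']
  [Algebra K F0] [Algebra K F'] [Algebra F0 F'] [IsScalarTower K F0 F']
  [FiniteDimensional F0 F'] [HasPrincipalDivisors K F'] [IsAlgClosed K] [CharZero K]
  {N : ℕ} [NeZero N] {Γ' : Subgroup SL(2, ℤ)}
  {V₀pt : ℍ → F0 → ℤ} {V₀cusp : SL(2, ℤ) → F0 → ℤ}
  {Vpt : ℍ → F' → ℤ} {Vcusp : SL(2, ℤ) → F' → ℤ}
  {ρ : ↥(Gamma0 N) →* (F' ≃ₐ[K] F')}

omit [IsScalarTower K F0 F'] [FiniteDimensional F0 F'] [HasPrincipalDivisors K F']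
  [IsAlgClosed K] [CharZero K] [NeZero N] in
/-- elements of the image of `ρ` have positive order -/
theorem orderOf_pos_of_mem (hR : RelData N Γ' V₀pt V₀cusp Vpt Vcusp ρ) (γ : ↥(Gamma0 N)) :
    0 < orderOf (ρ γ) := by
  have := hR.finite_range
  have hmem : ρ γ ∈ ρ.range := MonoidHom.mem_range.mpr ⟨γ, rfl⟩
  have h1 : 0 < orderOf (⟨ρ γ, hmem⟩ : ρ.range) := orderOf_pos _
  rwa [Subgroup.orderOf_mk] at h1

omit [IsScalarTower K F0 F'] [FiniteDimensional F0 F'] [HasPrincipalDivisors K F']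
  [IsAlgClosed K] [CharZero K] [NeZero N] in
/-- an elliptic element of order `2` (in `PSL₂`) acts by an automorphism of order `≥ 2` -/
theorem two_le_orderOf (hR : RelData N Γ' V₀pt V₀cusp Vpt Vcusp ρ) (γ : ↥(Gamma0 N))
    (h2 : (γ : SL(2, ℤ)) ^ 2 = -1) : 2 ≤ orderOf (ρ γ) := by
  have hpos := orderOf_pos_of_mem hR γ
  have htr := trace_of_sq _ h2
  have hne : ρ γ ≠ 1 := by
    intro h1
    rcases hR.ker γ h1 with h | h
    · exact notMem_of_trace hR.reg (by rw [htr]; norm_num) (by rw [htr]; norm_num) h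
    · exact notMem_of_trace hR.reg (by rw [trace_neg, htr]; norm_num)
        (by rw [trace_neg, htr]; norm_num) h
  have : orderOf (ρ γ) ≠ 1 := fun h => hne (orderOf_eq_one_iff.mp h)
  omega

omit [IsScalarTower K F0 F'] [FiniteDimensional F0 F'] [HasPrincipalDivisors K F']
  [IsAlgClosed K] [CharZero K] [NeZero N] in
/-- an elliptic element of order `3` (in `PSL₂`) acts by an automorphism of order `≥ 3` -/
theorem three_le_orderOf (hR : RelData N Γ' V₀pt V₀cusp Vpt Vcusp ρ) (γ : ↥(Gamma0 N))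
    (h3 : (γ : SL(2, ℤ)) ^ 3 = -1) (hne1 : (γ : SL(2, ℤ)) ≠ -1) : 3 ≤ orderOf (ρ γ) := by
  have hpos := orderOf_pos_of_mem hR γ
  have htr := trace_of_cube _ h3 hne1
  have htr2 : (((γ : SL(2, ℤ)) ^ 2 : SL(2, ℤ)) : Matrix (Fin 2) (Fin 2) ℤ).trace = -1 := by
    rw [trace_sq, htr]; norm_num
  have hne : ρ γ ≠ 1 := by
    intro h1
    rcases hR.ker γ h1 with h | h
    · exact notMem_of_trace hR.reg (by rw [htr]; norm_num) (by rw [htr]; norm_num) h
    · exact notMem_of_trace hR.reg (by rw [trace_neg, htr]; norm_num)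
        (by rw [trace_neg, htr]; norm_num) h
  have hne2 : ρ γ ^ 2 ≠ 1 := by
    intro h1
    rw [← map_pow] at h1
    rcases hR.ker (γ ^ 2) h1 with h | h
    · rw [Subgroup.coe_pow] at h
      exact notMem_of_trace hR.reg (by rw [htr2]; norm_num) (by rw [htr2]; norm_num) h
    · rw [Subgroup.coe_pow] at h
      exact notMem_of_trace hR.reg (by rw [trace_neg, htr2]; norm_num)
        (by rw [trace_neg, htr2]; norm_num) h
  have h1 : orderOf (ρ γ) ≠ 1 := fun h => hne (orderOf_eq_one_iff.mp h)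
  have h2 : orderOf (ρ γ) ≠ 2 := fun h => hne2 (by
    have h' := pow_orderOf_eq_one (ρ γ)
    rwa [h] at h')
  omega

/-- **`place_cases` for `F'`**: every place of `F'` is a point place with exact index `1`, or a
cusp place with exact index `N / w`, `w` a width for `Γ'`. -/
theorem place_cases (hR : RelData N Γ' V₀pt V₀cusp Vpt Vcusp ρ)
    (hdeg : ∀ v : Place K F0, v.deg = 1) (hdeg' : ∀ w : Place K F', w.deg = 1)
    (P : Place K F') :
    (∃ τ : ℍ, ∀ f : F', f ≠ 0 → Vpt τ f = P.ord f) ∨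
    (∃ (g : SL(2, ℤ)) (e w : ℕ), 0 < w ∧ e * w = N ∧
      g⁻¹ * ModularGroup.T ^ w * g ∈ Γ' ∧
      ∀ f : F', f ≠ 0 → Vcusp g f = e * P.ord f) := by
  have hfin := hR.finite_range
  have hfixH : ∀ σ ∈ ρ.range, ∀ x : F0, σ (algebraMap F0 F' x) = algebraMap F0 F' x := by
    rintro σ ⟨γ, rfl⟩ x
    exact hR.fix γ x
  have hinvH : ∀ f : F', (∀ σ ∈ ρ.range, σ f = f) → f ∈ (algebraMap F0 F').range :=
    fun f hf => hR.inv f fun γ => hf (ρ γ) (MonoidHom.mem_range.mpr ⟨γ, rfl⟩)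
  rcases hR.place_cases₀ (P.restrict F0) with ⟨τ, e₀, hell, hval⟩ | ⟨g, e₀, w₀, hw₀, hew, hmem, hval⟩
  · left
    have he₀ := hell.pos
    obtain ⟨γ₀, hγ₀V, hord⟩ : ∃ γ₀ : ↥(Gamma0 N),
        (∀ f : F', f ≠ 0 → Vpt τ (ρ γ₀ f) = Vpt τ f) ∧ e₀ ≤ 1 * orderOf (ρ γ₀) := by
      rcases hell with rfl | ⟨rfl, γ₀, hγ₀, h2, hfixτ⟩ | ⟨rfl, γ₀, hγ₀, h3, hne, hfixτ⟩
      · exact ⟨1, fun f _ => by rw [map_one]; rfl, by rw [map_one, orderOf_one]⟩
      · refine ⟨⟨γ₀, hγ₀⟩, fun f hf => ?_, ?_⟩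
        · rw [hR.ρ_pt _ τ f hf]
          show Vpt (γ₀ • τ) f = Vpt τ f
          rw [hfixτ]
        · rw [one_mul]
          exact two_le_orderOf hR ⟨γ₀, hγ₀⟩ h2
      · refine ⟨⟨γ₀, hγ₀⟩, fun f hf => ?_, ?_⟩
        · rw [hR.ρ_pt _ τ f hf]
          show Vpt (γ₀ • τ) f = Vpt τ f
          rw [hfixτ]
        · rw [one_mul]
          exact three_le_orderOf hR ⟨γ₀, hγ₀⟩ h3 hne
    obtain ⟨w, -, -, -, hall⟩ := exists_place_exact_cyclic' hdeg hdeg' ρ.range hfixH hinvH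
      (hR.isRawVal_pt τ) (P.restrict F0) (e₀ := e₀) (e₁ := 1) he₀
      (fun x hx => (hR.res_pt τ x hx).trans (hval x hx)) (ρ γ₀) (MonoidHom.mem_range.mpr ⟨γ₀, rfl⟩) hγ₀V hord
      (fun f _ => one_dvd _)
    obtain ⟨σ, ⟨γ, rfl⟩, hσ⟩ := hall P rfl
    refine ⟨(γ : SL(2, ℤ)) • τ, fun f hf => ?_⟩
    rw [← hR.ρ_pt γ τ f hf, hσ f hf]
    simp
  · right
    have hN : 0 < N := Nat.pos_of_ne_zero (NeZero.ne N)
    have he₀ : 0 < e₀ := by
      rcases Nat.eq_zero_or_pos e₀ with h | h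
      · rw [h, zero_mul] at hew
        omega
      · exact h
    -- the generator of the stabiliser of the cusp in `Γ₀(N)`
    set γc : ↥(Gamma0 N) := ⟨g⁻¹ * ModularGroup.T ^ w₀ * g, hmem⟩ with hγc
    set k : ℕ := orderOf (ρ γc) with hk
    have hkpos : 0 < k := orderOf_pos_of_mem hR γc
    have hpowc : ∀ n : ℕ, (g⁻¹ * ModularGroup.T ^ w₀ * g) ^ n =
        g⁻¹ * ModularGroup.T ^ (w₀ * n) * g := by
      intro n
      rw [Fermat.Agent.S24.Ramif.conj_pow', pow_mul]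
    -- `γc ^ k ∈ Γ'`
    have hmemk : (g⁻¹ * ModularGroup.T ^ w₀ * g) ^ k ∈ Γ' := by
      have h1 : ρ (γc ^ k) = 1 := by
        rw [map_pow, hk]
        exact pow_orderOf_eq_one _
      rcases hR.ker (γc ^ k) h1 with h | h
      · rw [Subgroup.coe_pow] at h
        exact h
      · exfalso
        rw [Subgroup.coe_pow] at h
        have hcoe : ((γc : ↥(Gamma0 N)) : SL(2, ℤ)) = g⁻¹ * ModularGroup.T ^ w₀ * g := rfl
        rw [hcoe, hpowc k] at h
        have htr : ((g⁻¹ * ModularGroup.T ^ (w₀ * k) * g : SL(2, ℤ)) :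
            Matrix (Fin 2) (Fin 2) ℤ).trace = 2 := by
          rw [← zpow_natCast]
          exact trace_conj_T_zpow g _
        exact notMem_of_trace hR.reg (by rw [trace_neg, htr]; norm_num)
          (by rw [trace_neg, htr]; norm_num) h
    -- `γc ^ e₀ ∈ Γ'`
    have hmeme : (g⁻¹ * ModularGroup.T ^ w₀ * g) ^ e₀ ∈ Γ' := by
      rw [hpowc e₀, mul_comm w₀ e₀, hew]
      exact hR.conj_T_pow_mem g
    -- Bezout
    set d : ℕ := Nat.gcd e₀ k with hd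
    have hdpos : 0 < d := Nat.gcd_pos_of_pos_left k he₀
    have hmemd : (g⁻¹ * ModularGroup.T ^ w₀ * g) ^ d ∈ Γ' := by
      have hb := Nat.gcd_eq_gcd_ab e₀ k
      have h1 : (g⁻¹ * ModularGroup.T ^ w₀ * g) ^ ((d : ℕ) : ℤ) =
          ((g⁻¹ * ModularGroup.T ^ w₀ * g) ^ ((e₀ : ℕ) : ℤ)) ^ (Nat.gcdA e₀ k) *
            ((g⁻¹ * ModularGroup.T ^ w₀ * g) ^ ((k : ℕ) : ℤ)) ^ (Nat.gcdB e₀ k) := by
        rw [← zpow_mul, ← zpow_mul, ← zpow_add, hd, hb]
      rw [← zpow_natCast, h1]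
      refine Γ'.mul_mem (Γ'.zpow_mem ?_ _) (Γ'.zpow_mem ?_ _)
      · rw [zpow_natCast]
        exact hmeme
      · rw [zpow_natCast]
        exact hmemk
    set e₁ : ℕ := e₀ / d with he₁
    have he₁d : e₁ * d = e₀ := Nat.div_mul_cancel (Nat.gcd_dvd_left e₀ k)
    have hwd : 0 < w₀ * d := Nat.mul_pos hw₀ hdpos
    have hmemw : g⁻¹ * ModularGroup.T ^ (w₀ * d) * g ∈ Γ' := by
      rw [← hpowc d]
      exact hmemd
    have hNeq : e₁ * (w₀ * d) = N := by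
      rw [← hew, ← he₁d]
      ring
    -- invariance of `Vcusp g` under `ρ γc`
    have hγcV : ∀ f : F', f ≠ 0 → Vcusp g (ρ γc f) = Vcusp g f := by
      intro f hf
      rw [hR.ρ_cusp γc g f hf]
      have hcoe : ((γc : ↥(Gamma0 N)) : SL(2, ℤ)) = g⁻¹ * ModularGroup.T ^ w₀ * g := rfl
      have h1 : g * (g⁻¹ * ModularGroup.T ^ w₀ * g)⁻¹ = ModularGroup.T ^ (-(w₀ : ℤ)) * g := by
        rw [← zpow_natCast]
        group
      rw [hcoe, h1, hR.cusp_T]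
    have hcard : e₀ ≤ e₁ * orderOf (ρ γc) := by
      obtain ⟨k', hk'⟩ := Nat.gcd_dvd_right e₀ k
      have hk'pos : 0 < k' := by
        rcases Nat.eq_zero_or_pos k' with h | h
        · rw [h, mul_zero] at hk'
          omega
        · exact h
      rw [← hk, hk', ← mul_assoc, he₁d]
      exact Nat.le_mul_of_pos_right e₀ hk'pos
    have hdvd : ∀ f : F', f ≠ 0 → (e₁ : ℤ) ∣ Vcusp g f := by
      intro f hf
      have h1 := hR.dvd_cusp g (w₀ * d) hwd hmemw f hf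
      rw [← hNeq] at h1
      have h2 : ((w₀ * d : ℕ) : ℤ) ≠ 0 := by exact_mod_cast hwd.ne'
      push_cast at h1 h2
      exact Int.dvd_of_mul_dvd_mul_right h2 h1
    obtain ⟨w, -, -, -, hall⟩ := exists_place_exact_cyclic' hdeg hdeg' ρ.range hfixH hinvH
      (hR.isRawVal_cusp g) (P.restrict F0) (e₀ := e₀) (e₁ := e₁) he₀
      (fun x hx => (hR.res_cusp g x hx).trans (hval x hx)) (ρ γc) (MonoidHom.mem_range.mpr ⟨γc, rfl⟩) hγcV hcard hdvd
    obtain ⟨σ, ⟨γ, rfl⟩, hσ⟩ := hall P rfl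
    refine ⟨g * (γ : SL(2, ℤ))⁻¹, e₁, w₀ * d, hwd, hNeq, ?_, fun f hf => ?_⟩
    · have h1 : (g * (γ : SL(2, ℤ))⁻¹)⁻¹ * ModularGroup.T ^ (w₀ * d) * (g * (γ : SL(2, ℤ))⁻¹) =
          (γ : SL(2, ℤ)) * (g⁻¹ * ModularGroup.T ^ (w₀ * d) * g) * (γ : SL(2, ℤ))⁻¹ := by
        group
      rw [h1]
      exact hR.normal _ γ.2 _ hmemw
    · rw [← hR.ρ_cusp γ g f hf, hσ f hf]

omit [IsScalarTower K F0 F'] [FiniteDimensional F0 F'] [HasPrincipalDivisors K F']
  [IsAlgClosed K] [CharZero K] [Field F0] [Algebra K F0] [Algebra F0 F'] in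
/-- A raw valuation all of whose values are divisible by `q`, evaluated at an element all of
whose orders are divisible by `n`, is divisible by `n * q`. -/
theorem dvd_rawVal_of_forall_dvd {V : F' → ℤ} (hV : IsRawVal K V) (q : ℕ)
    (hq : ∀ g : F', g ≠ 0 → (q : ℤ) ∣ V g) (n : ℕ) (f : F') (hf : f ≠ 0)
    (hn : ∀ v : Place K F', (n : ℤ) ∣ v.ord f) : ((n * q : ℕ) : ℤ) ∣ V f := by
  by_cases hnt : ∃ g : F', g ≠ 0 ∧ V g ≠ 0
  · obtain ⟨m, -, ⟨π, hπ0, -, hπV⟩, hVm⟩ := hV.exists_mul_ord hnt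
    obtain ⟨m', hm'⟩ : (q : ℤ) ∣ m := hπV ▸ hq π hπ0
    obtain ⟨a, ha⟩ := hn (hV.place hnt)
    rw [hVm f hf, ha, hm']
    push_cast
    exact ⟨m' * a, by ring⟩
  · push Not at hnt
    rw [hnt f hf]
    exact dvd_zero _

/-- **Kummer form for `F'`**: `n` divides all orders of `f` iff it divides all point valuations
and `n * (N / w)` divides the cusp valuations (in `q_N`), `w` any width for `Γ'` dividing `N`. -/
theorem forall_dvd_ord_iff (hR : RelData N Γ' V₀pt V₀cusp Vpt Vcusp ρ)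
    (hdeg : ∀ v : Place K F0, v.deg = 1) (hdeg' : ∀ w : Place K F', w.deg = 1)
    (n : ℕ) (f : F') (hf : f ≠ 0) :
    ((∀ v : Place K F', (n : ℤ) ∣ v.ord f) ↔
      (∀ τ : ℍ, (n : ℤ) ∣ Vpt τ f) ∧
      (∀ (g : SL(2, ℤ)) (w : ℕ), 0 < w → w ∣ N →
        g⁻¹ * ModularGroup.T ^ w * g ∈ Γ' →
        ((n * (N / w) : ℕ) : ℤ) ∣ Vcusp g f)) := by
  constructor
  · intro h
    refine ⟨fun τ => ?_, fun g w hw hwN hmem => ?_⟩
    · have h1 := dvd_rawVal_of_forall_dvd (hR.isRawVal_pt τ) 1 (fun g _ => one_dvd _) n f hf h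
      simpa using h1
    · refine dvd_rawVal_of_forall_dvd (hR.isRawVal_cusp g) (N / w) (fun f' hf' => ?_) n f hf h
      have h1 := hR.dvd_cusp g w hw hmem f' hf'
      have h2 : ((N / w : ℕ) : ℤ) * (w : ℤ) ∣ Vcusp g f' * (w : ℤ) := by
        rw [← Nat.cast_mul, Nat.div_mul_cancel hwN]
        exact h1
      exact Int.dvd_of_mul_dvd_mul_right (by exact_mod_cast hw.ne') h2
  · rintro ⟨hpt, hcusp⟩ P
    rcases place_cases hR hdeg hdeg' P with ⟨τ, hτ⟩ | ⟨g, e, w, hw, hew, hmem, hval⟩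
    · rw [← hτ f hf]
      exact hpt τ
    · have h1 := hcusp g w hw ⟨e, by rw [← hew, mul_comm]⟩ hmem
      have hNw : N / w = e := by
        rw [← hew]
        exact Nat.mul_div_cancel e hw
      rw [hval f hf, hNw] at h1
      have hN : 0 < N := Nat.pos_of_ne_zero (NeZero.ne N)
      have he : (e : ℤ) ≠ 0 := by
        have : e ≠ 0 := by
          rintro rfl
          rw [zero_mul] at hew
          omega
        exact_mod_cast this
      push_cast at h1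
      rw [mul_comm (n : ℤ) (e : ℤ)] at h1
      exact Int.dvd_of_mul_dvd_mul_left he h1

end Main

end Fermat.Agent.G1.Dict.RelAbs
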