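import Mathlib
import Fermat.Agent.G1.Dict.Cusp
import Fermat.Agent.G1.Dict.CuspRel
import Fermat.Agent.G1.Dict.Mer
import Fermat.Agent.G1.Dict.RelAbs
import Fermat.Agent.G1.Dict.FFGlue
import Fermat.Agent.G1.Dict.Inst1
import Fermat.Agent.G1.GalBridge
import Fermat.Agent.G1.GroupFacts

/-!
# G1 / DICT: assembly of the dictionary `IsDict1 ι M a`

* `relData_of_rho`: the relative data `RelAbs.RelData` for `K·F1a(M, a)` over the trunk
  `K·F0(M a)`, from the trunk dictionary `ESJ.Dict.IsDict ι (M a)` and a realisation `ρ` of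
  `Γ₀(M a)` by automorphisms (the diamonds);
* `isDict1_of_relData`: the structure `IsDict1 ι M a` from the relative data.
-/

set_option autoImplicit false

open UpperHalfPlane ModularForm AlgebraicCurve CongruenceSubgroup ModularCurve
open scoped MatrixGroups Manifold

noncomputable section

namespace Fermat.Agent.G1.Dict.Inst

open Fermat.Agent.S24 Fermat.Agent.ESJ.Jac Fermat.Agent.ESJ.Dict

variable {K : Type} [Field K] [Algebra ℚ K] (ι : K →+* ℂ) (M a : ℕ) [NeZero M] [NeZero a]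

/-- The relative data of `K·F1a(M, a)` over `K·F0(M a)` from the trunk dictionary and a
realisation `ρ` of `Γ₀(M a)` by automorphisms of `K·F1a(M, a)`. -/
theorem relData_of_rho (hM : 5 ≤ M) (hD0 : IsDict ι (M * a))
    (ρ : ↥(Gamma0 (M * a)) →* (F1aK K M a ≃ₐ[K] F1aK K M a))
    (hfin : Finite ρ.range)
    (hfix : ∀ (γ : ↥(Gamma0 (M * a))) (x : FNK K (M * a)),
      ρ γ (algebraMap (FNK K (M * a)) (F1aK K M a) x)
        = algebraMap (FNK K (M * a)) (F1aK K M a) x)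
    (hinv : ∀ f : F1aK K M a, (∀ γ : ↥(Gamma0 (M * a)), ρ γ f = f) →
      f ∈ (algebraMap (FNK K (M * a)) (F1aK K M a)).range)
    (hpt : ∀ (γ : ↥(Gamma0 (M * a))) (τ : ℍ) (f : F1aK K M a), f ≠ 0 →
      valPt1K ι M a τ (ρ γ f) = valPt1K ι M a ((γ : SL(2, ℤ)) • τ) f)
    (hcusp : ∀ (γ : ↥(Gamma0 (M * a))) (g : SL(2, ℤ)) (f : F1aK K M a), f ≠ 0 →
      valCusp1K ι M a g (ρ γ f) = valCusp1K ι M a (g * (γ : SL(2, ℤ))⁻¹) f)
    (hker : ∀ γ : ↥(Gamma0 (M * a)), ρ γ = 1 →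
      (γ : SL(2, ℤ)) ∈ Gam1a M a ∨ -(γ : SL(2, ℤ)) ∈ Gam1a M a)
    (hnormal : ∀ γ : SL(2, ℤ), γ ∈ Gamma0 (M * a) → ∀ x : SL(2, ℤ), x ∈ Gam1a M a →
      γ * x * γ⁻¹ ∈ Gam1a M a) :
    RelAbs.RelData (M * a) (Gam1a M a) (valPtK ι (M * a)) (valCuspK ι (M * a))
      (valPt1K ι M a) (valCusp1K ι M a) ρ where
  place_cases₀ := hD0.place_cases
  isRawVal_pt := Mer.isRawVal_valPt1K ι M a
  isRawVal_cusp := cusp_isRawVal_valCusp1K ι M a
  res_pt := CuspRel.valPt1K_algebraMap_F0 ι M a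
  res_cusp := CuspRel.valCusp1K_algebraMap_F0 ι M a
  finite_range := hfin
  fix := hfix
  inv := hinv
  ρ_pt := hpt
  ρ_cusp := hcusp
  ker := hker
  reg := isReg_of_le inf_le_left (isReg_Gamma1 hM)
  normal := hnormal
  conj_T_pow_mem := Inst1.conj_T_pow_mem_Gam1a M a
  cusp_T := CuspRel.valCusp1K_T_zpow_mul ι M a
  dvd_cusp := cusp_dvd_valCusp1K_mul ι M a

/-- **The dictionary of `Γ₁(M) ∩ Γ₀(M a)`** from the relative data over the trunk. -/
theorem isDict1_of_relData [IsAlgClosed K] [CharZero K]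
    {ρ : ↥(Gamma0 (M * a)) →* (F1aK K M a ≃ₐ[K] F1aK K M a)}
    (hR : RelAbs.RelData (M * a) (Gam1a M a) (valPtK ι (M * a)) (valCuspK ι (M * a))
      (valPt1K ι M a) (valCusp1K ι M a) ρ) :
    IsDict1 ι M a where
  exists_isRep1K := Gal.exists_isRep1K M a
  fm1K_eq_zero_iff := Gal.fm1K_eq_zero_iff ι M a
  mdiff_ev1K := Gal.mdiff_ev1K ι M a
  ev1K_smul := Gal.ev1K_smul_Gam1a ι M a
  valPt1K_eq_of_isRep1K := fun τ _ _ _ h hf => Gal.valPt1K_eq_of_isRep1K ι M a τ hf h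
  valCusp1K_eq_of_isRep1K := cusp_valCusp1K_eq_of_isRep1K ι M a
  mer1K_eq_div_ae := fun _ _ _ h => Gal.mer1K_eventuallyEq_of_isRep1K ι M a h
  isRawVal_valPt1K := Mer.isRawVal_valPt1K ι M a
  isRawVal_valCusp1K := cusp_isRawVal_valCusp1K ι M a
  meromorphicOn_mer1K := Mer.meromorphicOn_mer1K ι M a
  meromorphicOrderAt_mer1K := Mer.meromorphicOrderAt_mer1K ι M a
  mer1K_mob := fun f γ hγ _ hz => Gal.mer1K_mob ι M a f γ hγ hz
  mer1K_mul := Mer.mer1K_mul ι M a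
  mer1K_add := Mer.mer1K_add ι M a
  mer1K_algebraMap := Mer.mer1K_algebraMap ι M a
  mer1K_eq_zero_iff := Mer.mer1K_eq_zero_iff ι M a
  mer1K_cusp_shape := cusp_mer1K_cusp_shape ι M a
  merAtCusps_mer1K := cusp_merAtCusps_mer1K ι M a
  hasPrincipalDivisors := FFGlue.hasPrincipalDivisors_F1aK K M a
  dvd_valCusp1K_mul := cusp_dvd_valCusp1K_mul ι M a
  place_cases :=
    haveI := FFGlue.hasPrincipalDivisors_F1aK K M a
    RelAbs.place_cases hR (FFGlue.deg_eq_one_F0 K M a) (FFGlue.deg_eq_one_F1aK K M a)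
  forall_dvd_ord_iff :=
    haveI := FFGlue.hasPrincipalDivisors_F1aK K M a
    RelAbs.forall_dvd_ord_iff hR (FFGlue.deg_eq_one_F0 K M a) (FFGlue.deg_eq_one_F1aK K M a)

end Fermat.Agent.G1.Dict.Inst
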