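import Mathlib
import Fermat.Agent.G1.Dict.Defs
import Fermat.Agent.Lib.Descent.Laurent

/-!
# G1 / DICT: the base change `ℚ̄ → ℂ` of the dictionary of `Γ₁(M) ∩ Γ₀(M a)`

`bc1 M a : F1aK ℚ̄ M a →+* F1aK ℂ M a`, `x ↦ coeffMap iotaK x` (coefficientwise embedding of
Laurent series), its compatibility with the formal and the analytic evaluation of polynomials in
the generators, and

* `merBc_of_isDict1 : IsDict1 iotaK M a → IsDict1 (RingHom.id ℂ) M a →
    Jac.MerBc (F1a M a) (mer1K iotaK M a) (mer1K (RingHom.id ℂ) M a)`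

(the hypothesis `MerBc` of the abstract Kummer theory `G1/Jac/*G.lean`), together with the
pointwise form `mer1K_bc1`.  Port of `ESJ/Jac/BridgeBase.lean` + `ESJ/Jac/Bridge.lean`.
-/

set_option autoImplicit false

open UpperHalfPlane Filter ModularCurve
open scoped MatrixGroups

noncomputable section

namespace Fermat.Agent.G1.Dict.InstBc

open Fermat.Agent.S24 Fermat.Agent.ESJ.Jac Fermat.Agent.G1.Jac Fermat.Agent.G1.Dict
open Fermat.Agent.Lib.Descent

/-- The embedding `ℚ̄ → ℂ` as an algebra structure (local to the proofs of this file). -/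
@[reducible] def algKQ : Algebra KQ ℂ := iotaK.toAlgebra

/-- The coefficientwise embedding maps `ℚ̄·F₀` into `ℂ·F₀`. -/
theorem coeffMap_iotaK_mem {F₀ : IntermediateField ℚ (LaurentSeries ℚ)} {x : LaurentSeries KQ}
    (hx : x ∈ laurentBaseChange KQ F₀) : coeffMap iotaK x ∈ laurentBaseChange ℂ F₀ := by
  let _ : Algebra KQ ℂ := algKQ
  exact coeffMap_mem_laurentBaseChange_of_mem (K := KQ) (Ω := ℂ) F₀ hx

variable (M a : ℕ) [NeZero M] [NeZero a]

/-- The base change `ℚ̄·F1a(M, a) → ℂ·F1a(M, a)`: coefficientwise embedding. -/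
def bc1 : F1aK KQ M a →+* F1aK ℂ M a where
  toFun x := ⟨coeffMap iotaK (x : LaurentSeries KQ), coeffMap_iotaK_mem x.2⟩
  map_one' := Subtype.ext (by simp)
  map_mul' x y := Subtype.ext (by simp)
  map_zero' := Subtype.ext (by simp)
  map_add' x y := Subtype.ext (by simp)

variable {M a}

theorem bc1_coe (f : F1aK KQ M a) :
    ((bc1 M a f : F1aK ℂ M a) : LaurentSeries ℂ) = coeffMap iotaK (f : LaurentSeries KQ) := rfl

theorem bc1_injective : Function.Injective (bc1 M a) := (bc1 M a).injective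

theorem bc1_eq_zero_iff (f : F1aK KQ M a) : bc1 M a f = 0 ↔ f = 0 :=
  map_eq_zero_iff _ bc1_injective

theorem bc1_algebraMap (c : KQ) :
    bc1 M a (algebraMap KQ (F1aK KQ M a) c) = algebraMap ℂ (F1aK ℂ M a) (iotaK c) := by
  apply Subtype.ext
  rw [bc1_coe]
  show coeffMap iotaK (algebraMap KQ (LaurentSeries KQ) c)
    = algebraMap ℂ (LaurentSeries ℂ) (iotaK c)
  rw [LaurentSeries.algebraMap_apply, coeffMap_C, ← LaurentSeries.algebraMap_apply]

theorem bc1_gen1K (i : Ix M a) : bc1 M a (gen1K KQ M a i) = gen1K ℂ M a i := by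
  let _ : Algebra KQ ℂ := algKQ
  apply Subtype.ext
  rw [bc1_coe]
  exact coeffMap_coeffEmb_eq (K := KQ) (Ω := ℂ) _

/-- Base change commutes with the formal evaluation of polynomials in the generators. -/
theorem bc1_fm1K (P : MvPolynomial (Ix M a) KQ) :
    bc1 M a (fm1K KQ M a P) = fm1K ℂ M a (P.map iotaK) := by
  have h : (bc1 M a).comp (fm1K KQ M a : MvPolynomial (Ix M a) KQ →+* F1aK KQ M a)
      = (fm1K ℂ M a : MvPolynomial (Ix M a) ℂ →+* F1aK ℂ M a).comp
          (MvPolynomial.map iotaK) := by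
    apply MvPolynomial.ringHom_ext
    · intro c
      simp only [RingHom.comp_apply, RingHom.coe_coe, MvPolynomial.map_C]
      rw [fm1K, fm1K, MvPolynomial.aeval_C, MvPolynomial.aeval_C]
      exact bc1_algebraMap c
    · intro i
      simp only [RingHom.comp_apply, RingHom.coe_coe, MvPolynomial.map_X]
      rw [fm1K, fm1K, MvPolynomial.aeval_X, MvPolynomial.aeval_X]
      exact bc1_gen1K i
  exact congrArg (fun φ : MvPolynomial (Ix M a) KQ →+* F1aK ℂ M a => φ P) h

omit [NeZero a] in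
/-- The analytic evaluation does not see the base change. -/
theorem ev1K_map_iotaK (P : MvPolynomial (Ix M a) KQ) :
    ev1K (RingHom.id ℂ) M a (P.map iotaK) = ev1K iotaK M a P := by
  rw [ev1K, ev1K, MvPolynomial.coe_eval₂Hom, MvPolynomial.coe_eval₂Hom,
    MvPolynomial.eval₂_map]
  rfl

/-- Representatives base-change. -/
theorem isRep1K_bc1 {f : F1aK KQ M a} {P Q : MvPolynomial (Ix M a) KQ}
    (h : IsRep1K M a f P Q) :
    IsRep1K M a (bc1 M a f) (P.map iotaK) (Q.map iotaK) := by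
  refine ⟨?_, ?_⟩
  · rw [← bc1_fm1K]
    exact fun h0 => h.1 ((bc1_eq_zero_iff _).mp h0)
  · rw [← bc1_fm1K, ← bc1_fm1K, ← map_div₀, ← h.2]

/-- **The avatars over `ℚ̄` and over `ℂ` agree under base change** (off a discrete set). -/
theorem mer1K_bc1 (hDQ : IsDict1 iotaK M a) (hDC : IsDict1 (RingHom.id ℂ) M a)
    (f : F1aK KQ M a) :
    mer1K (RingHom.id ℂ) M a (bc1 M a f) =ᶠ[codiscreteWithin U] mer1K iotaK M a f := by
  obtain ⟨P, Q, hrep⟩ := hDQ.exists_isRep1K f
  have h1 := hDC.mer1K_eq_div_ae (bc1 M a f) _ _ (isRep1K_bc1 hrep)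
  have h2 := hDQ.mer1K_eq_div_ae f P Q hrep
  filter_upwards [h1, h2] with z hz1 hz2
  rw [hz1, hz2, ev1K_map_iotaK, ev1K_map_iotaK]

/-- **`MerBc` for the dictionaries of `Γ₁(M) ∩ Γ₀(M a)`** over `ℚ̄` and over `ℂ`. -/
theorem merBc_of_isDict1 (hDQ : IsDict1 iotaK M a) (hDC : IsDict1 (RingHom.id ℂ) M a) :
    MerBc (F1a M a) (mer1K iotaK M a) (mer1K (RingHom.id ℂ) M a) :=
  fun f => ⟨bc1 M a f, bc1_coe f, mer1K_bc1 hDQ hDC f⟩

end Fermat.Agent.G1.Dict.InstBc
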