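import Mathlib
import Fermat.Agent.G1.GalBridge
import Fermat.Agent.G1.GalInst
import Fermat.Agent.G1.Dict.CuspRel

/-!
# G1 / DICT: the action `ρ` of `Γ₀(M·a)` on `K·F1a(M, a)` through the diamonds

`lrUnit M a : Γ₀(M·a) →* (ℤ/M)ˣ` is the class of the lower right entry; composing with the
diamond automorphisms `Gal.diaK ι M a` gives `rho ι M a : Γ₀(M·a) →* Aut_K (K·F1a(M, a))`
(pull-back by `γ`).  This file proves the `ρ`-fields of the relative place dictionary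
(`RelData` of `G1/Dict/RelAbs.lean`) for `F' = K·F1a(M, a)` over `F0 = K·F0(M·a)`:
`finite_range`, `fix`, `inv`, `rho_pt`, `rho_cusp`, `ker`, `normal`, and the faithfulness of the
diamonds `diaK_eq_one_iff`.
-/

set_option autoImplicit false
set_option linter.unusedSectionVars false

open UpperHalfPlane ModularForm CongruenceSubgroup Filter ModularCurve
open scoped MatrixGroups Manifold Topology

noncomputable section

namespace Fermat.Agent.G1.Dict.Rho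

open Fermat.Agent.S24 Fermat.Agent.ESJ.Jac Fermat.Agent.ESJ.Dict Fermat.Agent.G1
open Fermat.Agent.G1.Dict

/-! ### The lower right entry as a homomorphism `Γ₀(M·a) → (ℤ/M)ˣ` -/

section LR

variable (M a : ℕ)

/-- The lower right entry of `γ ∈ Γ₀(M·a)` modulo `M`, as a monoid homomorphism. -/
def lrHom : ↥(Gamma0 (M * a)) →* ZMod M :=
  (ZMod.castHom (Dvd.intro a rfl : M ∣ M * a) (ZMod M)).toMonoidHom.comp (Gamma0Map (M * a))

theorem lrHom_apply (γ : ↥(Gamma0 (M * a))) :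
    lrHom M a γ = (((γ : SL(2, ℤ)) 1 1 : ℤ) : ZMod M) := by
  show ZMod.castHom (Dvd.intro a rfl : M ∣ M * a) (ZMod M)
    ((((γ : SL(2, ℤ)) 1 1 : ℤ) : ZMod (M * a))) = _
  rw [map_intCast]

/-- The class of the lower right entry of `γ ∈ Γ₀(M·a)` in `(ℤ/M)ˣ`. -/
def lrUnit : ↥(Gamma0 (M * a)) →* (ZMod M)ˣ := (lrHom M a).toHomUnits

theorem coe_lrUnit (γ : ↥(Gamma0 (M * a))) :
    ((lrUnit M a γ : (ZMod M)ˣ) : ZMod M) = (((γ : SL(2, ℤ)) 1 1 : ℤ) : ZMod M) := by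
  rw [lrUnit, MonoidHom.coe_toHomUnits, lrHom_apply]

variable [NeZero M] [NeZero a]

theorem lrUnit_surjective : Function.Surjective (lrUnit M a) := by
  intro c
  obtain ⟨γ, hγ, hc⟩ := Gal.exists_mem_Gamma0_lowerRight M a c
  refine ⟨⟨γ, hγ⟩, Units.ext ?_⟩
  rw [coe_lrUnit, hc]

omit [NeZero M] [NeZero a] in
/-- An element of `Γ₀(M·a)` with lower right entry `≡ 1` modulo `M` lies in
`Γ₁(M) ∩ Γ₀(M·a)`. -/
theorem mem_Gam1a_of_lr {x : SL(2, ℤ)} (hx : x ∈ Gamma0 (M * a))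
    (h1 : ((x 1 1 : ℤ) : ZMod M) = 1) : x ∈ Gam1a M a := by
  refine ⟨?_, hx⟩
  have h10 : ((x 1 0 : ℤ) : ZMod M) = 0 := (Gamma0_mem).mp (Gal.Gamma0_mul_le M a hx)
  have hdet : (x 0 0 : ℤ) * x 1 1 - x 0 1 * x 1 0 = 1 := by
    have h := x.det_coe
    rw [Matrix.det_fin_two] at h
    exact h
  have h00 : ((x 0 0 : ℤ) : ZMod M) = 1 := by
    have h := congrArg (fun n : ℤ => (n : ZMod M)) hdet
    simp only [Int.cast_sub, Int.cast_mul, Int.cast_one, h10, h1, mul_zero, sub_zero,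
      mul_one] at h
    exact h
  exact (Gamma1_mem M x).mpr ⟨h00, h1, h10⟩

omit [NeZero M] [NeZero a] in
theorem mem_Gam1a_iff_lrUnit (γ : ↥(Gamma0 (M * a))) :
    (γ : SL(2, ℤ)) ∈ Gam1a M a ↔ lrUnit M a γ = 1 := by
  constructor
  · intro h
    apply Units.ext
    rw [coe_lrUnit, Units.val_one]
    exact ((Gamma1_mem M _).mp h.1).2.1
  · intro h
    refine mem_Gam1a_of_lr M a γ.2 ?_
    rw [← coe_lrUnit, h, Units.val_one]

omit [NeZero M] [NeZero a] in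
/-- **`normal`**: `Γ₁(M) ∩ Γ₀(M·a)` is normalised by `Γ₀(M·a)`. -/
theorem normal (γ : SL(2, ℤ)) (hγ : γ ∈ Gamma0 (M * a)) (x : SL(2, ℤ)) (hx : x ∈ Gam1a M a) :
    γ * x * γ⁻¹ ∈ Gam1a M a := by
  have key : ∀ γ' x' : ↥(Gamma0 (M * a)), (x' : SL(2, ℤ)) ∈ Gam1a M a →
      ((γ' * x' * γ'⁻¹ : ↥(Gamma0 (M * a))) : SL(2, ℤ)) ∈ Gam1a M a := by
    intro γ' x' hx'
    have h := (mem_Gam1a_iff_lrUnit M a x').mp hx'
    apply (mem_Gam1a_iff_lrUnit M a _).mpr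
    rw [map_mul, map_mul, h, mul_one, map_inv, mul_inv_cancel]
  have h2 := key ⟨γ, hγ⟩ ⟨x, hx.2⟩ hx
  rw [Subgroup.coe_mul, Subgroup.coe_mul, Subgroup.coe_inv] at h2
  exact h2

end LR

/-! ### The action `ρ` -/

section RhoSec

variable {K : Type} [Field K] [Algebra ℚ K] (ι : K →+* ℂ) (M a : ℕ) [NeZero M] [NeZero a]

/-- The action of `Γ₀(M·a)` on `K·F1a(M, a)` (pull-back by `γ`): `ρ γ = δ_{d(γ)}`. -/
def rho : ↥(Gamma0 (M * a)) →* (F1aK K M a ≃ₐ[K] F1aK K M a) :=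
  (Gal.diaK ι M a).comp (lrUnit M a)

theorem rho_apply (γ : ↥(Gamma0 (M * a))) : rho ι M a γ = Gal.diaK ι M a (lrUnit M a γ) := rfl

/-- **`finite_range`**. -/
theorem finite_range : Finite (rho ι M a).range := by
  have h1 : Finite (Gal.diaK ι M a).range :=
    Finite.of_surjective (Gal.diaK ι M a).rangeRestrict
      (MonoidHom.rangeRestrict_surjective _)
  have hle : (rho ι M a).range ≤ (Gal.diaK ι M a).range := by
    rintro _ ⟨γ, rfl⟩
    exact ⟨lrUnit M a γ, rfl⟩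
  exact Finite.of_injective (Subgroup.inclusion hle) (Subgroup.inclusion_injective hle)

/-- **`fix`**: `ρ` fixes `K·F0(M·a)` pointwise. -/
theorem fix (γ : ↥(Gamma0 (M * a))) (x : FNK K (M * a)) :
    rho ι M a γ (algebraMap (FNK K (M * a)) (F1aK K M a) x)
      = algebraMap (FNK K (M * a)) (F1aK K M a) x :=
  Gal.diaK_algebraMap_F0 ι M a _ x

/-- **`inv`**: the invariants of `ρ` are `K·F0(M·a)`. -/
theorem inv (f : F1aK K M a) (hf : ∀ γ : ↥(Gamma0 (M * a)), rho ι M a γ f = f) :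
    f ∈ (algebraMap (FNK K (M * a)) (F1aK K M a)).range := by
  refine GalArt.diaK_fixed_mem_range ι M a f (fun c => ?_)
  obtain ⟨γ, rfl⟩ := lrUnit_surjective M a c
  exact hf γ

/-- **`ρ_pt`**: `ord_τ (ρ γ f) = ord_{γ τ} f`. -/
theorem rho_pt (γ : ↥(Gamma0 (M * a))) (τ : ℍ) (f : F1aK K M a) (hf : f ≠ 0) :
    valPt1K ι M a τ (rho ι M a γ f) = valPt1K ι M a ((γ : SL(2, ℤ)) • τ) f :=
  Gal.valPt1K_diaK ι M a _ γ γ.2 (coe_lrUnit M a γ) τ hf

/-- **`ρ_cusp`**: `ord_{g} (ρ γ f) = ord_{g γ⁻¹} f`. -/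
theorem rho_cusp (γ : ↥(Gamma0 (M * a))) (g : SL(2, ℤ)) (f : F1aK K M a) (hf : f ≠ 0) :
    valCusp1K ι M a g (rho ι M a γ f) = valCusp1K ι M a (g * (γ : SL(2, ℤ))⁻¹) f :=
  CuspRel.valCusp1K_diaK ι M a _ γ γ.2 (coe_lrUnit M a γ) g hf

/-- Analytic meaning of `ρ`: `mer1K (ρ γ f) = mer1K f ∘ γ` off a discrete set. -/
theorem rho_mer (γ : ↥(Gamma0 (M * a))) (f : F1aK K M a) :
    mer1K ι M a (rho ι M a γ f)
      =ᶠ[codiscreteWithin U] fun z => mer1K ι M a f (mob (γ : SL(2, ℤ)) z) :=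
  Gal.mer1K_diaK ι M a _ γ γ.2 (coe_lrUnit M a γ) f

/-- **Faithfulness of the diamonds**: `δ_c = 1 ↔ c = ±1` (for `3 ≤ M`). -/
theorem diaK_eq_one_iff (hM : 3 ≤ M) (c : (ZMod M)ˣ) :
    Gal.diaK ι M a c = 1 ↔ c = 1 ∨ c = -1 := by
  constructor
  · intro h
    have h1 := Gal.diaK_gen_inr ι M a c 1
    rw [h, AlgEquiv.one_apply] at h1
    have h2 : Gal.gen1L K M a (Sum.inr 1) = Gal.gen1L K M a (Sum.inr (1 * c⁻¹)) :=
      congrArg (fun x : F1aK K M a => (x : LaurentSeries K)) h1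
    rw [Gal.gen1L_inr, Gal.gen1L_inr, one_mul] at h2
    rcases (xgenR_eq_iff K (unit_ne_neg hM 1) (unit_ne_neg hM c⁻¹)).mp h2 with h3 | h3
    · left
      have h4 : (1 : (ZMod M)ˣ) = c⁻¹ := Units.ext h3
      rw [← inv_inv c, ← h4, inv_one]
    · right
      have h4 : (1 : (ZMod M)ˣ) = -c⁻¹ := Units.ext (by rw [Units.val_neg]; exact h3)
      have h5 : c⁻¹ = -1 := by rw [h4, neg_neg]
      rw [← inv_inv c, h5]
      simp
  · rintro (rfl | rfl)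
    · exact map_one _
    · exact Gal.diaK_neg_one ι M a

/-- **`ker`**: if `ρ γ = 1` then `γ` or `-γ` lies in `Γ₁(M) ∩ Γ₀(M·a)` (for `3 ≤ M`). -/
theorem ker (hM : 3 ≤ M) (γ : ↥(Gamma0 (M * a))) (h : rho ι M a γ = 1) :
    (γ : SL(2, ℤ)) ∈ Gam1a M a ∨ -(γ : SL(2, ℤ)) ∈ Gam1a M a := by
  rcases (diaK_eq_one_iff ι M a hM _).mp h with h1 | h1
  · exact Or.inl ((mem_Gam1a_iff_lrUnit M a γ).mpr h1)
  · right
    have hneg : -(γ : SL(2, ℤ)) ∈ Gamma0 (M * a) := by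
      have h0 := (Gamma0_mem).mp γ.2
      rw [Gamma0_mem]
      show ((((-(γ : SL(2, ℤ)) : SL(2, ℤ)) : Matrix (Fin 2) (Fin 2) ℤ) 1 0 : ℤ) : ZMod (M * a)) = 0
      rw [Matrix.SpecialLinearGroup.coe_neg, Matrix.neg_apply, Int.cast_neg, h0, neg_zero]
    refine mem_Gam1a_of_lr M a hneg ?_
    have h2 := coe_lrUnit M a γ
    rw [h1, Units.val_neg, Units.val_one] at h2
    show ((((-(γ : SL(2, ℤ)) : SL(2, ℤ)) : Matrix (Fin 2) (Fin 2) ℤ) 1 1 : ℤ) : ZMod M) = 1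
    rw [Matrix.SpecialLinearGroup.coe_neg, Matrix.neg_apply, Int.cast_neg, ← h2, neg_neg]

end RhoSec

end Fermat.Agent.G1.Dict.Rho
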