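import Mathlib
import Fermat.Agent.G1.Dict.Inst
import Fermat.Agent.G1.Dict.Rho
import Fermat.Agent.ESJ.Dict.Main

/-!
# G1 / DICT: the dictionary `IsDict1 ι M a` for `Γ₁(M) ∩ Γ₀(M a)`, `5 ≤ M`, unconditionally

* `relData`: the relative data over the trunk `K·F0(M a)` with `ρ = Rho.rho ι M a` (the diamonds);
* `isDict1`: `IsDict1 ι M a` from the trunk dictionary `ESJ.Dict.IsDict ι (M a)`;
* `isDict1_Qbar : IsDict1 iotaK M a` and `isDict1_C : IsDict1 (RingHom.id ℂ) M a`.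
-/

set_option autoImplicit false

open UpperHalfPlane ModularForm AlgebraicCurve CongruenceSubgroup ModularCurve
open scoped MatrixGroups Manifold

noncomputable section

namespace Fermat.Agent.G1.Dict.Inst

open Fermat.Agent.S24 Fermat.Agent.ESJ.Jac Fermat.Agent.ESJ.Dict

variable {K : Type} [Field K] [Algebra ℚ K] (ι : K →+* ℂ) (M a : ℕ) [NeZero M] [NeZero a]

/-- The relative data of `K·F1a(M, a)` over `K·F0(M a)` for the diamond action `Rho.rho`. -/
theorem relData (hM : 5 ≤ M) (hD0 : IsDict ι (M * a)) :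
    RelAbs.RelData (M * a) (Gam1a M a) (valPtK ι (M * a)) (valCuspK ι (M * a))
      (valPt1K ι M a) (valCusp1K ι M a) (Rho.rho ι M a) :=
  relData_of_rho ι M a hM hD0 (Rho.rho ι M a) (Rho.finite_range ι M a) (Rho.fix ι M a)
    (Rho.inv ι M a) (Rho.rho_pt ι M a) (Rho.rho_cusp ι M a)
    (Rho.ker ι M a (le_trans (by norm_num) hM)) (Rho.normal M a)

/-- **The dictionary of `Γ₁(M) ∩ Γ₀(M a)`**, `5 ≤ M`, from the trunk dictionary at level
`M a`. -/
theorem isDict1 [IsAlgClosed K] [CharZero K] (hM : 5 ≤ M) (hD0 : IsDict ι (M * a)) :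
    IsDict1 ι M a :=
  isDict1_of_relData ι M a (relData ι M a hM hD0)

/-- The dictionary of `Γ₁(M) ∩ Γ₀(M a)` over `ℚ̄`. -/
theorem isDict1_Qbar {M a : ℕ} [NeZero M] [NeZero a] (hM : 5 ≤ M) : IsDict1 iotaK M a :=
  isDict1 iotaK M a hM (isDict_Qbar (M * a))

/-- The dictionary of `Γ₁(M) ∩ Γ₀(M a)` over `ℂ`. -/
theorem isDict1_C {M a : ℕ} [NeZero M] [NeZero a] (hM : 5 ≤ M) : IsDict1 (RingHom.id ℂ) M a :=
  isDict1 (RingHom.id ℂ) M a hM (isDict_C (M * a))

end Fermat.Agent.G1.Dict.Inst
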