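import Mathlib
import Fermat.Agent.G1.GalMer
import Fermat.Agent.S24.Counting
import Fermat.Agent.S24.QLaurentMod
import Fermat.Agent.S24.OrdAtMod

/-!
# G1 / DICT: raw valuations of a representation system (generic)

For a representation system `(fm, ev)` (`G1.MerRep.IsRepSys`: every element of the field `F` is a
quotient `fm P / fm Q`, and `fm P = 0 ↔ ev P = 0`) and an "order function" `o` on the analytic
evaluations (`IsOrd ev o`: additive on products, ultrametric on sums, zero on constants),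

  `val fm ev o f := o (ev P) - o (ev Q)`   (`f = fm P / fm Q` a chosen representative)

is a raw valuation on `F` (`isRawVal_val`), computable on any representative (`val_eq_of_rep`).

* `isOrd_pt` : `o = ordAt · τ` (order at a point of `ℍ`);
* `isOrd_cusp` : `o = ordInf h (trans g ·)` (order at the cusp `g⁻¹∞` in `q_h`);
* `val_sub` : compatibility with a sub-system (restriction to a subfield);
* `val_twist` : behaviour under an automorphism induced by a substitution of the generators.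
-/

set_option autoImplicit false

open UpperHalfPlane ModularForm
open scoped MatrixGroups Manifold

noncomputable section

namespace Fermat.Agent.G1.Dict.RawVal

open Fermat.Agent.S24 Fermat.Agent.G1

variable {K : Type} [Field K] {σ : Type*} {F : Type*} [Field F] [Algebra K F]
  (fm : MvPolynomial σ K →ₐ[K] F) (ev : MvPolynomial σ K →+* (ℍ → ℂ)) (o : (ℍ → ℂ) → ℤ)

/-- The valuation attached to an order function: `o (ev P) - o (ev Q)` for a chosen
representative `f = fm P / fm Q`. -/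
def val (f : F) : ℤ :=
  open scoped Classical in
  if h : ∃ P Q, fm Q ≠ 0 ∧ f = fm P / fm Q then o (ev h.choose) - o (ev h.choose_spec.choose)
  else 0

/-- `o` is an order function on the image of `ev`. -/
structure IsOrd : Prop where
  mul : ∀ P Q : MvPolynomial σ K, ev P ≠ 0 → ev Q ≠ 0 → o (ev P * ev Q) = o (ev P) + o (ev Q)
  add : ∀ P Q : MvPolynomial σ K, ev P ≠ 0 → ev Q ≠ 0 → ev P + ev Q ≠ 0 →
    min (o (ev P)) (o (ev Q)) ≤ o (ev P + ev Q)
  const : ∀ c : ℂ, c ≠ 0 → o (fun _ => c) = 0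

variable {fm ev o} {ι : K →+* ℂ}

section Basic

variable (hS : MerRep.IsRepSys fm ev ι)
include hS

theorem ev_ne_zero {P : MvPolynomial σ K} (h : fm P ≠ 0) : ev P ≠ 0 :=
  fun h0 => h ((hS.zero_iff P).2 h0)

theorem fm_ne_zero {P : MvPolynomial σ K} (h : ev P ≠ 0) : fm P ≠ 0 :=
  fun h0 => h ((hS.zero_iff P).1 h0)

omit hS in
theorem fm_ne_zero_of_rep {f : F} (hf : f ≠ 0) {P Q : MvPolynomial σ K}
    (h : fm Q ≠ 0 ∧ f = fm P / fm Q) : fm P ≠ 0 := by
  intro h0
  apply hf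
  rw [h.2, h0, zero_div]

theorem ev_mul_eq_of_rep {f : F} {P Q P' Q' : MvPolynomial σ K}
    (h : fm Q ≠ 0 ∧ f = fm P / fm Q) (h' : fm Q' ≠ 0 ∧ f = fm P' / fm Q') :
    ev P * ev Q' = ev P' * ev Q :=
  funext fun τ => MerRep.ev_mul_eq_of_rep hS h h' τ

variable (hO : IsOrd ev o)
include hO

/-- Independence of the representative. -/
theorem sub_eq_of_rep {f : F} (hf : f ≠ 0) {P Q P' Q' : MvPolynomial σ K}
    (h : fm Q ≠ 0 ∧ f = fm P / fm Q) (h' : fm Q' ≠ 0 ∧ f = fm P' / fm Q') :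
    o (ev P) - o (ev Q) = o (ev P') - o (ev Q') := by
  have e := ev_mul_eq_of_rep hS h h'
  have hP := ev_ne_zero hS (fm_ne_zero_of_rep hf h)
  have hP' := ev_ne_zero hS (fm_ne_zero_of_rep hf h')
  have hQ := ev_ne_zero hS h.1
  have hQ' := ev_ne_zero hS h'.1
  have e1 := hO.mul P Q' hP hQ'
  have e2 := hO.mul P' Q hP' hQ
  rw [e] at e1
  omega

/-- **The valuation can be computed on any representative** (for `f ≠ 0`). -/
theorem val_eq_of_rep {f : F} (hf : f ≠ 0) {P Q : MvPolynomial σ K}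
    (h : fm Q ≠ 0 ∧ f = fm P / fm Q) : val fm ev o f = o (ev P) - o (ev Q) := by
  have hex : ∃ P Q, fm Q ≠ 0 ∧ f = fm P / fm Q := ⟨P, Q, h⟩
  unfold val
  rw [dif_pos hex]
  exact sub_eq_of_rep hS hO hf hex.choose_spec.choose_spec h

/-- **`val` is a raw valuation.** -/
theorem isRawVal_val : Counting.IsRawVal K (val fm ev o) where
  map_mul := by
    intro f g hf hg
    obtain ⟨P1, Q1, h1⟩ := hS.exists_rep f
    obtain ⟨P2, Q2, h2⟩ := hS.exists_rep g
    have h3 : fm (Q1 * Q2) ≠ 0 ∧ f * g = fm (P1 * P2) / fm (Q1 * Q2) := by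
      refine ⟨by rw [map_mul]; exact mul_ne_zero h1.1 h2.1, ?_⟩
      rw [map_mul, map_mul, h1.2, h2.2, div_mul_div_comm]
    rw [val_eq_of_rep hS hO (mul_ne_zero hf hg) h3, val_eq_of_rep hS hO hf h1,
      val_eq_of_rep hS hO hg h2, map_mul, map_mul,
      hO.mul P1 P2 (ev_ne_zero hS (fm_ne_zero_of_rep hf h1))
        (ev_ne_zero hS (fm_ne_zero_of_rep hg h2)),
      hO.mul Q1 Q2 (ev_ne_zero hS h1.1) (ev_ne_zero hS h2.1)]
    ring
  map_add := by
    intro f g hf hg hfg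
    obtain ⟨P1, Q1, h1⟩ := hS.exists_rep f
    obtain ⟨P2, Q2, h2⟩ := hS.exists_rep g
    have hP1 := fm_ne_zero_of_rep hf h1
    have hP2 := fm_ne_zero_of_rep hg h2
    have h3 : fm (Q1 * Q2) ≠ 0 ∧ f + g = fm (P1 * Q2 + Q1 * P2) / fm (Q1 * Q2) := by
      refine ⟨by rw [map_mul]; exact mul_ne_zero h1.1 h2.1, ?_⟩
      rw [map_mul, map_add, map_mul, map_mul, h1.2, h2.2, div_add_div _ _ h1.1 h2.1]
    have hsum : fm (P1 * Q2 + Q1 * P2) ≠ 0 := fm_ne_zero_of_rep hfg h3
    have n1 : ev (P1 * Q2) ≠ 0 := ev_ne_zero hS (by rw [map_mul]; exact mul_ne_zero hP1 h2.1)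
    have n2 : ev (Q1 * P2) ≠ 0 := ev_ne_zero hS (by rw [map_mul]; exact mul_ne_zero h1.1 hP2)
    have n3 : ev (P1 * Q2) + ev (Q1 * P2) ≠ 0 := by
      rw [← map_add]
      exact ev_ne_zero hS hsum
    have e0 := hO.add (P1 * Q2) (Q1 * P2) n1 n2 n3
    have e1 := hO.mul P1 Q2 (ev_ne_zero hS hP1) (ev_ne_zero hS h2.1)
    have e2 := hO.mul Q1 P2 (ev_ne_zero hS h1.1) (ev_ne_zero hS hP2)
    have e3 := hO.mul Q1 Q2 (ev_ne_zero hS h1.1) (ev_ne_zero hS h2.1)
    rw [val_eq_of_rep hS hO hfg h3, val_eq_of_rep hS hO hf h1, val_eq_of_rep hS hO hg h2,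
      map_add, map_mul ev Q1 Q2, map_mul ev P1 Q2, map_mul ev Q1 P2]
    rw [map_mul ev P1 Q2, map_mul ev Q1 P2] at e0
    omega
  map_algebraMap := by
    intro c hc
    have h : fm 1 ≠ 0 ∧ algebraMap K F c = fm (MvPolynomial.C c) / fm 1 := by
      refine ⟨by rw [map_one]; exact one_ne_zero, ?_⟩
      rw [map_one, div_one, ← MvPolynomial.algebraMap_eq, AlgHom.commutes]
    rw [val_eq_of_rep hS hO ((map_ne_zero _).mpr hc) h, hS.ev_C, map_one,
      hO.const (ι c) ((map_ne_zero ι).mpr hc)]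
    have : o (1 : ℍ → ℂ) = 0 := hO.const 1 one_ne_zero
    rw [this, sub_zero]

end Basic

/-! ### The two order functions -/

/-- The order at a point `τ ∈ ℍ` is an order function on holomorphic functions. -/
theorem isOrd_pt (hmd : ∀ P, MDiff (ev P)) (τ : ℍ) : IsOrd ev (fun G => ordAt G τ) where
  mul := fun P Q hP hQ => OrdAt.ordAt_mul (hmd P) (hmd Q) hP hQ τ
  add := fun P Q hP hQ hPQ => OrdAt.min_ordAt_le_ordAt_add (hmd P) (hmd Q) hP hQ hPQ τ
  const := fun _ hc => OrdAt.ordAt_const hc τ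

/-- The order at the cusp `g⁻¹∞` (in `q_h`) is an order function on functions all of whose
translates are meromorphic at `i∞`. -/
theorem isOrd_cusp (h : ℕ) [NeZero h] (g : SL(2, ℤ)) (hmer : ∀ P, MerInf h (trans g (ev P))) :
    IsOrd ev (fun G => ordInf h (trans g G)) where
  mul := fun P Q hP hQ =>
    QLaurentMod.ordInf_mul (hmer P) (hmer Q) (OrdAt.trans_ne_zero hP g) (OrdAt.trans_ne_zero hQ g)
  add := fun P Q _ _ hPQ =>
    QLaurentMod.min_ordInf_le_ordInf_add (hmer P) (hmer Q) (OrdAt.trans_ne_zero hPQ g)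
  const := fun _ hc => QLaurentMod.ordInf_const h hc

/-! ### Sub-systems and twists -/

/-- **Restriction to a sub-system.**  If `(fm₀, ev₀)` is a representation system of a subfield
`F₀ → F` whose polynomials embed compatibly, the valuation of `F` restricts to that of `F₀`. -/
theorem val_sub {σ₀ : Type*} {F₀ : Type*} [Field F₀] [Algebra K F₀]
    {fm₀ : MvPolynomial σ₀ K →ₐ[K] F₀} {ev₀ : MvPolynomial σ₀ K →+* (ℍ → ℂ)}
    (hS₀ : MerRep.IsRepSys fm₀ ev₀ ι) (hS : MerRep.IsRepSys fm ev ι)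
    (hO₀ : IsOrd ev₀ o) (hO : IsOrd ev o)
    (j : F₀ →+* F) (r : MvPolynomial σ₀ K → MvPolynomial σ K)
    (hfm : ∀ P, fm (r P) = j (fm₀ P)) (hev : ∀ P, ev (r P) = ev₀ P)
    {x : F₀} (hx : x ≠ 0) : val fm ev o (j x) = val fm₀ ev₀ o x := by
  obtain ⟨P, Q, h⟩ := hS₀.exists_rep x
  have h' : fm (r Q) ≠ 0 ∧ j x = fm (r P) / fm (r Q) := by
    refine ⟨by rw [hfm]; exact (map_ne_zero j).mpr h.1, ?_⟩
    rw [hfm, hfm, ← map_div₀, ← h.2]
  rw [val_eq_of_rep hS hO ((map_ne_zero j).mpr hx) h', val_eq_of_rep hS₀ hO₀ hx h, hev, hev]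

/-- **Twist.**  If the ring homomorphism `δ` of `F` is induced by the substitution `r` of the
polynomials and `o (ev (r P)) = o' (ev P)`, then `val o (δ f) = val o' f`. -/
theorem val_twist (hS : MerRep.IsRepSys fm ev ι) {o' : (ℍ → ℂ) → ℤ}
    (hO : IsOrd ev o) (hO' : IsOrd ev o')
    (δ : F →+* F) (r : MvPolynomial σ K → MvPolynomial σ K)
    (hfm : ∀ P, δ (fm P) = fm (r P)) (hoo' : ∀ P, o (ev (r P)) = o' (ev P))
    {f : F} (hf : f ≠ 0) : val fm ev o (δ f) = val fm ev o' f := by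
  obtain ⟨P, Q, h⟩ := hS.exists_rep f
  have h' : fm (r Q) ≠ 0 ∧ δ f = fm (r P) / fm (r Q) := by
    refine ⟨by rw [← hfm]; exact (map_ne_zero δ).mpr h.1, ?_⟩
    rw [← hfm, ← hfm, ← map_div₀, ← h.2]
  rw [val_eq_of_rep hS hO ((map_ne_zero δ).mpr hf) h', val_eq_of_rep hS hO' hf h, hoo', hoo']

/-- Equal order functions on the image of `ev` give equal valuations. -/
theorem val_congr (hS : MerRep.IsRepSys fm ev ι) {o' : (ℍ → ℂ) → ℤ}
    (hO : IsOrd ev o) (hO' : IsOrd ev o') (hoo' : ∀ P, o (ev P) = o' (ev P))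
    {f : F} (hf : f ≠ 0) : val fm ev o f = val fm ev o' f := by
  obtain ⟨P, Q, h⟩ := hS.exists_rep f
  rw [val_eq_of_rep hS hO hf h, val_eq_of_rep hS hO' hf h, hoo', hoo']

end Fermat.Agent.G1.Dict.RawVal
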