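import Mathlib
import Fermat.Agent.G1.Dict.Defs
import Fermat.Agent.G1.Dict.RawVal
import Fermat.Agent.G1.DictRel
import Fermat.Agent.G1.GalFull
import Fermat.Agent.G1.GroupFacts
import Fermat.Agent.ESJ.Dict.Bc
import Fermat.Agent.ESJ.Dict.Main
import Fermat.Agent.ESJ.Jac.FinDimK
import Fermat.Agent.S24.QExpCusp
import Fermat.Agent.S24.PtVal
import Fermat.Agent.S24.PtInv
import Fermat.Agent.S24.ARest
import Fermat.Agent.S24.CuspVal
import Fermat.Agent.ESJ.Jac.Kummer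
import Fermat.Agent.Lib.FF.ExtPrincipal

/-!
# G1 / DICT, the PLACE half: every place of `K·F1a(M, a)` is a point place or a cusp place

`K` algebraically closed with `ι : K →+* ℂ`; `F₀ = K·F0(M a)` (trunk, `ESJ.Dict.IsDict ι (M a)`),
`F₁ = K·F1a(M, a)`; group `Gam1a M a = Γ₁(M) ∩ Γ₀(M a)`, `5 ≤ M`.

Inputs (as hypotheses, to be discharged by G1-GAL):
* `RepInputs ι M a` : representatives exist, and `fm1K P = 0 ↔ ev1K P = 0`;
* `GalInputs ι M a δ r` : the diamond automorphisms `δ : (ℤ/M)ˣ →* Aut_K(F₁)`, induced by the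
  substitutions `r c` of the generators, realised by `γ ∈ Γ₀(M a)` with lower right entry `c`;
  they fix `F₀`, their invariants are `F₀`, and `δ c = 1` only for `c = ±1`.

Outputs:
* Part A: `mdiff_ev1K`, `merInf_trans_ev1K`, `ev1K_smul_Gam1a`, `ev1K_rename_inl`,
  `fm1K_rename_inl`;
* Part B: `RepInputs.isRawVal_valPt1K`, `RepInputs.isRawVal_valCusp1K`,
  `RepInputs.valPt1K_eq_of_isRep1K`, `RepInputs.valCusp1K_eq_of_isRep1K`,
  `RepInputs.valPt1K_algebraMap`, `RepInputs.valCusp1K_algebraMap` (restriction to the trunk),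
  `RepInputs.dvd_valCusp1K_mul`;
* Part C: group theory (`eq_one_of_trace_two_of_fixed`, `conj_mem_Gam1a`, …);
* Part D: **`place_cases`** (exact index `1` at points, `M a / w` at cusps) and
  **`forall_dvd_ord_iff`** (the Kummer form), `hasPrincipalDivisors`, `deg_eq_one`.
-/

set_option autoImplicit false
set_option linter.unusedSectionVars false

open UpperHalfPlane ModularForm AlgebraicCurve CongruenceSubgroup ModularCurve
open scoped MatrixGroups Manifold IntermediateField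

noncomputable section

namespace Fermat.Agent.G1.Dict.Place

open Fermat.Agent.S24 Fermat.Agent.ESJ.Jac Fermat.Agent.G1 Fermat.Agent.G1.Dict
open Fermat.Agent.DS.Hecke1

/-! ### Part A: the analytic evaluation -/

section Basics

variable {K : Type} [Field K] [Algebra ℚ K] (ι : K →+* ℂ) (M a : ℕ) [NeZero M] [NeZero a]

omit [Algebra ℚ K] [NeZero a] in
theorem ev1K_C (c : K) : ev1K ι M a (MvPolynomial.C c) = fun _ => ι c := by
  funext z
  simp [ev1K]

omit [Algebra ℚ K] [NeZero a] in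
theorem ev1K_X_inl (d : Dv (M * a)) :
    ev1K ι M a (MvPolynomial.X (Sum.inl d)) = Jabd d.1 0 1 := by
  simp [ev1K, gen1Fun]

omit [Algebra ℚ K] [NeZero a] in
theorem ev1K_X_inr (u : (ZMod M)ˣ) :
    ev1K ι M a (MvPolynomial.X (Sum.inr u)) = xfun M (u : ZMod M) := by
  simp [ev1K, gen1Fun]

omit [Algebra ℚ K] in
theorem mdiff_gen1Fun (i : Ix M a) : MDiff (gen1Fun M a i) := by
  rcases i with d | u
  · have : NeZero d.1 := d.neZero
    exact PtVal.mdiff_Jabd d.1 (Nat.pos_of_ne_zero (NeZero.ne d.1))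
  · exact mdiff_xfun _

omit [Algebra ℚ K] in
/-- `ev1K ι M a P` is holomorphic on `ℍ`. -/
theorem mdiff_ev1K (P : MvPolynomial (Ix M a) K) : MDiff (ev1K ι M a P) := by
  induction P using MvPolynomial.induction_on with
  | C c =>
    rw [ev1K_C]
    exact mdifferentiable_const
  | add p q hp hq =>
    rw [map_add]
    exact hp.add hq
  | mul_X p i hp =>
    rw [map_mul]
    have hi : MDiff (ev1K ι M a (MvPolynomial.X i)) := by
      rcases i with d | u
      · rw [ev1K_X_inl]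
        exact mdiff_gen1Fun M a (Sum.inl d)
      · rw [ev1K_X_inr]
        exact mdiff_gen1Fun M a (Sum.inr u)
    exact hp.mul hi

omit [Algebra ℚ K] in
/-- All translates of `ev1K ι M a P` are holomorphic, `M a`-periodic and meromorphic at `i∞`. -/
theorem merInf_trans_ev1K (g : SL(2, ℤ)) (P : MvPolynomial (Ix M a) K) :
    MerInf (M * a) (trans g (ev1K ι M a P)) := by
  induction P using MvPolynomial.induction_on with
  | C c =>
    rw [ev1K_C]
    exact QLaurentMod.MerInf.const (M * a) (ι c)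
  | add p q hp hq =>
    rw [map_add]
    exact QLaurentMod.MerInf.add hp hq
  | mul_X p i hp =>
    rw [map_mul]
    refine QLaurentMod.MerInf.mul hp ?_
    rcases i with d | u
    · rw [ev1K_X_inl]
      exact QLaurentMod.MerInf.of_hasSum (QExp.hasQExp_cuspSeries (M * a) g d)
    · rw [ev1K_X_inr]
      exact QLaurent.MerInf_le_mul M a (xfun_comp_mem_MerInf (u : ZMod M) g⁻¹)

omit [Algebra ℚ K] in
/-- `ev1K ι M a P` is invariant under `Γ₁(M) ∩ Γ₀(M a)`. -/
theorem ev1K_smul_Gam1a (P : MvPolynomial (Ix M a) K) (γ : SL(2, ℤ)) (hγ : γ ∈ Gam1a M a)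
    (z : ℍ) : ev1K ι M a P (γ • z) = ev1K ι M a P z := by
  induction P using MvPolynomial.induction_on with
  | C c => rw [ev1K_C]
  | add p q hp hq =>
    rw [map_add, Pi.add_apply, Pi.add_apply, hp, hq]
  | mul_X p i hp =>
    rw [map_mul, Pi.mul_apply, Pi.mul_apply, hp]
    congr 1
    rcases i with d | u
    · rw [ev1K_X_inl]
      exact PtInv.Jabd_smul_Gamma0 (M * a) d γ hγ.2 z
    · rw [ev1K_X_inr]
      exact xfun_smul_Gamma1 (u : ZMod M) γ hγ.1 z

omit [Algebra ℚ K] [NeZero a] in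
/-- Restriction of `ev1K` to the polynomials in the `j`-variables is `evK`. -/
theorem ev1K_rename_inl (R : MvPolynomial (Dv (M * a)) K) :
    ev1K ι M a (MvPolynomial.rename Sum.inl R) = evK ι (M * a) R := by
  induction R using MvPolynomial.induction_on with
  | C c =>
    rw [MvPolynomial.rename_C, ev1K_C, Fermat.Agent.ESJ.Dict.Bc.evK_C]
  | add p q hp hq =>
    rw [map_add, map_add, map_add, hp, hq]
  | mul_X p d hp =>
    rw [map_mul, map_mul, map_mul, hp, MvPolynomial.rename_X, ev1K_X_inl,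
      Fermat.Agent.ESJ.Dict.Bc.evK_X]

/-- Restriction of `fm1K` to the polynomials in the `j`-variables is `fmK`. -/
theorem fm1K_comp_rename_inl :
    (fm1K K M a).comp (MvPolynomial.rename Sum.inl) = (incl0K K M a).comp (fmK K (M * a)) := by
  apply MvPolynomial.algHom_ext
  intro d
  apply Subtype.ext
  simp only [AlgHom.comp_apply, MvPolynomial.rename_X, fm1K, fmK, MvPolynomial.aeval_X,
    coe_incl0K]
  rfl

theorem fm1K_rename_inl (R : MvPolynomial (Dv (M * a)) K) :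
    fm1K K M a (MvPolynomial.rename Sum.inl R)
      = algebraMap (FNK K (M * a)) (F1aK K M a) (fmK K (M * a) R) :=
  AlgHom.congr_fun (fm1K_comp_rename_inl M a) R

end Basics

/-! ### Part B: the representation systems and the raw valuations -/

section Systems

variable {K : Type} [Field K] [Algebra ℚ K] (ι : K →+* ℂ) (M a : ℕ) [NeZero M] [NeZero a]

/-- The representation system of the trunk `K·F0(N)`. -/
theorem isRepSysK (N : ℕ) [NeZero N] : MerRep.IsRepSys (fmK K N) (evK ι N) ι where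
  exists_rep := Fermat.Agent.ESJ.Dict.Bc.exists_isRepK N
  zero_iff := fun P => (Fermat.Agent.ESJ.Dict.Bc.evK_eq_zero_iff ι N P).symm
  mdiff := Fermat.Agent.ESJ.Dict.Bc.mdiff_evK ι N
  ev_C := Fermat.Agent.ESJ.Dict.Bc.evK_C ι N

theorem isOrd_pt0 (N : ℕ) [NeZero N] (τ : ℍ) :
    RawVal.IsOrd (evK (K := K) ι N) (fun G => ordAt G τ) :=
  RawVal.isOrd_pt (Fermat.Agent.ESJ.Dict.Bc.mdiff_evK ι N) τ

theorem isOrd_cusp0 (N : ℕ) [NeZero N] (g : SL(2, ℤ)) :
    RawVal.IsOrd (evK (K := K) ι N) (fun G => ordInf N (trans g G)) :=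
  RawVal.isOrd_cusp N g fun P =>
    QLaurentMod.MerInf.of_hasSum (Fermat.Agent.ESJ.Dict.Bc.hasQExp_trans_evK ι N g P)

omit [Algebra ℚ K] in
theorem isOrd_pt1 (τ : ℍ) : RawVal.IsOrd (ev1K (K := K) ι M a) (fun G => ordAt G τ) :=
  RawVal.isOrd_pt (mdiff_ev1K ι M a) τ

omit [Algebra ℚ K] in
theorem isOrd_cusp1 (g : SL(2, ℤ)) :
    RawVal.IsOrd (ev1K (K := K) ι M a) (fun G => ordInf (M * a) (trans g G)) :=
  RawVal.isOrd_cusp (M * a) g (merInf_trans_ev1K ι M a g)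

theorem valPtK_eq (N : ℕ) [NeZero N] (τ : ℍ) :
    valPtK ι N τ = RawVal.val (fmK K N) (evK ι N) (fun G => ordAt G τ) := rfl

theorem valCuspK_eq (N : ℕ) [NeZero N] (g : SL(2, ℤ)) :
    valCuspK ι N g = RawVal.val (fmK K N) (evK ι N) (fun G => ordInf N (trans g G)) := rfl

theorem valPt1K_eq (τ : ℍ) :
    valPt1K ι M a τ = RawVal.val (fm1K K M a) (ev1K ι M a) (fun G => ordAt G τ) := rfl

theorem valCusp1K_eq (g : SL(2, ℤ)) :
    valCusp1K ι M a g
      = RawVal.val (fm1K K M a) (ev1K ι M a) (fun G => ordInf (M * a) (trans g G)) := rfl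

theorem mer1K_eq (f : F1aK K M a) :
    mer1K ι M a f = MerRep.mer (fm1K K M a) (ev1K ι M a) f := rfl

/-- The two inputs from the `q`-expansion principle (G1-GAL (B2)): representatives exist, and
formal identities are analytic identities. -/
structure RepInputs : Prop where
  exists_isRep1K : ∀ f : F1aK K M a, ∃ P Q, IsRep1K M a f P Q
  fm1K_eq_zero_iff : ∀ P : MvPolynomial (Ix M a) K, fm1K K M a P = 0 ↔ ev1K ι M a P = 0

variable {ι M a}

/-- The representation system of `K·F1a(M, a)`. -/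
theorem RepInputs.isRepSys (hR : RepInputs ι M a) :
    MerRep.IsRepSys (fm1K K M a) (ev1K ι M a) ι where
  exists_rep := hR.exists_isRep1K
  zero_iff := hR.fm1K_eq_zero_iff
  mdiff := mdiff_ev1K ι M a
  ev_C := ev1K_C ι M a

theorem RepInputs.isRawVal_valPt1K (hR : RepInputs ι M a) (τ : ℍ) :
    Counting.IsRawVal K (valPt1K ι M a τ) :=
  RawVal.isRawVal_val hR.isRepSys (isOrd_pt1 ι M a τ)

theorem RepInputs.isRawVal_valCusp1K (hR : RepInputs ι M a) (g : SL(2, ℤ)) :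
    Counting.IsRawVal K (valCusp1K ι M a g) :=
  RawVal.isRawVal_val hR.isRepSys (isOrd_cusp1 ι M a g)

theorem RepInputs.valPt1K_eq_of_isRep1K (hR : RepInputs ι M a) (τ : ℍ) {f : F1aK K M a}
    {P Q : MvPolynomial (Ix M a) K} (h : IsRep1K M a f P Q) (hf : f ≠ 0) :
    valPt1K ι M a τ f = ordAt (ev1K ι M a P) τ - ordAt (ev1K ι M a Q) τ :=
  RawVal.val_eq_of_rep hR.isRepSys (isOrd_pt1 ι M a τ) hf h

theorem RepInputs.valCusp1K_eq_of_isRep1K (hR : RepInputs ι M a) (g : SL(2, ℤ))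
    {f : F1aK K M a} {P Q : MvPolynomial (Ix M a) K} (h : IsRep1K M a f P Q) (hf : f ≠ 0) :
    valCusp1K ι M a g f
      = ordInf (M * a) (trans g (ev1K ι M a P)) - ordInf (M * a) (trans g (ev1K ι M a Q)) :=
  RawVal.val_eq_of_rep hR.isRepSys (isOrd_cusp1 ι M a g) hf h

/-- The point valuation of `K·F1a` restricts to the point valuation of the trunk. -/
theorem RepInputs.valPt1K_algebraMap (hR : RepInputs ι M a) (τ : ℍ) {x : FNK K (M * a)}
    (hx : x ≠ 0) :
    valPt1K ι M a τ (algebraMap (FNK K (M * a)) (F1aK K M a) x) = valPtK ι (M * a) τ x :=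
  RawVal.val_sub (isRepSysK ι (M * a)) hR.isRepSys (isOrd_pt0 ι (M * a) τ) (isOrd_pt1 ι M a τ)
    (algebraMap (FNK K (M * a)) (F1aK K M a)) (MvPolynomial.rename Sum.inl)
    (fm1K_rename_inl M a) (ev1K_rename_inl ι M a) hx

/-- The cusp valuation of `K·F1a` restricts to the cusp valuation of the trunk. -/
theorem RepInputs.valCusp1K_algebraMap (hR : RepInputs ι M a) (g : SL(2, ℤ))
    {x : FNK K (M * a)} (hx : x ≠ 0) :
    valCusp1K ι M a g (algebraMap (FNK K (M * a)) (F1aK K M a) x) = valCuspK ι (M * a) g x :=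
  RawVal.val_sub (isRepSysK ι (M * a)) hR.isRepSys (isOrd_cusp0 ι (M * a) g)
    (isOrd_cusp1 ι M a g)
    (algebraMap (FNK K (M * a)) (F1aK K M a)) (MvPolynomial.rename Sum.inl)
    (fm1K_rename_inl M a) (ev1K_rename_inl ι M a) hx

/-- `T`-invariance of the cusp valuation. -/
theorem RepInputs.valCusp1K_T_zpow_mul (hR : RepInputs ι M a) (k : ℤ) (g : SL(2, ℤ))
    {f : F1aK K M a} (hf : f ≠ 0) :
    valCusp1K ι M a (ModularGroup.T ^ k * g) f = valCusp1K ι M a g f :=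
  RawVal.val_congr hR.isRepSys (isOrd_cusp1 ι M a _) (isOrd_cusp1 ι M a g)
    (fun _ => CuspVal.ordInf_trans_T_zpow_mul (Nat.pos_of_ne_zero (NeZero.ne (M * a))) k g _) hf

/-- **Width divisibility**: if `g⁻¹ T^w g ∈ Γ₁(M) ∩ Γ₀(M a)`, then `M a ∣ valCusp1K g f * w`. -/
theorem RepInputs.dvd_valCusp1K_mul (hR : RepInputs ι M a) (g : SL(2, ℤ)) (w : ℕ)
    (hmem : g⁻¹ * ModularGroup.T ^ w * g ∈ Gam1a M a) {f : F1aK K M a} (hf : f ≠ 0) :
    ((M * a : ℕ) : ℤ) ∣ valCusp1K ι M a g f * w := by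
  obtain ⟨P, Q, h⟩ := hR.exists_isRep1K f
  rw [hR.valCusp1K_eq_of_isRep1K g h hf, sub_mul]
  have hN : 0 < M * a := Nat.pos_of_ne_zero (NeZero.ne (M * a))
  have key : ∀ R : MvPolynomial (Ix M a) K,
      ((M * a : ℕ) : ℤ) ∣ ordInf (M * a) (trans g (ev1K ι M a R)) * w := fun R =>
    CuspVal.dvd_ordInf_mul_of_periodic hN _
      (CuspVal.trans_periodic_of_mem (Γ := Gam1a M a)
        (fun γ hγ z => ev1K_smul_Gam1a ι M a R γ hγ z) g w hmem)
  exact dvd_sub (key P) (key Q)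

end Systems

/-! ### Part C: group theory of `Γ₁(M) ∩ Γ₀(M a) ⊴ Γ₀(M a)` -/

section Group

/-- An element of `SL(2, ℤ)` of trace `2` with a fixed point in `ℍ` is the identity. -/
theorem eq_one_of_trace_two_of_fixed (γ : SL(2, ℤ)) (τ : ℍ) (h : γ • τ = τ)
    (ht : (γ : Matrix (Fin 2) (Fin 2) ℤ).trace = 2) : γ = 1 := by
  have hdet : γ 0 0 * γ 1 1 - γ 0 1 * γ 1 0 = 1 := by
    have := γ.det_coe
    rw [Matrix.det_fin_two] at this
    exact this
  rw [Matrix.trace_fin_two] at ht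
  have e : mob γ (τ : ℂ) = (τ : ℂ) := by rw [MultFixed.mob_coe', h]
  unfold mob at e
  have hcd : γ 1 0 ≠ 0 ∨ γ 1 1 ≠ 0 := by
    by_contra hcon
    push Not at hcon
    rw [hcon.1, hcon.2] at hdet
    simp at hdet
  have hden := Kummer.denom_ne_zero_aux (γ 1 0) (γ 1 1) hcd τ.im_pos
  rw [div_eq_iff hden] at e
  have him := congrArg Complex.im e
  have hre := congrArg Complex.re e
  simp only [Complex.add_im, Complex.mul_im, Complex.intCast_re, Complex.intCast_im, zero_mul,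
    add_zero, Complex.add_re, Complex.mul_re, sub_zero] at him hre
  have hy : 0 < (τ : ℂ).im := τ.im_pos
  set x := (τ : ℂ).re
  set y := (τ : ℂ).im
  have hdet' : (γ 0 0 : ℝ) * γ 1 1 - γ 0 1 * γ 1 0 = 1 := by exact_mod_cast hdet
  have ht' : (γ 0 0 : ℝ) + γ 1 1 = 2 := by exact_mod_cast ht
  have h1 : (γ 0 0 : ℝ) - γ 1 1 = 2 * γ 1 0 * x := by
    have h2 : y * ((γ 0 0 : ℝ) - γ 1 1 - 2 * γ 1 0 * x) = 0 := by linear_combination him
    rcases mul_eq_zero.mp h2 with h3 | h3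
    · exact absurd h3 hy.ne'
    · linarith
  have h2 : (γ 0 1 : ℝ) = -γ 1 0 * (x ^ 2 + y ^ 2) := by
    linear_combination hre - x * h1
  have hc : (γ 1 0 : ℝ) = 0 := by
    have h3 : ((γ 0 0 : ℝ) + γ 1 1) ^ 2 = 4 - 4 * (γ 1 0 * y) ^ 2 := by
      have e1 : ((γ 0 0 : ℝ) + γ 1 1) ^ 2 = ((γ 0 0 : ℝ) - γ 1 1) ^ 2 + 4 * (γ 0 0 * γ 1 1) := by
        ring
      have e2 : (γ 0 0 : ℝ) * γ 1 1 = 1 + γ 0 1 * γ 1 0 := by linarith
      rw [e1, e2, h1, h2]
      ring
    rw [ht'] at h3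
    have h4 : ((γ 1 0 : ℝ) * y) ^ 2 = 0 := by linarith
    have h5 : (γ 1 0 : ℝ) * y = 0 := by simpa using h4
    rcases mul_eq_zero.mp h5 with h6 | h6
    · exact h6
    · exact absurd h6 hy.ne'
  have hb : (γ 0 1 : ℝ) = 0 := by rw [h2, hc]; ring
  have ha : (γ 0 0 : ℝ) = 1 := by rw [hc] at h1; linarith
  have hd : (γ 1 1 : ℝ) = 1 := by rw [hc] at h1; linarith
  have hc' : γ 1 0 = 0 := by exact_mod_cast hc
  have hb' : γ 0 1 = 0 := by exact_mod_cast hb
  have ha' : γ 0 0 = 1 := by exact_mod_cast ha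
  have hd' : γ 1 1 = 1 := by exact_mod_cast hd
  ext i j
  fin_cases i <;> fin_cases j <;> simp [ha', hb', hc', hd']

theorem pow_smul_eq_of_fixed (ε : SL(2, ℤ)) (τ : ℍ) (h : ε • τ = τ) (k : ℕ) :
    (ε ^ k) • τ = τ := by
  induction k with
  | zero => simp
  | succ k ih => rw [pow_succ, mul_smul, h, ih]

variable {M : ℕ} [NeZero M] (a : ℕ) [NeZero a]

theorem lr_pow {γ : SL(2, ℤ)} (hγ : γ ∈ Gamma0 M) (k : ℕ) : lr M (γ ^ k) = lr M γ ^ k := by
  induction k with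
  | zero => simp [lr_one]
  | succ k ih => rw [pow_succ, lr_mul ((Gamma0 M).pow_mem hγ k), ih, pow_succ]

theorem lr_neg_one : lr M (-1 : SL(2, ℤ)) = -1 := by
  rw [GalArt.lr_neg, lr_one]

/-- An element of `Γ₀(M a)` with lower right entry `1` mod `M` lies in `Γ₁(M) ∩ Γ₀(M a)`. -/
theorem mem_Gam1a_of_lr {γ : SL(2, ℤ)} (hγ : γ ∈ Gamma0 (M * a)) (h : lr M γ = 1) :
    γ ∈ Gam1a M a :=
  ⟨mem_Gamma1_of_lr_eq_one (Gamma0_mul_le γ hγ) h, hγ⟩

theorem lr_of_mem_Gam1a {γ : SL(2, ℤ)} (hγ : γ ∈ Gam1a M a) : lr M γ = 1 :=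
  lr_eq_one_of_mem_Gamma1 hγ.1

/-- `Γ₁(M) ∩ Γ₀(M a)` is normal in `Γ₀(M a)`. -/
theorem conj_mem_Gam1a {γ p : SL(2, ℤ)} (hγ : γ ∈ Gamma0 (M * a)) (hp : p ∈ Gam1a M a) :
    γ * p * γ⁻¹ ∈ Gam1a M a := by
  have hγM : γ ∈ Gamma0 M := Gamma0_mul_le γ hγ
  have h1 : γ * p ∈ Gamma0 (M * a) := mul_mem hγ hp.2
  have h2 : γ * p * γ⁻¹ ∈ Gamma0 (M * a) := mul_mem h1 (inv_mem hγ)
  refine mem_Gam1a_of_lr a h2 ?_
  rw [lr_mul (Gamma0_mul_le _ h1), lr_mul hγM, lr_of_mem_Gam1a a hp, mul_one, ← lr_mul hγM,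
    mul_inv_cancel, lr_one]

/-- For an element of `Γ₀(M a)` fixing a point of `ℍ`: if its lower right entry is `±1` mod `M`
(`5 ≤ M`), it is `±1`. -/
theorem eq_one_or_neg_one_of_fixed (hM : 5 ≤ M) {ε : SL(2, ℤ)} (hε : ε ∈ Gamma0 (M * a))
    (τ : ℍ) (hfix : ε • τ = τ) (h : lr M ε = 1 ∨ lr M ε = -1) : ε = 1 ∨ ε = -1 := by
  have hreg := isReg_Gamma1_inf_Gamma0 hM (M * a)
  rcases h with h | h
  · left
    have hmem : ε ∈ Gamma1 M ⊓ Gamma0 (M * a) := mem_Gam1a_of_lr a hε h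
    exact eq_one_of_trace_two_of_fixed ε τ hfix
      (hreg ε hmem (Kummer.trace_sq_le_four_of_fixed ε τ hfix))
  · right
    have hneg : -ε ∈ Gamma0 (M * a) := GalArt.neg_mem_Gamma0 hε
    have hlr : lr M (-ε) = 1 := by rw [GalArt.lr_neg, h, neg_neg]
    have hmem : -ε ∈ Gamma1 M ⊓ Gamma0 (M * a) := mem_Gam1a_of_lr a hneg hlr
    have hfix' : (-ε) • τ = τ := by rw [ModularGroup.SL_neg_smul, hfix]
    have h1 := eq_one_of_trace_two_of_fixed (-ε) τ hfix'
      (hreg (-ε) hmem (Kummer.trace_sq_le_four_of_fixed (-ε) τ hfix'))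
    rw [← h1, neg_neg]

/-- The conjugate `g⁻¹ T^n g` with lower right entry `±1` mod `M` (`5 ≤ M`) lies in
`Γ₁(M) ∩ Γ₀(M a)`: the sign `-1` is impossible (no irregular cusps). -/
theorem conj_T_pow_mem_Gam1a_of_lr (hM : 5 ≤ M) (g : SL(2, ℤ)) (n : ℕ)
    (hmem : g⁻¹ * ModularGroup.T ^ n * g ∈ Gamma0 (M * a))
    (h : lr M (g⁻¹ * ModularGroup.T ^ n * g) = 1 ∨ lr M (g⁻¹ * ModularGroup.T ^ n * g) = -1) :
    g⁻¹ * ModularGroup.T ^ n * g ∈ Gam1a M a := by
  rcases h with h | h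
  · exact mem_Gam1a_of_lr a hmem h
  · exfalso
    set p := g⁻¹ * ModularGroup.T ^ n * g with hp
    have hneg : -p ∈ Gamma0 (M * a) := GalArt.neg_mem_Gamma0 hmem
    have hlr : lr M (-p) = 1 := by rw [GalArt.lr_neg, h, neg_neg]
    have hmem' : -p ∈ Gamma1 M ⊓ Gamma0 (M * a) := mem_Gam1a_of_lr a hneg hlr
    have htr : ((-p : SL(2, ℤ)) : Matrix (Fin 2) (Fin 2) ℤ).trace = -2 := by
      have h1 : ((p : SL(2, ℤ)) : Matrix (Fin 2) (Fin 2) ℤ).trace = 2 := by
        rw [hp, Matrix.SpecialLinearGroup.coe_mul, Matrix.SpecialLinearGroup.coe_mul,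
          Matrix.trace_mul_cycle, ← Matrix.SpecialLinearGroup.coe_mul, mul_inv_cancel,
          Matrix.SpecialLinearGroup.coe_one, one_mul, ← zpow_natCast, ModularGroup.coe_T_zpow,
          Matrix.trace_fin_two_of]
        norm_num
      rw [Matrix.SpecialLinearGroup.coe_neg, Matrix.trace_neg, h1]
    have := isReg_Gamma1_inf_Gamma0 hM (M * a) (-p) hmem' (by rw [htr]; norm_num)
    rw [htr] at this
    norm_num at this

end Group


/-! ### Part D: the places of `K·F1a(M, a)` -/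

section Tower

variable {K F0 F1 : Type*} [Field K] [Field F0] [Field F1]
  [Algebra K F0] [Algebra K F1] [Algebra F0 F1] [IsScalarTower K F0 F1]

/-- Tower: `F1` finite over `F0`, `F0` finite over `K(x)` ⟹ `F1` finite over `K(x)`. -/
theorem finiteDimensional_adjoin_algebraMap (x : F0) [FiniteDimensional K⟮x⟯ F0]
    [FiniteDimensional F0 F1] : FiniteDimensional K⟮algebraMap F0 F1 x⟯ F1 := by
  let φ : F0 →ₐ[K] F1 := IsScalarTower.toAlgHom K F0 F1
  have hmap : (K⟮x⟯).map φ = K⟮algebraMap F0 F1 x⟯ := by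
    rw [IntermediateField.adjoin_map, Set.image_singleton]
    rfl
  rw [← hmap]
  let ψ : K⟮x⟯ ≃ₐ[K] (K⟮x⟯).map φ := IntermediateField.equivMap K⟮x⟯ φ
  have f1 : Module.Finite K⟮x⟯ F1 := Module.Finite.trans F0 F1
  let a2 : Algebra K⟮x⟯ ((K⟮x⟯).map φ) := ψ.toRingEquiv.toRingHom.toAlgebra
  have t2 : IsScalarTower K⟮x⟯ ((K⟮x⟯).map φ) F1 := IsScalarTower.of_algebraMap_eq fun _ => rfl
  exact Module.Finite.of_restrictScalars_finite K⟮x⟯ ((K⟮x⟯).map φ) F1

end Tower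

section Main

variable {K : Type} [Field K] [Algebra ℚ K] (ι : K →+* ℂ) (M a : ℕ) [NeZero M] [NeZero a]

/-- The inputs from G1-GAL: the diamond automorphisms `δ c` of `K·F1a(M, a)`, induced by the
substitutions `r c` of the generators and realised analytically by the `γ ∈ Γ₀(M a)` with lower
right entry `c` mod `M`; they fix the trunk, their invariants are the trunk, and `δ c = 1` only
for `c = ±1`. -/
structure GalInputs (δ : (ZMod M)ˣ →* (F1aK K M a ≃ₐ[K] F1aK K M a))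
    (r : (ZMod M)ˣ → MvPolynomial (Ix M a) K → MvPolynomial (Ix M a) K) : Prop where
  dia_fm1K : ∀ (c : (ZMod M)ˣ) (P : MvPolynomial (Ix M a) K),
    δ c (fm1K K M a P) = fm1K K M a (r c P)
  ev1K_smul : ∀ (c : (ZMod M)ˣ) (γ : SL(2, ℤ)), γ ∈ Gamma0 (M * a) → (c : ZMod M) = lr M γ →
    ∀ (P : MvPolynomial (Ix M a) K) (z : ℍ), ev1K ι M a P (γ • z) = ev1K ι M a (r c P) z
  fix : ∀ (c : (ZMod M)ˣ) (x : FNK K (M * a)),
    δ c (algebraMap (FNK K (M * a)) (F1aK K M a) x) = algebraMap (FNK K (M * a)) (F1aK K M a) x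
  inv : ∀ f : F1aK K M a, (∀ c : (ZMod M)ˣ, δ c f = f) →
    f ∈ (algebraMap (FNK K (M * a)) (F1aK K M a)).range
  faithful : ∀ c : (ZMod M)ˣ, δ c = 1 → c = 1 ∨ c = -1

variable {ι M a}
variable {δ : (ZMod M)ˣ →* (F1aK K M a ≃ₐ[K] F1aK K M a)}
  {r : (ZMod M)ˣ → MvPolynomial (Ix M a) K → MvPolynomial (Ix M a) K}

/-- **Diamonds at points**: `valPt1K τ (δ_c f) = valPt1K (γ τ) f` for `γ ∈ Γ₀(M a)` with lower
right entry `c`. -/
theorem valPt1K_dia (hR : RepInputs ι M a) (hG : GalInputs ι M a δ r) (c : (ZMod M)ˣ)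
    (γ : SL(2, ℤ)) (hγ : γ ∈ Gamma0 (M * a)) (hc : (c : ZMod M) = lr M γ) (τ : ℍ)
    {f : F1aK K M a} (hf : f ≠ 0) :
    valPt1K ι M a τ (δ c f) = valPt1K ι M a (γ • τ) f := by
  refine RawVal.val_twist hR.isRepSys (isOrd_pt1 ι M a τ) (isOrd_pt1 ι M a (γ • τ))
    (δ c).toAlgHom.toRingHom (r c) (fun P => hG.dia_fm1K c P) (fun P => ?_) hf
  have e : ev1K ι M a (r c P) = fun z => ev1K ι M a P (γ • z) :=
    funext fun z => (hG.ev1K_smul c γ hγ hc P z).symm
  rw [e]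
  exact congrArg (fun n : ℕ => (n : ℤ)) (OrdAt.ord_comp_sl _ γ τ)

/-- **Diamonds at cusps**: `valCusp1K g (δ_c f) = valCusp1K (g γ⁻¹) f` for `γ ∈ Γ₀(M a)` with
lower right entry `c`. -/
theorem valCusp1K_dia (hR : RepInputs ι M a) (hG : GalInputs ι M a δ r) (c : (ZMod M)ˣ)
    (γ : SL(2, ℤ)) (hγ : γ ∈ Gamma0 (M * a)) (hc : (c : ZMod M) = lr M γ) (g : SL(2, ℤ))
    {f : F1aK K M a} (hf : f ≠ 0) :
    valCusp1K ι M a g (δ c f) = valCusp1K ι M a (g * γ⁻¹) f := by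
  refine RawVal.val_twist hR.isRepSys (isOrd_cusp1 ι M a g) (isOrd_cusp1 ι M a (g * γ⁻¹))
    (δ c).toAlgHom.toRingHom (r c) (fun P => hG.dia_fm1K c P) (fun P => ?_) hf
  have e : trans g (ev1K ι M a (r c P)) = trans (g * γ⁻¹) (ev1K ι M a P) := by
    funext z
    show ev1K ι M a (r c P) (g⁻¹ • z) = ev1K ι M a P ((g * γ⁻¹)⁻¹ • z)
    rw [← hG.ev1K_smul c γ hγ hc P, mul_inv_rev, inv_inv, mul_smul]
  show ordInf (M * a) (trans g (ev1K ι M a (r c P))) = _
  rw [e]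

/-- The lower right entry mod `M` of `γ ∈ Γ₀(M a)`, as a unit. -/
def lrU (γ : SL(2, ℤ)) (hγ : γ ∈ Gamma0 (M * a)) : (ZMod M)ˣ :=
  (isUnit_lowerRight_of_mem_Gamma0 γ (Gamma0_mul_le γ hγ)).unit

theorem coe_lrU (γ : SL(2, ℤ)) (hγ : γ ∈ Gamma0 (M * a)) :
    ((lrU γ hγ : (ZMod M)ˣ) : ZMod M) = lr M γ := rfl

/-- If `(δ_{d(ε)})^k = 1` then `d(ε^k) = ±1` mod `M`. -/
theorem lr_pow_of_dia_pow (hG : GalInputs ι M a δ r) {ε : SL(2, ℤ)} (hε : ε ∈ Gamma0 (M * a))
    (k : ℕ) (h : δ (lrU ε hε) ^ k = 1) : lr M (ε ^ k) = 1 ∨ lr M (ε ^ k) = -1 := by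
  rw [← map_pow] at h
  have h1 := hG.faithful _ h
  rw [lr_pow (Gamma0_mul_le ε hε) k, ← coe_lrU ε hε, ← Units.val_pow_eq_pow_val]
  rcases h1 with h1 | h1
  · left
    rw [h1, Units.val_one]
  · right
    rw [h1, Units.val_neg, Units.val_one]

theorem isOfFinOrder_dia (c : (ZMod M)ˣ) : IsOfFinOrder (δ c) :=
  δ.isOfFinOrder (isOfFinOrder_of_finite c)

/-- **The stabiliser of a point**: for `τ` of elliptic type `e₀` for `Γ₀(M a)` there is a diamond
of order `≥ e₀` preserving the point valuation at `τ` (`5 ≤ M`: `Γ₁(M)` has no elliptic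
elements). -/
theorem point_stab (hM : 5 ≤ M) (hR : RepInputs ι M a) (hG : GalInputs ι M a δ r) (τ : ℍ)
    {e₀ : ℕ} (hell : Ramif.EllType (M * a) τ e₀) :
    ∃ c₀ : (ZMod M)ˣ, (∀ f : F1aK K M a, f ≠ 0 →
      valPt1K ι M a τ (δ c₀ f) = valPt1K ι M a τ f) ∧ e₀ ≤ 1 * orderOf (δ c₀) := by
  have hone : (1 : SL(2, ℤ)) ≠ -1 := by decide
  -- the general mechanism for an element `ε ∈ Γ₀(M a)` fixing `τ`
  have key : ∀ (ε : SL(2, ℤ)) (hε : ε ∈ Gamma0 (M * a)), ε • τ = τ →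
      (∀ f : F1aK K M a, f ≠ 0 →
        valPt1K ι M a τ (δ (lrU ε hε) f) = valPt1K ι M a τ f) ∧
      ∀ k : ℕ, δ (lrU ε hε) ^ k = 1 → ε ^ k = 1 ∨ ε ^ k = -1 := by
    intro ε hε hfix
    refine ⟨fun f hf => ?_, fun k hk => ?_⟩
    · rw [valPt1K_dia hR hG (lrU ε hε) ε hε (coe_lrU ε hε) τ hf, hfix]
    · exact eq_one_or_neg_one_of_fixed a hM (pow_mem hε k) τ (pow_smul_eq_of_fixed ε τ hfix k)
        (lr_pow_of_dia_pow hG hε k hk)
  rcases hell with rfl | ⟨rfl, ε, hε, hε2, hfix⟩ | ⟨rfl, ε, hε, hε3, hε1, hfix⟩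
  · refine ⟨1, fun f _ => by rw [map_one]; rfl, ?_⟩
    rw [map_one, orderOf_one]
  · obtain ⟨h1, h2⟩ := key ε hε hfix
    refine ⟨lrU ε hε, h1, ?_⟩
    rw [one_mul]
    by_contra hlt
    have hpos : 0 < orderOf (δ (lrU ε hε)) := (isOfFinOrder_dia _).orderOf_pos
    have h1' : orderOf (δ (lrU ε hε)) = 1 := by omega
    have h3 := h2 1 (by rw [pow_one]; exact orderOf_eq_one_iff.mp h1')
    rw [pow_one] at h3
    rcases h3 with h3 | h3
    · rw [h3, one_pow] at hε2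
      exact hone hε2
    · rw [h3, neg_one_sq] at hε2
      exact hone hε2
  · obtain ⟨h1, h2⟩ := key ε hε hfix
    refine ⟨lrU ε hε, h1, ?_⟩
    rw [one_mul]
    by_contra hlt
    have hpos : 0 < orderOf (δ (lrU ε hε)) := (isOfFinOrder_dia _).orderOf_pos
    have h3 := h2 _ (pow_orderOf_eq_one _)
    have hk : orderOf (δ (lrU ε hε)) = 1 ∨ orderOf (δ (lrU ε hε)) = 2 := by omega
    rcases hk with hk | hk
    · rw [hk, pow_one] at h3
      rcases h3 with h3 | h3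
      · rw [h3, one_pow] at hε3
        exact hone hε3
      · exact hε1 h3
    · rw [hk] at h3
      rcases h3 with h3 | h3
      · have h4 : ε ^ 3 = ε := by rw [pow_succ, h3, one_mul]
        rw [h4] at hε3
        exact hε1 hε3
      · have h4 : ε ^ 3 = -ε := by rw [pow_succ, h3, neg_one_mul]
        rw [h4, neg_inj] at hε3
        rw [hε3, one_pow] at h3
        exact hone h3

section Instances

variable [IsAlgClosed K]

/-- `K·F1a(M, a)` is finite over the trunk. -/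
theorem finiteDimensional_F0 (hG : GalInputs ι M a δ r) :
    FiniteDimensional (FNK K (M * a)) (F1aK K M a) := by
  have hfinH : Finite δ.range := Finite.of_surjective δ.rangeRestrict δ.rangeRestrict_surjective
  have hgal : IsGaloisGroup δ.range (FNK K (M * a)) (F1aK K M a) :=
    DictRel.isGaloisGroup_of δ.range (by rintro σ ⟨c, rfl⟩ x; exact hG.fix c x)
      (fun f hf => hG.inv f fun c => hf (δ c) ⟨c, rfl⟩)
  exact IsGaloisGroup.finiteDimensional δ.range _ _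

theorem finiteDimensional_jBar1 (hG : GalInputs ι M a δ r) :
    FiniteDimensional K⟮algebraMap (FNK K (M * a)) (F1aK K M a) (jBarK K (M * a))⟯
      (F1aK K M a) := by
  have := finiteDimensional_F0 hG
  have := FinDimK.finiteDimensional_jBarK K (M * a)
  exact finiteDimensional_adjoin_algebraMap _

/-- `K·F1a(M, a)` has principal divisors. -/
theorem hasPrincipalDivisors (hG : GalInputs ι M a δ r) :
    HasPrincipalDivisors K (F1aK K M a) := by
  have := finiteDimensional_jBar1 hG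
  have : CharZero K := algebraRat.charZero K
  exact Fermat.Agent.Lib.FF.Ext.hasPrincipalDivisors
    (algebraMap (FNK K (M * a)) (F1aK K M a) (jBarK K (M * a)))

/-- Every place of `K·F1a(M, a)` has degree one. -/
theorem deg_eq_one (hG : GalInputs ι M a δ r) (w : Place K (F1aK K M a)) : w.deg = 1 := by
  have := finiteDimensional_jBar1 hG
  have : Algebra.IsAlgebraic
      K⟮algebraMap (FNK K (M * a)) (F1aK K M a) (jBarK K (M * a))⟯ (F1aK K M a) :=
    Algebra.IsAlgebraic.of_finite _ _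
  exact ARest.deg_eq_one (algebraMap (FNK K (M * a)) (F1aK K M a) (jBarK K (M * a))) w

/-- helper29's relative exact-index theorem for `K·F1a(M, a)` over the trunk: the conclusion for
a given place `w'` above `v`. -/
theorem exists_dia_of_restrict [FiniteDimensional (FNK K (M * a)) (F1aK K M a)]
    [HasPrincipalDivisors K (F1aK K M a)] (hG : GalInputs ι M a δ r)
    {V : F1aK K M a → ℤ} (hV : Counting.IsRawVal K V) (v : Place K (FNK K (M * a)))
    {e₀ e₁ : ℕ} (he₀ : 0 < e₀)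
    (hres : ∀ x : FNK K (M * a), x ≠ 0 →
      V (algebraMap (FNK K (M * a)) (F1aK K M a) x) = e₀ * v.ord x)
    (c₀ : (ZMod M)ˣ) (hc₀V : ∀ f : F1aK K M a, f ≠ 0 → V (δ c₀ f) = V f)
    (hcard : e₀ ≤ e₁ * orderOf (δ c₀)) (hdvd : ∀ f : F1aK K M a, f ≠ 0 → (e₁ : ℤ) ∣ V f)
    (w' : Place K (F1aK K M a)) (hw' : w'.restrict (FNK K (M * a)) = v) :
    ∃ c : (ZMod M)ˣ, ∀ f : F1aK K M a, f ≠ 0 → V (δ c f) = e₁ * w'.ord f := by
  have : CharZero K := algebraRat.charZero K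
  obtain ⟨-, -, -, -, h⟩ := DictRel.exists_place_exact_hom' δ
    (FinDimK.deg_eq_one_FNK K (M * a)) (deg_eq_one hG) hG.fix hG.inv hV v he₀ hres c₀ hc₀V
    hcard hdvd
  exact h w' hw'

/-- **Every place of `K·F1a(M, a)` is a point place or a cusp place**, with exact index: `1` at
points (no elliptic points for `5 ≤ M`), `M a / w` at a cusp of width `w`. -/
theorem place_cases (hM : 5 ≤ M) (hR : RepInputs ι M a) (hG : GalInputs ι M a δ r)
    (hD0 : Fermat.Agent.ESJ.Dict.IsDict ι (M * a)) (w : Place K (F1aK K M a)) :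
    (∃ τ : ℍ, ∀ f : F1aK K M a, f ≠ 0 → valPt1K ι M a τ f = w.ord f) ∨
    (∃ (g : SL(2, ℤ)) (e wd : ℕ), 0 < wd ∧ e * wd = M * a ∧
      g⁻¹ * ModularGroup.T ^ wd * g ∈ Gam1a M a ∧
      ∀ f : F1aK K M a, f ≠ 0 → valCusp1K ι M a g f = e * w.ord f) := by
  have hfd := finiteDimensional_F0 hG
  have hpd := hasPrincipalDivisors hG
  rcases hD0.place_cases (w.restrict (FNK K (M * a))) with
    ⟨τ, e₀, hell, hval⟩ | ⟨g, e₀, w₀, hw₀, hew, hmem, hval⟩
  · -- a point
    left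
    obtain ⟨c₀, hc₀V, hcard⟩ := point_stab hM hR hG τ hell
    obtain ⟨c, hc⟩ := exists_dia_of_restrict hG (hR.isRawVal_valPt1K τ) _ hell.pos
      (fun x hx => by rw [hR.valPt1K_algebraMap τ hx, hval x hx]) c₀ hc₀V hcard
      (fun f _ => one_dvd _) w rfl
    obtain ⟨γ, hγ, hlr⟩ := GalArt.exists_rep_lr M a c
    refine ⟨γ • τ, fun f hf => ?_⟩
    rw [← valPt1K_dia hR hG c γ hγ hlr.symm τ hf, hc f hf, Nat.cast_one, one_mul]
  · -- a cusp
    right
    have hN : 0 < M * a := Nat.pos_of_ne_zero (NeZero.ne _)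
    have he₀ : 0 < e₀ := by
      rcases Nat.eq_zero_or_pos e₀ with h0 | h0
      · rw [h0, zero_mul] at hew
        omega
      · exact h0
    set p := g⁻¹ * ModularGroup.T ^ w₀ * g with hp
    have hkpos : 0 < orderOf (δ (lrU p hmem)) := (isOfFinOrder_dia _).orderOf_pos
    set k := orderOf (δ (lrU p hmem)) with hk
    have hpk : p ^ k = g⁻¹ * ModularGroup.T ^ (w₀ * k) * g := by
      rw [hp, Ramif.conj_pow', ← pow_mul]
    have hpkmem : g⁻¹ * ModularGroup.T ^ (w₀ * k) * g ∈ Gam1a M a := by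
      have h1 := lr_pow_of_dia_pow hG hmem k (pow_orderOf_eq_one _)
      rw [hpk] at h1
      exact conj_T_pow_mem_Gam1a_of_lr a hM g (w₀ * k) (hpk ▸ pow_mem hmem k) h1
    have hkdvd : k ∣ e₀ := by
      apply orderOf_dvd_of_pow_eq_one
      rw [← map_pow]
      have h1 : lrU p hmem ^ e₀ = 1 := by
        apply Units.ext
        rw [Units.val_pow_eq_pow_val, coe_lrU, ← lr_pow (Gamma0_mul_le p hmem) e₀, Units.val_one]
        apply lr_of_mem_Gam1a a
        rw [hp, Ramif.conj_pow', ← pow_mul, mul_comm, hew]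
        have h2 := conj_T_pow_mem_Gamma1_inf_Gamma0 (M := M) (N := M * a) (Dvd.intro a rfl) g⁻¹
        rwa [inv_inv, zpow_natCast] at h2
      rw [h1, map_one]
    obtain ⟨e₁, he₁⟩ := hkdvd
    have hVc : ∀ f : F1aK K M a, f ≠ 0 →
        valCusp1K ι M a g (δ (lrU p hmem) f) = valCusp1K ι M a g f := by
      intro f hf
      rw [valCusp1K_dia hR hG (lrU p hmem) p hmem (coe_lrU p hmem) g hf]
      have h1 : g * p⁻¹ = ModularGroup.T ^ (-(w₀ : ℤ)) * g := by
        rw [hp, zpow_neg, zpow_natCast]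
        group
      rw [h1, hR.valCusp1K_T_zpow_mul _ g hf]
    have hdvd : ∀ f : F1aK K M a, f ≠ 0 → (e₁ : ℤ) ∣ valCusp1K ι M a g f := by
      intro f hf
      have h1 := hR.dvd_valCusp1K_mul g (w₀ * k) hpkmem hf
      have h2 : ((M * a : ℕ) : ℤ) = (e₁ : ℤ) * ((w₀ * k : ℕ) : ℤ) := by
        rw [← hew, he₁]
        push_cast
        ring
      rw [h2] at h1
      have h3 : ((w₀ * k : ℕ) : ℤ) ≠ 0 := by
        exact_mod_cast (Nat.mul_pos hw₀ hkpos).ne'
      exact Int.dvd_of_mul_dvd_mul_right h3 h1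
    obtain ⟨c, hc⟩ := exists_dia_of_restrict hG (hR.isRawVal_valCusp1K g) _ he₀
      (fun x hx => by rw [hR.valCusp1K_algebraMap g hx, hval x hx]) (lrU p hmem) hVc
      (by rw [he₁, mul_comm]) hdvd w rfl
    obtain ⟨γ, hγ, hlr⟩ := GalArt.exists_rep_lr M a c
    refine ⟨g * γ⁻¹, e₁, w₀ * k, Nat.mul_pos hw₀ hkpos, ?_, ?_, fun f hf => ?_⟩
    · rw [← hew, he₁]
      ring
    · have h1 := conj_mem_Gam1a a hγ hpkmem
      have h2 : (g * γ⁻¹)⁻¹ * ModularGroup.T ^ (w₀ * k) * (g * γ⁻¹)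
          = γ * (g⁻¹ * ModularGroup.T ^ (w₀ * k) * g) * γ⁻¹ := by group
      rw [h2]
      exact h1
    · rw [← valCusp1K_dia hR hG c γ hγ hlr.symm g hf, hc f hf]

/-- **Kummer form**: `n` divides all orders of `f` iff the point orders are divisible by `n` and
the cusp orders (in `q_{M a}`) by `n * (M a / w)`. -/
theorem forall_dvd_ord_iff (hM : 5 ≤ M) (hR : RepInputs ι M a) (hG : GalInputs ι M a δ r)
    (hD0 : Fermat.Agent.ESJ.Dict.IsDict ι (M * a)) (n : ℕ) (f : F1aK K M a) (hf : f ≠ 0) :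
    (∀ v : Place K (F1aK K M a), (n : ℤ) ∣ v.ord f) ↔
      (∀ τ : ℍ, (n : ℤ) ∣ valPt1K ι M a τ f) ∧
      (∀ (g : SL(2, ℤ)) (w : ℕ), 0 < w → w ∣ M * a →
        g⁻¹ * ModularGroup.T ^ w * g ∈ Gam1a M a →
        ((n * (M * a / w) : ℕ) : ℤ) ∣ valCusp1K ι M a g f) := by
  constructor
  · intro h
    refine ⟨fun τ => ?_, fun g w hw hwN hmem => ?_⟩
    · have hV := hR.isRawVal_valPt1K τ
      by_cases hnt : ∃ f' : F1aK K M a, f' ≠ 0 ∧ valPt1K ι M a τ f' ≠ 0
      · obtain ⟨m, -, -, hu⟩ := hV.exists_mul_ord hnt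
        rw [hu f hf]
        exact Dvd.dvd.mul_left (h _) _
      · push Not at hnt
        rw [hnt f hf]
        exact dvd_zero _
    · have hV := hR.isRawVal_valCusp1K g
      by_cases hnt : ∃ f' : F1aK K M a, f' ≠ 0 ∧ valCusp1K ι M a g f' ≠ 0
      · obtain ⟨m, -, ⟨π, hπ0, hπ1, hπm⟩, hu⟩ := hV.exists_mul_ord hnt
        have h1 := hR.dvd_valCusp1K_mul g w hmem hπ0
        rw [hπm] at h1
        obtain ⟨q, hq⟩ := hwN
        have hq' : M * a / w = q := by
          rw [hq]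
          exact Nat.mul_div_cancel_left q hw
        have h2 : (q : ℤ) ∣ m := by
          rw [hq] at h1
          push_cast at h1
          rw [mul_comm (w : ℤ) (q : ℤ)] at h1
          exact Int.dvd_of_mul_dvd_mul_right (by exact_mod_cast hw.ne') h1
        obtain ⟨m', hm'⟩ := h2
        obtain ⟨t, ht⟩ := h (hV.place hnt)
        rw [hq', hu f hf, hm', ht]
        push_cast
        exact ⟨m' * t, by ring⟩
      · push Not at hnt
        rw [hnt f hf]
        exact dvd_zero _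
  · rintro ⟨hpt, hcusp⟩ v
    rcases place_cases hM hR hG hD0 v with ⟨τ, hτ⟩ | ⟨g, e, w, hw, hew, hmem, hval⟩
    · rw [← hτ f hf]
      exact hpt τ
    · have h1 := hcusp g w hw (Dvd.intro_left e hew) hmem
      have hq : M * a / w = e := by
        rw [← hew]
        exact Nat.mul_div_cancel e hw
      rw [hq, hval f hf] at h1
      push_cast at h1
      have he : (e : ℤ) ≠ 0 := by
        have hN : 0 < M * a := Nat.pos_of_ne_zero (NeZero.ne _)
        rcases Nat.eq_zero_or_pos e with h0 | h0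
        · rw [h0, zero_mul] at hew
          omega
        · exact_mod_cast h0.ne'
      rw [mul_comm (n : ℤ) (e : ℤ)] at h1
      exact Int.dvd_of_mul_dvd_mul_left he h1

end Instances

end Main

end Fermat.Agent.G1.Dict.Place
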