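import Mathlib
import Fermat.Agent.G1.Dict.Place
import Fermat.Agent.G1.Dict.Rho
import Fermat.Agent.G1.Dict.Inst
import Fermat.Agent.G1.GalInst
import Fermat.Agent.ESJ.Dict.Main

/-!
# G1 / DICT: the dictionary `IsDict1 ι M a` of `Γ₁(M) ∩ Γ₀(M a)`, unconditionally

The inputs `RepInputs` / `GalInputs` of `G1/Dict/Place.lean` are instantiated with the diamond
automorphisms `Gal.diaK` of `G1/GalBridge.lean`, their fixed field (`G1/GalInst.lean`) and their
faithfulness (`G1/Dict/Rho.lean`); the structure `IsDict1 ι M a` is then assembled from the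
calculus of `mer1K` (`Dict/Mer`), the cusp half (`Dict/Cusp`), the function field glue
(`Dict/FFGlue`) and the place half (`Dict/Place`).

* `repInputs`, `galInputs`;
* `place_cases`, `forall_dvd_ord_iff` : the place half, from the trunk dictionary at level `M a`;
* `isDict1_of_trunk` : `IsDict ι (M a) → IsDict1 ι M a` (`5 ≤ M`, `K` algebraically closed);
* `isDict1_Qbar`, `isDict1_C` : the two instances.
-/

set_option autoImplicit false

open UpperHalfPlane ModularForm AlgebraicCurve CongruenceSubgroup ModularCurve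
open scoped MatrixGroups Manifold

noncomputable section

namespace Fermat.Agent.G1.Dict.Main

open Fermat.Agent.S24 Fermat.Agent.ESJ.Jac Fermat.Agent.ESJ.Dict

variable {K : Type} [Field K] [Algebra ℚ K] (ι : K →+* ℂ) (M a : ℕ) [NeZero M] [NeZero a]

/-- The representation inputs of the place half. -/
theorem repInputs : Place.RepInputs ι M a where
  exists_isRep1K := Gal.exists_isRep1K M a
  fm1K_eq_zero_iff := Gal.fm1K_eq_zero_iff ι M a

/-- The Galois inputs of the place half: the diamonds `Gal.diaK`. -/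
theorem galInputs (hM : 3 ≤ M) :
    Place.GalInputs ι M a (Gal.diaK ι M a) (fun c => Gal.tw K M a c) where
  dia_fm1K := Gal.diaK_fm1K ι M a
  ev1K_smul := fun c γ hγ hc P z => Gal.ev1K_smul ι M a c γ hγ hc P z
  fix := Gal.diaK_algebraMap_F0 ι M a
  inv := GalArt.diaK_fixed_mem_range ι M a
  faithful := fun c h => (Rho.diaK_eq_one_iff ι M a hM c).mp h

/-- **Every place of `K·F1a(M, a)` is a point place (exact index `1`) or a cusp place (index
`M a / w`)**, from the trunk dictionary at level `M a`. -/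
theorem place_cases [IsAlgClosed K] (hM : 5 ≤ M) (hD0 : IsDict ι (M * a))
    (w : Place K (F1aK K M a)) :
    (∃ τ : ℍ, ∀ f : F1aK K M a, f ≠ 0 → valPt1K ι M a τ f = w.ord f) ∨
    (∃ (g : SL(2, ℤ)) (e wd : ℕ), 0 < wd ∧ e * wd = M * a ∧
      g⁻¹ * ModularGroup.T ^ wd * g ∈ Gam1a M a ∧
      ∀ f : F1aK K M a, f ≠ 0 → valCusp1K ι M a g f = e * w.ord f) :=
  Place.place_cases hM (repInputs ι M a) (galInputs ι M a (by omega)) hD0 w

/-- The Kummer form of the dictionary. -/
theorem forall_dvd_ord_iff [IsAlgClosed K] (hM : 5 ≤ M) (hD0 : IsDict ι (M * a))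
    (n : ℕ) (f : F1aK K M a) (hf : f ≠ 0) :
    (∀ v : Place K (F1aK K M a), (n : ℤ) ∣ v.ord f) ↔
      (∀ τ : ℍ, (n : ℤ) ∣ valPt1K ι M a τ f) ∧
      (∀ (g : SL(2, ℤ)) (w : ℕ), 0 < w → w ∣ M * a →
        g⁻¹ * ModularGroup.T ^ w * g ∈ Gam1a M a →
        ((n * (M * a / w) : ℕ) : ℤ) ∣ valCusp1K ι M a g f) :=
  Place.forall_dvd_ord_iff hM (repInputs ι M a) (galInputs ι M a (by omega)) hD0 n f hf

/-- **The dictionary of `Γ₁(M) ∩ Γ₀(M a)`** from the trunk dictionary at level `M a`. -/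
theorem isDict1_of_trunk [IsAlgClosed K] [CharZero K] (hM : 5 ≤ M) (hD0 : IsDict ι (M * a)) :
    IsDict1 ι M a where
  exists_isRep1K := Gal.exists_isRep1K M a
  fm1K_eq_zero_iff := Gal.fm1K_eq_zero_iff ι M a
  mdiff_ev1K := Gal.mdiff_ev1K ι M a
  ev1K_smul := Gal.ev1K_smul_Gam1a ι M a
  valPt1K_eq_of_isRep1K := fun τ _ _ _ h hf => Gal.valPt1K_eq_of_isRep1K ι M a τ hf h
  valCusp1K_eq_of_isRep1K := cusp_valCusp1K_eq_of_isRep1K ι M a
  mer1K_eq_div_ae := fun _ _ _ h => Gal.mer1K_eventuallyEq_of_isRep1K ι M a h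
  isRawVal_valPt1K := Mer.isRawVal_valPt1K ι M a
  isRawVal_valCusp1K := cusp_isRawVal_valCusp1K ι M a
  meromorphicOn_mer1K := Mer.meromorphicOn_mer1K ι M a
  meromorphicOrderAt_mer1K := Mer.meromorphicOrderAt_mer1K ι M a
  mer1K_mob := fun f γ hγ _ hz => Gal.mer1K_mob ι M a f γ hγ hz
  mer1K_mul := Mer.mer1K_mul ι M a
  mer1K_add := Mer.mer1K_add ι M a
  mer1K_algebraMap := Mer.mer1K_algebraMap ι M a
  mer1K_eq_zero_iff := Mer.mer1K_eq_zero_iff ι M a
  mer1K_cusp_shape := cusp_mer1K_cusp_shape ι M a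
  merAtCusps_mer1K := cusp_merAtCusps_mer1K ι M a
  hasPrincipalDivisors := FFGlue.hasPrincipalDivisors_F1aK K M a
  dvd_valCusp1K_mul := cusp_dvd_valCusp1K_mul ι M a
  place_cases := place_cases ι M a hM hD0
  forall_dvd_ord_iff := forall_dvd_ord_iff ι M a hM hD0

/-- **The dictionary over `ℚ̄`.** -/
theorem isDict1_Qbar (hM : 5 ≤ M) : IsDict1 iotaK M a :=
  isDict1_of_trunk iotaK M a hM (isDict_Qbar (M * a))

/-- **The dictionary over `ℂ`.** -/
theorem isDict1_C (hM : 5 ≤ M) : IsDict1 (RingHom.id ℂ) M a :=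
  isDict1_of_trunk (RingHom.id ℂ) M a hM (isDict_C (M * a))

end Fermat.Agent.G1.Dict.Main
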